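import Mathlib.AlgebraicGeometry.EllipticCurve.DivisionPolynomial.Degree
import Mathlib.AlgebraicGeometry.EllipticCurve.Affine.AddSubMap

/-!
# Differential addition on x-coordinates

For two affine points `A`, `B` with different x-coordinates `u`, `v`, the x-coordinates of `A + B`
and `A - B` are the roots of an explicit quadratic which is symmetric in `(T, u, v)`.
-/

set_option autoImplicit false

open Polynomial WeierstrassCurve WeierstrassCurve.Affine

namespace FermatAgent.EC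

universe u

variable {R : Type u} [CommRing R] (W : WeierstrassCurve R)

/-- Numerator of `x(A + B) + x(A - B)` with `x(A) = a`, `x(B) = b / d`, scaled by `d²`. -/
def biSum (a b d : R) : R :=
  2 * a * b * (a * d + b) + W.b₂ * a * b * d + W.b₄ * (a * d + b) * d + W.b₆ * d ^ 2

/-- Numerator of `x(A + B) * x(A - B)` with `x(A) = a`, `x(B) = b / d`, scaled by `d²`. -/
def biProd (a b d : R) : R :=
  a ^ 2 * b ^ 2 - W.b₄ * a * b * d - W.b₆ * (a * d + b) * d - W.b₈ * d ^ 2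

/-- The symmetric biquadratic form relating `x(A ± B)`, `x(A)`, `x(B)`. -/
def triQuad (t a b : R) : R :=
  t ^ 2 * (a - b) ^ 2 - t * biSum W a b 1 + biProd W a b 1

/-- The biquadratic form is invariant under rotating its arguments. -/
lemma triQuad_rotate (t a b : R) : triQuad W t a b = triQuad W a b t := by
  simp only [triQuad, biSum, biProd]; ring

/-- The biquadratic sum commutes with ring homomorphisms. -/
lemma biSum_map {S : Type*} [CommRing S] (f : R →+* S) (a b d : R) :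
    f (biSum W a b d) = biSum (W.map f) (f a) (f b) (f d) := by
  simp [biSum, map_b₂, map_b₄, map_b₆, map_ofNat]

/-- The biquadratic product commutes with ring homomorphisms. -/
lemma biProd_map {S : Type*} [CommRing S] (f : R →+* S) (a b d : R) :
    f (biProd W a b d) = biProd (W.map f) (f a) (f b) (f d) := by
  simp [biProd, map_b₄, map_b₆, map_b₈]

/-- At equal points the biquadratic sum is `Ψ₂²`. -/
lemma biSum_self (a : R) : biSum W a a 1 = (W.Ψ₂Sq).eval a := by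
  simp [biSum, Ψ₂Sq]; ring

/-- At equal points the biquadratic product is `Φ₂`. -/
lemma biProd_self (a : R) : biProd W a a 1 = (W.Φ 2).eval a := by
  simp [biProd]; ring

/-- The biquadratic sum scales with the square of the denominator. -/
lemma biSum_scale (a b d : R) : biSum W a (b * d) d = biSum W a b 1 * d ^ 2 := by
  simp only [biSum]; ring

/-- The biquadratic product scales with the square of the denominator. -/
lemma biProd_scale (a b d : R) : biProd W a (b * d) d = biProd W a b 1 * d ^ 2 := by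
  simp only [biProd]; ring

section Field

variable {F : Type u} [Field F] [DecidableEq F] {V : Affine F}

lemma addX_add_addX_neg {x₁ x₂ y₁ y₂ : F} (h₁ : V.Equation x₁ y₁) (h₂ : V.Equation x₂ y₂)
    (hx : x₁ ≠ x₂) :
    (V.addX x₁ x₂ (V.slope x₁ x₂ y₁ y₂) + V.addX x₁ x₂ (V.slope x₁ x₂ y₁ (V.negY x₂ y₂))) *
      (x₁ - x₂) ^ 2 = biSum V x₁ x₂ 1 := by
  rw [equation_iff] at h₁ h₂
  have hx' : x₁ - x₂ ≠ 0 := sub_ne_zero.2 hx
  rw [slope_of_X_ne hx, slope_of_X_ne hx]
  simp only [addX, negY, biSum, b₂, b₄, b₆]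
  field_simp
  linear_combination 2 * h₁ + 2 * h₂

lemma addX_mul_addX_neg {x₁ x₂ y₁ y₂ : F} (h₁ : V.Equation x₁ y₁) (h₂ : V.Equation x₂ y₂)
    (hx : x₁ ≠ x₂) :
    (V.addX x₁ x₂ (V.slope x₁ x₂ y₁ y₂) * V.addX x₁ x₂ (V.slope x₁ x₂ y₁ (V.negY x₂ y₂))) *
      (x₁ - x₂) ^ 2 = biProd V x₁ x₂ 1 := by
  rw [equation_iff] at h₁ h₂
  have hx' : x₁ - x₂ ≠ 0 := sub_ne_zero.2 hx
  rw [slope_of_X_ne hx, slope_of_X_ne hx]
  simp only [addX, negY, biProd, b₄, b₆, b₈]
  field_simp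
  grobner

lemma addX_triQuad {x₁ x₂ y₁ y₂ : F} (h₁ : V.Equation x₁ y₁) (h₂ : V.Equation x₂ y₂)
    (hx : x₁ ≠ x₂) (t : F) :
    (t - V.addX x₁ x₂ (V.slope x₁ x₂ y₁ y₂)) *
      (t - V.addX x₁ x₂ (V.slope x₁ x₂ y₁ (V.negY x₂ y₂))) * (x₁ - x₂) ^ 2 =
        triQuad V t x₁ x₂ := by
  rw [triQuad, ← addX_add_addX_neg h₁ h₂ hx, ← addX_mul_addX_neg h₁ h₂ hx]
  ring

/-- Both x-coordinates of `P + Q`, `P - Q` for affine points with different x-coordinates. -/
lemma exists_add_sub {x₁ x₂ y₁ y₂ : F} (h₁ : V.Nonsingular x₁ y₁) (h₂ : V.Nonsingular x₂ y₂)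
    (hx : x₁ ≠ x₂) :
    ∃ (s d sy dy : F) (hs : V.Nonsingular s sy) (hd : V.Nonsingular d dy),
      Point.some _ _ h₁ + Point.some _ _ h₂ = Point.some s sy hs ∧
      Point.some _ _ h₁ - Point.some _ _ h₂ = Point.some d dy hd ∧
      (s + d) * (x₁ - x₂) ^ 2 = biSum V x₁ x₂ 1 ∧
      s * d * (x₁ - x₂) ^ 2 = biProd V x₁ x₂ 1 ∧
      ∀ t : F, (t - s) * (t - d) * (x₁ - x₂) ^ 2 = triQuad V t x₁ x₂ := by
  refine ⟨_, _, _, V.addY x₁ x₂ y₁ (V.slope x₁ x₂ y₁ (V.negY x₂ y₂)), _,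
    nonsingular_add h₁ ((nonsingular_neg ..).mpr h₂) (fun h => hx h.1),
    Point.add_of_X_ne hx, ?_, addX_add_addX_neg h₁.1 h₂.1 hx,
    addX_mul_addX_neg h₁.1 h₂.1 hx, addX_triQuad h₁.1 h₂.1 hx⟩
  rw [sub_eq_add_neg, Point.neg_some, Point.add_of_X_ne hx]

/-- The duplication polynomials `Φ₂` and `Ψ₂²` have no common root when `Δ ≠ 0`. -/
lemma Φ_two_or_Ψ₂Sq_ne_zero (V : WeierstrassCurve F) (hΔ : V.Δ ≠ 0) (x : F) :
    (V.Φ 2).eval x ≠ 0 ∨ V.Ψ₂Sq.eval x ≠ 0 := by
  have : V.IsElliptic := ⟨hΔ.isUnit⟩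
  by_contra h
  push Not at h
  have hx : (![x ^ 2, 2 * x, 1] : Fin 3 → F) ≠ 0 := fun h0 => by simpa using congrFun h0 2
  apply addSubMap_ne_zero V hx
  obtain ⟨h1, h2⟩ := h
  simp [Ψ₂Sq] at h1 h2
  funext i
  fin_cases i <;> simp [addSubMap]
  · linear_combination h1
  · linear_combination h2
  · ring

end Field

end FermatAgent.EC
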