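import Fermat.Agent.EC.Frobenius
import Fermat.Prelude.Def_FreyPackage_DetCyclotomic
import Mathlib.FieldTheory.Finite.Basic

/-!
# Frobenius on the points of a curve over a finite field
-/

set_option autoImplicit false

noncomputable section

open WeierstrassCurve WeierstrassCurve.Affine

namespace FermatAgent.EC

universe u v

variable {F : Type u} [Field F] [Finite F] {k : Type v} [Field k] [IsAlgClosed k] [DecidableEq k]
  [Algebra F k] (W : WeierstrassCurve F)

omit [IsAlgClosed k] [DecidableEq k] in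
/-- The fixed elements of `x ↦ x^#F` are the elements of `F`. -/
theorem exists_algebraMap_eq_of_pow_card_eq {x : k} (hx : x ^ Nat.card F = x) :
    ∃ a : F, algebraMap F k a = x := by
  classical
  have := Fintype.ofFinite F
  rw [Nat.card_eq_fintype_card] at hx
  by_contra h
  push Not at h
  have hne := FiniteField.X_pow_card_sub_X_ne_zero k (Fintype.one_lt_card (α := F))
  have hsub : insert x (Finset.univ.image (algebraMap F k)) ⊆
      (Polynomial.X ^ Fintype.card F - Polynomial.X : Polynomial k).roots.toFinset := by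
    intro y hy
    rw [Multiset.mem_toFinset, Polynomial.mem_roots hne, Polynomial.IsRoot.def,
      Polynomial.eval_sub, Polynomial.eval_pow, Polynomial.eval_X, sub_eq_zero]
    rcases Finset.mem_insert.1 hy with rfl | hy
    · exact hx
    · obtain ⟨a, -, rfl⟩ := Finset.mem_image.1 hy
      rw [← map_pow, FiniteField.pow_card]
  have h1 := (Finset.card_le_card hsub).trans
    ((Multiset.toFinset_card_le _).trans (Polynomial.card_roots' _))
  rw [Finset.card_insert_of_notMem (by simp [h]),
    Finset.card_image_of_injective _ (algebraMap F k).injective,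
    FiniteField.X_pow_card_sub_X_natDegree_eq k (Fintype.one_lt_card (α := F)),
    Finset.card_univ] at h1
  omega

omit [IsAlgClosed k] in
/-- The rational points are the fixed points of Frobenius. -/
theorem natCard_fixed_eq_card (σ : k ≃ₐ[F] k) (hσ : ∀ x : k, σ x = x ^ Nat.card F) :
    Nat.card {P : (W⁄k).Point // σ • P = P} = W.card := by
  classical
  symm
  refine Nat.card_eq_of_bijective (fun P => ⟨Point.map (W' := W.toAffine) (Algebra.ofId F k)
    (show (W⁄F).Point from P), ?_⟩) ⟨?_, ?_⟩
  · rw [Point.algEquiv_smul_def, Point.map_map]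
    exact congrArg (fun f : F →ₐ[F] k => Point.map (W' := W.toAffine) f (show (W⁄F).Point from P))
      (Subsingleton.elim _ _)
  · intro P Q h
    exact Point.map_injective (W' := W.toAffine) (Algebra.ofId F k) (congrArg Subtype.val h)
  · rintro ⟨P, hP⟩
    rcases P with _ | ⟨x, y, h⟩
    · exact ⟨(0 : W.toAffine.Point), Subtype.ext (map_zero _)⟩
    · rw [Point.algEquiv_smul_def, Point.map_some] at hP
      simp only [Point.some.injEq] at hP
      obtain ⟨a, rfl⟩ := exists_algebraMap_eq_of_pow_card_eq (F := F) ((hσ x).symm.trans hP.1)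
      obtain ⟨b, rfl⟩ := exists_algebraMap_eq_of_pow_card_eq (F := F) ((hσ y).symm.trans hP.2)
      exact ⟨Point.some a b
        ((Affine.map_nonsingular W.toAffine (algebraMap F k).injective a b).mp h),
        Subtype.ext rfl⟩

omit [IsAlgClosed k] [DecidableEq k] in
/-- Data of the Frobenius automorphism. -/
theorem exists_charP_pow (σ : k ≃ₐ[F] k) (hσ : ∀ x : k, σ x = x ^ Nat.card F) :
    ∃ p r : ℕ, p.Prime ∧ CharP k p ∧ 0 < r ∧ Nat.card F = p ^ r ∧
      ∀ x : k, σ.toRingEquiv x = x ^ (p ^ r) := by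
  have := Fintype.ofFinite F
  obtain ⟨p, hp⟩ := CharP.exists F
  obtain ⟨r, hpp, hc⟩ := FiniteField.card F p
  rw [← Nat.card_eq_fintype_card] at hc
  exact ⟨p, r, hpp, charP_of_injective_algebraMap' F p, r.pos, hc, fun x => hc ▸ hσ x⟩

variable {W}

omit [IsAlgClosed k] in
/-- The fixed points of Frobenius are the rational points, so are `#E(F)` in number. -/
lemma fixedCard_eq_card (σ : k ≃ₐ[F] k) (hσ : ∀ x : k, σ x = x ^ Nat.card F)
    (h : (W⁄k : WeierstrassCurve k).map σ.toRingEquiv.toRingHom = (W⁄k : WeierstrassCurve k)) :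
    fixedCard (σ := σ.toRingEquiv) h = W.card := by
  rw [← natCard_fixed_eq_card W σ hσ, fixedCard]
  refine Nat.card_congr (Equiv.subtypeEquivRight fun P => ?_)
  rw [Point.algEquiv_smul_def]
  cases P <;> exact Iff.rfl

omit [IsAlgClosed k] [DecidableEq k] [Finite F] in
/-- Automorphisms over the finite field fix the curve. -/
lemma map_algEquiv_finite (σ : k ≃ₐ[F] k) :
    (W⁄k : WeierstrassCurve k).map σ.toRingEquiv.toRingHom = (W⁄k : WeierstrassCurve k) := by
  show (W.map (algebraMap F k)).map _ = W.map (algebraMap F k)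
  rw [WeierstrassCurve.map_map]
  congr 1
  exact RingHom.ext fun c => σ.commutes c

section Torsion

variable {ℓ : ℕ} [Fact ℓ.Prime]

/-- The trace of Frobenius on `E[ℓ]`. -/
theorem trace_galoisRep_frobenius (hΔ : W.Δ ≠ 0) (hℓ : (ℓ : k) ≠ 0) (σ : k ≃ₐ[F] k)
    (hσ : ∀ x : k, σ x = x ^ Nat.card F) :
    LinearMap.trace (ZMod ℓ) _
      (Point.galoisRep (S := F) (K := k) W.toAffine ℓ σ).toLinearMap =
        (W.traceOfFrobenius : ZMod ℓ) := by
  have : WeierstrassCurve.IsElliptic (W⁄k : WeierstrassCurve k) :=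
    ⟨isUnit_iff_ne_zero.2 (by
      show (W.map (algebraMap F k)).Δ ≠ 0
      rw [WeierstrassCurve.map_Δ]; exact (_root_.map_ne_zero _).2 hΔ)⟩
  obtain ⟨p, r, hp, hk, hr, hc, hσ'⟩ := exists_charP_pow σ hσ
  have := Fact.mk hp
  have h := trace_frobTorsion (V := (W⁄k : WeierstrassCurve k)) (ℓ := ℓ) hr
    (map_algEquiv_finite (W := W) σ) hσ' hℓ
  rw [fixedCard_eq_card σ hσ, ← hc] at h
  refine Eq.trans ?_ h
  congr 1
  refine LinearMap.ext fun P => Subtype.ext ?_
  show ((σ • P : Submodule.torsionBy ℤ (W⁄k).Point ℓ) : (W⁄k).Point) = _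
  show σ • (P : (W⁄k).Point) = mapPoint _ _ _
  rw [Point.algEquiv_smul_def]
  cases (P : (W⁄k).Point) <;> rfl

end Torsion

end FermatAgent.EC
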