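import Fermat.Agent.EC.Torsion
import Mathlib.FieldTheory.KrullTopology
import Mathlib.Topology.Algebra.OpenSubgroup
import Fermat.Prelude.Def_GaloisRep_Residual

/-!
# Torsion of curves over `ℚ` in `ℚ̄`

`E[n](ℚ̄)` has `n²` elements, `E[p](ℚ̄)` is a plane over `ZMod p`, and the Galois action on
`E[n](ℚ̄)` factors through a number field.
-/

set_option autoImplicit false

open Polynomial WeierstrassCurve WeierstrassCurve.Affine

namespace FermatAgent.EC

universe u v

/-- A base change of a nonsingular curve is nonsingular. -/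
lemma baseChange_Δ_ne_zero {F : Type u} [Field F] {K : Type v} [Field K] [Algebra F K]
    (W : WeierstrassCurve F) (hΔ : W.Δ ≠ 0) : (W⁄K).Δ ≠ 0 := by
  show (W.map (algebraMap F K)).Δ ≠ 0
  rw [map_Δ]
  exact (_root_.map_ne_zero _).2 hΔ

/-- An integral model with nonzero discriminant gives a nonsingular curve over `ℚ`. -/
lemma intMap_Δ_ne_zero {W : WeierstrassCurve ℤ} (hΔ : W.Δ ≠ 0) :
    (W.map (Int.castRingHom ℚ)).Δ ≠ 0 := by
  rw [map_Δ, eq_intCast]; exact_mod_cast hΔ

section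

variable {F : Type u} [Field F] {k : Type v} [Field k] [IsAlgClosed k] [DecidableEq k] [Algebra F k]
  (W : WeierstrassCurve F)

/-- `#E[n](k) = n²` for a base change to an algebraically closed field. -/
theorem natCard_torsionBy_baseChange (hΔ : W.Δ ≠ 0) {n : ℕ} (hn : (n : k) ≠ 0) :
    Nat.card (Submodule.torsionBy ℤ (W⁄k).Point n) = n ^ 2 :=
  natCard_torsionBy (baseChange_Δ_ne_zero W hΔ) hn

/-- `E[n](k)` is finite for `n` invertible in `k`. -/
theorem finite_torsionBy_baseChange (hΔ : W.Δ ≠ 0) {n : ℕ} (hn : (n : k) ≠ 0) :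
    Finite (Submodule.torsionBy ℤ (W⁄k).Point n) :=
  finite_torsionBy (baseChange_Δ_ne_zero W hΔ) hn

/-- `E[p](k)` is a plane over `ZMod p`. -/
theorem finrank_torsionBy_baseChange (hΔ : W.Δ ≠ 0) {p : ℕ} [hp : Fact p.Prime] (hn : (p : k) ≠ 0) :
    Module.finrank (ZMod p) (Submodule.torsionBy ℤ (W⁄k).Point p) = 2 := by
  have := finite_torsionBy_baseChange W hΔ hn
  have h := Module.natCard_eq_pow_finrank (K := ZMod p)
    (V := Submodule.torsionBy ℤ (W⁄k).Point p)
  rw [natCard_torsionBy_baseChange W hΔ hn, Nat.card_zmod] at h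
  exact (Nat.pow_right_injective hp.out.two_le h).symm

/-- For `p` invertible in the field the `p`-torsion is finite-dimensional over `ZMod p`. -/
theorem finiteDimensional_torsionBy_baseChange (hΔ : W.Δ ≠ 0) {p : ℕ} [Fact p.Prime]
    (hn : (p : k) ≠ 0) :
    Module.Finite (ZMod p) (Submodule.torsionBy ℤ (W⁄k).Point p) :=
  Module.finite_of_finrank_eq_succ (finrank_torsionBy_baseChange W hΔ hn)

end

variable (W : WeierstrassCurve ℚ)

/-- `#E[n](ℚ̄) = n²`. -/
theorem natCard_torsionBy_rat (hΔ : W.Δ ≠ 0) {n : ℕ} (hn : n ≠ 0) :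
    Nat.card (Submodule.torsionBy ℤ (W⁄(AlgebraicClosure ℚ)).Point n) = n ^ 2 :=
  natCard_torsionBy_baseChange W hΔ (Nat.cast_ne_zero.2 hn)

/-- `E[n](ℚ̄)` is finite. -/
theorem finite_torsionBy_rat (hΔ : W.Δ ≠ 0) {n : ℕ} (hn : n ≠ 0) :
    Finite (Submodule.torsionBy ℤ (W⁄(AlgebraicClosure ℚ)).Point n) :=
  finite_torsionBy_baseChange W hΔ (Nat.cast_ne_zero.2 hn)

/-- The geometric `p`-torsion of an elliptic curve over `ℚ` is a plane over `ZMod p`. -/
theorem finrank_torsionBy_rat (hΔ : W.Δ ≠ 0) (p : ℕ) [hp : Fact p.Prime] :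
    Module.finrank (ZMod p) (Submodule.torsionBy ℤ (W⁄(AlgebraicClosure ℚ)).Point p) = 2 :=
  finrank_torsionBy_baseChange W hΔ (Nat.cast_ne_zero.2 hp.out.ne_zero)

/-- A finite set of points is fixed by the Galois group of a number field. -/
theorem exists_finiteDimensional_fixing (s : Set (W⁄(AlgebraicClosure ℚ)).Point) (hs : s.Finite) :
    ∃ L : IntermediateField ℚ (AlgebraicClosure ℚ), FiniteDimensional ℚ L ∧
      ∀ σ : AlgebraicClosure ℚ ≃ₐ[ℚ] AlgebraicClosure ℚ, (∀ x ∈ L, σ x = x) →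
        ∀ P ∈ s, σ • P = P := by
  let coords : (W⁄(AlgebraicClosure ℚ)).Point → Set (AlgebraicClosure ℚ) := fun P =>
    match P with
    | .zero => ∅
    | .some x y _ => {x, y}
  have hfin : (⋃ P ∈ s, coords P).Finite := hs.biUnion fun P _ => by
    rcases P with _ | ⟨x, y, h⟩
    · exact Set.finite_empty
    · exact (Set.finite_singleton y).insert x
  have := hfin.to_subtype
  refine ⟨IntermediateField.adjoin ℚ (⋃ P ∈ s, coords P),
    IntermediateField.finiteDimensional_adjoin fun x _ =>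
      ((AlgebraicClosure.isAlgebraic ℚ).isAlgebraic x).isIntegral,
    fun σ hσ P hP => ?_⟩
  rcases P with _ | ⟨x, y, h⟩
  · rfl
  · have hmem : ∀ z ∈ ({x, y} : Set (AlgebraicClosure ℚ)), σ z = z := fun z hz =>
      hσ z (IntermediateField.subset_adjoin _ _ (Set.mem_biUnion hP hz))
    have hx : σ x = x := hmem x (Set.mem_insert _ _)
    have hy : σ y = y := hmem y (Set.mem_insert_of_mem _ rfl)
    rw [Point.algEquiv_smul_def, Point.map_some]
    simp [hx, hy]

/-- A homomorphism trivial wherever the Galois action on `E[n]` is has an open kernel. -/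
theorem isOpen_ker_of_fixing {M : Type*} [Monoid M] {n : ℕ}
    [Finite (Submodule.torsionBy ℤ (W⁄(AlgebraicClosure ℚ)).Point n)]
    (ρ : (AlgebraicClosure ℚ ≃ₐ[ℚ] AlgebraicClosure ℚ) →* M)
    (h : ∀ σ, Point.galoisRepModuleEnd (K := AlgebraicClosure ℚ) ℚ W n σ = 1 → ρ σ = 1) :
    IsOpen (ρ.ker : Set (AlgebraicClosure ℚ ≃ₐ[ℚ] AlgebraicClosure ℚ)) := by
  obtain ⟨L, hL, hLfix⟩ := exists_finiteDimensional_fixing W (Set.range (Subtype.val :
    Submodule.torsionBy ℤ (W⁄(AlgebraicClosure ℚ)).Point n → _)) (Set.finite_range _)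
  refine Subgroup.isOpen_mono (fun σ hσ => ?_) L.fixingSubgroup_isOpen
  exact MonoidHom.mem_ker.2 (h σ (LinearMap.ext fun x => Subtype.ext
    (hLfix σ ((IntermediateField.mem_fixingSubgroup_iff L σ).mp hσ) _ ⟨x, rfl⟩)))

/-- The Galois action on `E[n]` factors through a finite level. -/
theorem galoisFactorsThroughFiniteLevel_torsionBy (hΔ : W.Δ ≠ 0) {n : ℕ} (hn : n ≠ 0) :
    GaloisFactorsThroughFiniteLevel
      (Point.galoisRepModuleEnd (K := AlgebraicClosure ℚ) ℚ W n) := by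
  have := finite_torsionBy_rat W hΔ hn
  obtain ⟨L, hL, h⟩ := exists_finiteDimensional_fixing W
    (Set.range fun P : Submodule.torsionBy ℤ (W⁄(AlgebraicClosure ℚ)).Point n =>
      (P : (W⁄(AlgebraicClosure ℚ)).Point)) (Set.finite_range _)
  refine ⟨L, hL, fun σ hσ => LinearMap.ext fun P => Subtype.ext ?_⟩
  exact h σ hσ _ ⟨P, rfl⟩

end FermatAgent.EC
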