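import Fermat.Agent.GaloisBasic.ValuationRing
import Fermat.Agent.EC.FrobeniusFiniteField
import Fermat.Agent.EC.TorsionRat
import Fermat.Agent.ECLocal.IntCurve
import Fermat.Agent.ECLocal.NoTorsion
import Fermat.Agent.ECLocal.AtPrime
import Fermat.Prelude.Def_EllipticCurve_FrobeniusTrace
import Fermat.Prelude.Def_FLTPrelim_ModularRep

/-!
# The trace of Frobenius at a good prime is `a_ℓ`

At a place over a good prime `ℓ ≠ p`, reduction maps `E[p]` isomorphically onto the `p`-torsion of
the reduced curve and carries Frobenius to the `ℓ`-power map, whose trace there is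
`a_ℓ = ℓ + 1 - #E(𝔽_ℓ)`.
-/

set_option autoImplicit false

noncomputable section

open WeierstrassCurve WeierstrassCurve.Affine
open scoped WeierstrassCurve.Affine

namespace FermatAgent.EC

open FermatAgent.ECLocal

local notation "Qbar" => AlgebraicClosure ℚ

/-- An integral model, mapped to `F` and then to `K`, is the model mapped to `K`. -/
theorem intMap_baseChange_eq (W : WeierstrassCurve ℤ) (F K : Type*) [Field F] [Field K]
    [Algebra F K] :
    ((W.map (Int.castRingHom F))⁄K : WeierstrassCurve K) = W.map (Int.castRingHom K) := by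
  show ((W.map (Int.castRingHom F)).map (algebraMap F K)) = _
  rw [WeierstrassCurve.map_map, RingHom.ext_int ((algebraMap F K).comp (Int.castRingHom F))]

/-- Reduction at a good prime: injective on torsion of order prime to `ℓ`, and equivariant. -/
theorem exists_reduction_frobenius {W : WeierstrassCurve ℤ} {ℓ n : ℕ} [Fact ℓ.Prime]
    (hgood : W.IsGoodPrimeFor ℓ) (hn : ¬ ℓ ∣ n) {A : ValuationSubring Qbar}
    (hA : A.LiesOverPrime ℓ) {σ : Qbar ≃ₐ[ℚ] Qbar} (hσ : A.IsFrobeniusAt σ ℓ)
    [Algebra (ZMod ℓ) (IsLocalRing.ResidueField A)]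
    [DecidableEq (IsLocalRing.ResidueField A)] :
    ∃ (σk : IsLocalRing.ResidueField A ≃ₐ[ZMod ℓ] IsLocalRing.ResidueField A)
      (G : ((W.map (Int.castRingHom ℚ))⁄Qbar).Point →+
        ((W.reductionMod ℓ)⁄(IsLocalRing.ResidueField A)).Point),
      (∀ x, σk x = x ^ Nat.card (ZMod ℓ)) ∧ (∀ P, n • P = 0 → G P = 0 → P = 0) ∧
        ∀ P, n • P = 0 → G (σ • P) = σk • G P := by
  classical
  let k := IsLocalRing.ResidueField A
  let g : A.decompositionSubgroup ℚ := ⟨σ, hσ.mem_decompositionSubgroup⟩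
  let e : k ≃+* k := MulSemiringAction.toRingEquiv _ k g
  have hfix : ∀ c : ZMod ℓ, e (algebraMap (ZMod ℓ) k c) = algebraMap (ZMod ℓ) k c :=
    fun c => RingHom.congr_fun
      (RingHom.ext_zmod (e.toRingHom.comp (algebraMap (ZMod ℓ) k)) (algebraMap (ZMod ℓ) k)) c
  let σk : k ≃ₐ[ZMod ℓ] k := AlgEquiv.ofRingEquiv (f := e) hfix
  have hres : IsLocalRing.residue A (modelAt W A).Δ ≠ 0 :=
    residue_modelAt_Δ Fact.out hA hgood
  have hspc : (spc (modelAt W A)).toAffine = ((W.reductionMod ℓ)⁄k).toAffine := by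
    rw [spc, map_modelAt_eq, WeierstrassCurve.reductionMod, intMap_baseChange_eq]
  have hnk : (n : k) ≠ 0 := natCast_residue_ne_zero Fact.out hA hn
  let G : ((W.map (Int.castRingHom ℚ))⁄Qbar).Point →+ ((W.reductionMod ℓ)⁄k).Point :=
    (pointCongr hspc).toAddMonoidHom.comp ((redHom (modelAt W A)).comp
      ((toGen W A).toAddMonoidHom.codRestrict (zeroComponent (modelAt W A))
        fun P => isE0_of_residue_Δ_ne_zero hres _))
  have hG : ∀ P, G P = pointCongr hspc (red (toGen W A P)) := fun P => rfl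
  refine ⟨σk, G, fun x => by rw [Nat.card_zmod]; exact hσ.smul_residue_eq x,
    fun P hP h0 => ?_, fun P hP => ?_⟩
  · rw [hG, map_eq_zero_iff _ (pointCongr hspc).injective] at h0
    have h1 := (red_eq_zero_iff (isE0_of_residue_Δ_ne_zero hres _)).1 h0
    apply (toGen W A).injective
    rw [map_zero]
    exact h1.eq_zero_of_nsmul_eq_zero hnk (by rw [← map_nsmul, hP, map_zero])
  · rcases P with _ | ⟨x, y, h⟩
    · rw [← Affine.Point.zero_def, galois_smul_zero, map_zero]; rfl
    have h0 : IsE0 (toGen W A (.some x y h)) := isE0_of_residue_Δ_ne_zero hres _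
    have hx : x ∈ A := by
      by_contra hx
      have hE1 : IsE1 (toGen W A (.some x y h)) := by rw [toGen_some, isE1_some_iff]; exact hx
      have := hE1.eq_zero_of_nsmul_eq_zero hnk (by rw [← map_nsmul, hP, map_zero])
      rw [toGen_some] at this
      exact Affine.Point.some_ne_zero _ this
    have hh : (gen (modelAt W A)).toAffine.Nonsingular x y := by rw [← gen_modelAt]; exact h
    have hy : y ∈ A := y_mem_of_x_mem hh.1 hx
    have hσx : σ x ∈ A := (g • (⟨x, hx⟩ : A)).2
    have e0 : σ • (Affine.Point.some x y h : ((W.map (Int.castRingHom ℚ))⁄Qbar).Point) =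
        .some (σ x) (σ y) ((Affine.baseChange_nonsingular (W := W.map (Int.castRingHom ℚ))
          (f := σ.toAlgHom) σ.injective x y).mpr h) := rfl
    rw [hG, hG, e0, Affine.Point.algEquiv_smul_def]
    simp only [toGen_some]
    rw [red_some_of_mem _ hx (by simpa only [toGen_some] using h0),
      red_some_of_mem _ hσx (isE0_of_residue_Δ_ne_zero hres _), pointCongr_some, pointCongr_some,
      Affine.Point.map_some]
    simp only [Affine.Point.some.injEq]
    exact ⟨(IsLocalRing.ResidueField.residue_smul _ g (⟨x, hx⟩ : A)).symm ▸ rfl,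
      (IsLocalRing.ResidueField.residue_smul _ g (⟨y, hy⟩ : A)).symm ▸ rfl⟩

/-- The trace of a Frobenius at a good prime `ℓ ≠ p` on `E[p]` is `a_ℓ`. -/
theorem galoisTrace_frobenius_eq_apOfModel (W : WeierstrassCurve ℤ) {p ℓ : ℕ} [hp : Fact p.Prime]
    (hℓ : ℓ.Prime) (hgood : W.IsGoodPrimeFor ℓ) (hℓp : ℓ ≠ p)
    {A : ValuationSubring Qbar} (hA : A.LiesOverPrime ℓ) {σ : Qbar ≃ₐ[ℚ] Qbar}
    (hσ : A.IsFrobeniusAt σ ℓ) :
    Affine.Point.galoisTrace ℚ (W.map (Int.castRingHom ℚ)).toAffine p σ =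
      (W.apOfModel ℓ : ZMod p) := by
  classical
  have := Fact.mk hℓ
  let k := IsLocalRing.ResidueField A
  have : IsAlgClosed k := isAlgClosed_residueField A
  have : CharP k ℓ := residueChar A hA
  let : Algebra (ZMod ℓ) k := ZMod.algebra k ℓ
  let : DecidableEq k := Classical.decEq k
  set W₀ : WeierstrassCurve (ZMod ℓ) := W.reductionMod ℓ with hW₀
  have hΔ₀ : W₀.Δ ≠ 0 := by
    rw [hW₀, WeierstrassCurve.reductionMod, WeierstrassCurve.map_Δ, eq_intCast, ne_eq,
      ZMod.intCast_zmod_eq_zero_iff_dvd]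
    exact hgood
  have hΔ : W.Δ ≠ 0 := fun h => hgood (h ▸ dvd_zero _)
  have hΔq := EC.intMap_Δ_ne_zero hΔ
  have hpk : ¬ℓ ∣ p := fun h => hℓp ((Nat.prime_dvd_prime_iff_eq hℓ hp.out).1 h)
  have hpk' : (p : k) ≠ 0 := natCast_residue_ne_zero hℓ hA hpk
  obtain ⟨σk, G, hσk, hker, hconj⟩ := exists_reduction_frobenius hgood hpk hA hσ
  have hmem : ∀ x : Submodule.torsionBy ℤ ((W.map (Int.castRingHom ℚ))⁄Qbar).Point p,
      G x.1 ∈ Submodule.torsionBy ℤ (W₀⁄k).Point p := fun x => by
    rw [Submodule.mem_torsionBy_iff, ← map_zsmul, (Submodule.mem_torsionBy_iff _ _).1 x.2,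
      map_zero]
  let Φ : Submodule.torsionBy ℤ ((W.map (Int.castRingHom ℚ))⁄Qbar).Point p →ₗ[ZMod p]
      Submodule.torsionBy ℤ (W₀⁄k).Point p := AddMonoidHom.toZModLinearMap p
    { toFun := fun x => ⟨G x.1, hmem x⟩
      map_zero' := Subtype.ext (map_zero G)
      map_add' := fun x y => Subtype.ext (map_add G x.1 y.1) }
  have hΦinj : Function.Injective Φ := (injective_iff_map_eq_zero _).2 fun x hx => by
    refine Subtype.ext (hker x.1 ?_ (congrArg Subtype.val hx))
    rw [← natCast_zsmul]; exact (Submodule.mem_torsionBy_iff _ _).1 x.2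
  have hfin := finiteDimensional_torsionBy_baseChange (k := Qbar) (W.map (Int.castRingHom ℚ)) hΔq
    (p := p) (Nat.cast_ne_zero.2 hp.out.ne_zero)
  have hfin' := finiteDimensional_torsionBy_baseChange (k := k) W₀ hΔ₀ (p := p) hpk'
  let Ψ := LinearEquiv.ofInjectiveOfFinrankEq Φ hΦinj (by
    rw [finrank_torsionBy_rat _ hΔq p, finrank_torsionBy_baseChange W₀ hΔ₀ hpk'])
  have hdiag : (Affine.Point.galoisRep (S := ZMod ℓ) (K := k) W₀.toAffine p σk).toLinearMap =
      Ψ.conj (Affine.Point.galoisRepModuleEnd ℚ (W.map (Int.castRingHom ℚ)).toAffine p σ) := by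
    refine LinearMap.ext fun y => ?_
    obtain ⟨x, rfl⟩ := Ψ.surjective y
    rw [LinearEquiv.conj_apply_apply, LinearEquiv.symm_apply_apply]
    refine Subtype.ext ?_
    show σk • G x.1 = G (σ • x.1)
    refine (hconj x.1 ?_).symm
    rw [← natCast_zsmul]; exact (Submodule.mem_torsionBy_iff _ _).1 x.2
  rw [Affine.Point.galoisTrace_def, ← LinearMap.trace_conj' _ Ψ, ← hdiag,
    trace_galoisRep_frobenius hΔ₀ hpk' σk hσk]
  rfl

end FermatAgent.EC
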