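import Fermat.Agent.EC.DetCyclotomic
import Fermat.Agent.EC.TorsionRat
import Fermat.Agent.Mazur.Kummer
import Fermat.Prelude.Def_FLTPrelim_ModularRep
import Fermat.Prelude.Def_GaloisRep_ComplexConjugation

/-!
# Determinants on torsion, and irreducible torsion planes
-/

set_option autoImplicit false

noncomputable section

open WeierstrassCurve
open scoped WeierstrassCurve.Affine

namespace FermatAgent.EC

local notation "Qbar" => AlgebraicClosure ℚ

variable {W : WeierstrassCurve ℤ} {p : ℕ} [hp : Fact p.Prime]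

set_option quotPrecheck false in
local notation "φ" => Affine.Point.galoisRepModuleEnd (K := AlgebraicClosure ℚ) ℚ
  (WeierstrassCurve.map W (Int.castRingHom ℚ)).toAffine p

/-- The determinant on torsion is the cyclotomic character. -/
theorem det_galois_eq (hΔ : W.Δ ≠ 0) {σ : Qbar ≃ₐ[ℚ] Qbar} {a : ZMod p}
    (h : ∀ μ : Qbar, μ ^ p = 1 → σ μ = μ ^ a.val) : LinearMap.det (φ σ) = a := by
  classical
  have : NeZero p := ⟨hp.out.ne_zero⟩
  have hn : Nat.card (rootsOfUnity p Qbar) = p := IsAlgClosed.card_rootsOfUnity_eq Qbar p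
  have h1 := congrArg Units.val (EC.galoisRepDetEqCyclotomic_rat
    (W.map (Int.castRingHom ℚ)) (intMap_Δ_ne_zero hΔ) p hn σ)
  rw [Affine.Point.galoisRepDet_apply, LinearEquiv.coe_det] at h1
  refine (show LinearMap.det (φ σ) = _ from h1).trans ?_
  refine (modularCyclotomicCharacter.unique Qbar hn (σ : Qbar ≃+* Qbar) fun t ht => ?_).symm
  exact h _ (by rw [← Units.val_pow_eq_pow_val, (mem_rootsOfUnity p t).1 ht, Units.val_one])

/-- The determinant of Frobenius on torsion. -/
lemma det_frobenius (hΔ : W.Δ ≠ 0) {ℓ : ℕ} (hℓ : ℓ.Prime) (hℓp : ℓ ≠ p)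
    {A : ValuationSubring Qbar} (hA : A.LiesOverPrime ℓ) {F : Qbar ≃ₐ[ℚ] Qbar}
    (hF : A.IsFrobeniusAt F ℓ) : LinearMap.det (φ F) = (ℓ : ZMod p) :=
  det_galois_eq hΔ fun μ hμ => by
    rw [Mazur.frobenius_rootsOfUnity hℓ hA
      (fun h => hℓp ((Nat.prime_dvd_prime_iff_eq hℓ hp.out).1 h)) hp.out.ne_zero hF hμ,
      ZMod.val_natCast, ← pow_eq_pow_mod ℓ hμ]

/-- The determinant of complex conjugation on torsion. -/
theorem det_complexConjugation (hΔ : W.Δ ≠ 0) :
    LinearMap.det (φ complexConjugation) = -1 := by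
  have : NeZero p := ⟨hp.out.ne_zero⟩
  have : Fact (1 < p) := ⟨hp.out.one_lt⟩
  refine det_galois_eq hΔ fun μ hμ => ?_
  refine complexEmbedding.toRingHom.injective ?_
  show complexEmbedding (complexConjugation μ) = complexEmbedding (μ ^ (-1 : ZMod p).val)
  have h1 : complexEmbedding μ ^ p = 1 := by rw [← map_pow, hμ, map_one]
  have h2 : (-1 : ZMod p).val = p - 1 := by
    rw [ZMod.neg_val, if_neg one_ne_zero, ZMod.val_one]
  rw [complexEmbedding_complexConjugation, map_pow, h2,
    ← Complex.inv_eq_conj (Complex.norm_eq_one_of_pow_eq_one h1 hp.out.ne_zero)]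
  exact inv_eq_of_mul_eq_one_right (by
    rw [← pow_succ', Nat.sub_add_cancel hp.out.one_le, h1])

/-- An irreducible torsion plane has no common eigenvector. -/
theorem exists_forall_ne_smul (hΔ : W.Δ ≠ 0) (hirr : W.ModRepIsIrreducible p)
    (v : Submodule.torsionBy ℤ ((W.map (Int.castRingHom ℚ))⁄Qbar).Point p) (hv : v ≠ 0) :
    ∃ g, ∀ r : ZMod p, φ g v ≠ r • v := by
  by_contra hcon
  push Not at hcon
  rcases hirr.2 (Submodule.span (ZMod p) {v}) (fun σ x hx => by
      obtain ⟨r, rfl⟩ := Submodule.mem_span_singleton.1 hx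
      obtain ⟨s, hs⟩ := hcon σ
      show φ σ (r • v) ∈ _
      rw [map_smul, hs]
      exact Submodule.smul_mem _ _ (Submodule.smul_mem _ _ (Submodule.mem_span_singleton_self v)))
    with e | e
  · exact hv (Submodule.span_singleton_eq_bot.1 e)
  · have hfr := finrank_span_singleton (K := ZMod p) hv
    rw [e, finrank_top, finrank_torsionBy_rat _ (intMap_Δ_ne_zero hΔ)] at hfr
    omega

end FermatAgent.EC

end
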