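import Fermat.Agent.EC.Endo

/-!
# Functions fixed by translations by `n`-torsion come from `[n]`

For `(n : k) ≠ 0`, `k(x, y)` is an extension of degree at most `n²` of the image of `[n]^*`,
and the translations by `E[n]` are `n²` automorphisms fixing the image; so their fixed field is
the image.
-/

set_option autoImplicit false

noncomputable section

open Polynomial IntermediateField WeierstrassCurve WeierstrassCurve.Affine
open AlgebraicCurve FermatAgent.Curve

namespace FermatAgent.EC

universe u

variable {k : Type u} [Field k] [DecidableEq k] [IsAlgClosed k] (V : WeierstrassCurve k)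
  [V.IsElliptic]

/-- Multiplication by `n` as a point over the function field. -/
def mulPt (n : ℕ) : (curveFF V).toAffine.Point := n • genPoint V

lemma valueAt_mulPt (n : ℕ) (P : V.toAffine.Point) : valueAt (mulPt V n) P = n • P := by
  rw [mulPt, valueAt_nsmul, valueAt_genPoint]

lemma isEndo_mulPt (n : ℕ) : IsEndo (mulPt V n) := fun P Q => by
  simp only [valueAt_mulPt, nsmul_add]

/-- There are finitely many points killed by an integer invertible in `k`. -/
lemma finite_nsmul_eq_zero {n : ℕ} (hn : (n : k) ≠ 0) :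
    {P : V.toAffine.Point | n • P = 0}.Finite := by
  refine Set.finite_coe_iff.1 (Nat.finite_of_card_ne_zero ?_)
  rw [show Nat.card {P : V.toAffine.Point | n • P = 0} = n ^ 2 from
    natCard_nsmul_eq_zero (V_Δ_ne_zero V) hn]
  exact pow_ne_zero 2 (fun h => hn (by simp [h]))

lemma isNonconst_mulPt {n : ℕ} (hn : (n : k) ≠ 0) : IsNonconst (mulPt V n) := by
  intro A h
  have hall : ∀ P, n • P = A := fun P => by rw [← valueAt_mulPt, h, valueAt_constPt]
  obtain rfl : A = 0 := by rw [← hall 0, nsmul_zero]
  exact Set.infinite_univ ((finite_nsmul_eq_zero V hn).subset fun P _ => hall P)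

/-- Pullback by `[n]` is unramified: the order at `P` is the order at `n P`. -/
lemma ordAt_pullback_mulPt {n : ℕ} (hn : (n : k) ≠ 0) (P : V.toAffine.Point) (u : FF V) :
    ordAt P (pullback (mulPt V n) u) = ordAt (n • P) u := by
  rw [ordAt_pullback (isEndo_mulPt V n) (isNonconst_mulPt V hn) (hasDiffMult_nsmul n) hn,
    valueAt_mulPt]

lemma translate_pullback_mulPt {n : ℕ} (hn : (n : k) ≠ 0) {S : V.toAffine.Point}
    (hS : n • S = 0) (u : FF V) :
    translate S (pullback (mulPt V n) u) = pullback (mulPt V n) u := by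
  have h := RingHom.congr_fun (translate_comp_pullback (isEndo_mulPt V n)
    (isNonconst_mulPt V hn) S) u
  rw [valueAt_mulPt, hS, translate_zero] at h
  exact h

variable {V}

/-- A pullback as a `k`-algebra map. -/
def pullAlgHom {f : (curveFF V).toAffine.Point} (hf : IsNonconst f) : FF V →ₐ[k] FF V :=
  { pullback f with commutes' := pullback_algebraMap hf }

lemma translate_injective {S S' : V.toAffine.Point} (h : translate S = translate S') :
    S = S' := by
  have e : ∀ T : V.toAffine.Point, pullPoint (isNonconst_translate T) (genPoint V) =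
      genPoint V + constPt T := fun T => pullPoint_genPoint _
  have := (e S).symm.trans ((mapPoint_congr h _ _ _).trans (e S'))
  exact constPt_injective (add_left_cancel this)

variable (V) in
/-- The ordinate of `n • P` is not a function of `x` alone: negation fixes `x`, and `[n]` is not
killed by two. -/
lemma y_mulPt_notMem_adjoin_gx {n : ℕ} (hn : (n : k) ≠ 0) {X₁ Y₁ : FF V}
    (hXY : (curveFF V).toAffine.Nonsingular X₁ Y₁) (hm : mulPt V n = .some X₁ Y₁ hXY) :
    Y₁ ∉ k⟮gx V⟯ := by
  classical
  have hn0 : n ≠ 0 := fun h => hn (by simp [h])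
  -- the negation automorphism
  have hneg : IsNonconst (-genPoint V) := fun A hA =>
    isNonconst_genPoint (-A) (by rw [map_neg, ← hA, neg_neg])
  have hσy : pullback (-genPoint V) Y₁ = (curveFF V).toAffine.negY X₁ Y₁ := by
    have h1 : pullPoint hneg (mulPt V n) = -mulPt V n := by
      rw [mulPt, map_nsmul, pullPoint_genPoint, neg_nsmul]
    rw [hm, pullPoint, mapPoint_some, Point.neg_some] at h1
    simp only [Point.some.injEq] at h1
    exact h1.2
  have hσx : ∀ z ∈ k⟮gx V⟯, pullback (-genPoint V) z = z := by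
    have hgx : pullback (-genPoint V) (gx V) = gx V := by
      obtain ⟨X₀, Y₀, h0, e0, -⟩ := hneg.exists_coords
      have e1 := e0
      rw [genPoint, Point.neg_some] at e1
      simp only [Point.some.injEq] at e1
      rw [e0, pullback_gx (e0 ▸ hneg), ← e1.1]
    intro z hz
    induction hz using IntermediateField.adjoin_induction with
    | mem x hx => rw [Set.mem_singleton_iff] at hx; rw [hx, hgx]
    | algebraMap c => exact pullback_algebraMap hneg c
    | add x y _ _ hx hy => rw [map_add, hx, hy]
    | inv x _ hx => rw [map_inv₀, hx]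
    | mul x y _ _ hx hy => rw [map_mul, hx, hy]
  intro hmem
  have h1 := hσx _ hmem
  rw [hσy] at h1
  have h2 : mulPt V n + mulPt V n = 0 := by
    rw [hm]; exact Point.add_self_of_Y_eq h1.symm
  have hall : ∀ P : V.toAffine.Point, 2 • P = 0 := fun P => by
    obtain ⟨R, hR⟩ := exists_nsmul_eq (V_Δ_ne_zero V) hn0 P
    rw [← hR, two_nsmul, ← valueAt_mulPt, ← valueAt_add, h2]
    rfl
  exact Set.infinite_univ ((finite_two_nsmul (0 : V.toAffine.Point)).subset fun P _ => hall P)

variable (V) in
omit [DecidableEq k] [IsAlgClosed k] [V.IsElliptic] in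
/-- A field of functions containing `Y₁ ∉ k(x)` generates `k(x, y)` together with `x`, as
`[k(x, y) : k(x)] ≤ 2`. -/
lemma adjoin_gx_eq_top_of_notMem {L : IntermediateField k (FF V)} {Y₁ : FF V} (hY : Y₁ ∈ L)
    (hYn : Y₁ ∉ k⟮gx V⟯) : L⟮gx V⟯ = ⊤ := by
  classical
  have hy : gy V ∈ k⟮gx V⟯⟮Y₁⟯ := by
    have := finiteDimensional_adjoin_gx V
    have h2 := finrank_adjoin_gx_le V
    have htop : k⟮gx V⟯⟮Y₁⟯ = ⊤ := by
      refine IntermediateField.eq_of_le_of_finrank_le' le_top ?_
      rw [IntermediateField.finrank_top]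
      have h3 := Module.finrank_mul_finrank k⟮gx V⟯ k⟮gx V⟯⟮Y₁⟯ (FF V)
      have h4 : Module.finrank k⟮gx V⟯ k⟮gx V⟯⟮Y₁⟯ ≠ 1 := fun e => by
        rw [IntermediateField.finrank_adjoin_simple_eq_one_iff, IntermediateField.mem_bot] at e
        obtain ⟨z, hz⟩ := e
        exact hYn (hz ▸ z.2)
      have h5 : 0 < Module.finrank k⟮gx V⟯ k⟮gx V⟯⟮Y₁⟯ := Module.finrank_pos
      by_contra hlt
      have h6 : 2 ≤ Module.finrank k⟮gx V⟯ k⟮gx V⟯⟮Y₁⟯ := by omega
      have h7 := Nat.mul_le_mul h6 (Nat.lt_of_not_le hlt)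
      omega
    rw [htop]; trivial
  have hgy : gy V ∈ L⟮gx V⟯ := by
    generalize gy V = z at hy ⊢
    let M : IntermediateField k (FF V) := L⟮gx V⟯.restrictScalars k
    have hg : k⟮gx V⟯ ≤ M := adjoin_simple_le_iff.2 (mem_adjoin_simple_self L (gx V))
    have hYM : Y₁ ∈ M := L⟮gx V⟯.algebraMap_mem ⟨Y₁, hY⟩
    induction hy using IntermediateField.adjoin_induction with
    | mem x hx => rw [Set.mem_singleton_iff] at hx; exact hx ▸ hYM
    | algebraMap c => exact hg c.2
    | add x y _ _ hx hy => exact add_mem hx hy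
    | inv x _ hx => exact inv_mem hx
    | mul x y _ _ hx hy => exact mul_mem hx hy
  rw [eq_top_iff]
  rintro z -
  let M : IntermediateField k (FF V) := L⟮gx V⟯.restrictScalars k
  have hg : k⟮gx V⟯ ≤ M := adjoin_simple_le_iff.2 (mem_adjoin_simple_self L (gx V))
  have hz : z ∈ k⟮gx V⟯⟮gy V⟯ := adjoin_gy_eq_top V ▸ IntermediateField.mem_top
  induction hz using IntermediateField.adjoin_induction with
  | mem x hx => rw [Set.mem_singleton_iff] at hx; exact hx ▸ hgy
  | algebraMap c => exact hg c.2
  | add x y _ _ hx hy => exact add_mem hx hy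
  | inv x _ hx => exact inv_mem hx
  | mul x y _ _ hx hy => exact mul_mem hx hy

variable (V) in
/-- The function field has degree at most `n²` over the image of `[n]^*`: it is generated by `x`,
a root of `Φₙ - x([n]) ΨSqₙ`. -/
lemma finrank_fieldRange_le {n : ℕ} (hn : (n : k) ≠ 0) :
    FiniteDimensional (pullAlgHom (isNonconst_mulPt V hn)).fieldRange (FF V) ∧
      Module.finrank (pullAlgHom (isNonconst_mulPt V hn)).fieldRange (FF V) ≤ n ^ 2 := by
  classical
  have hn0 : n ≠ 0 := fun h => hn (by simp [h])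
  set L := (pullAlgHom (isNonconst_mulPt V hn)).fieldRange with hL
  obtain ⟨X₁, Y₁, hXY, hm, htr⟩ := (isNonconst_mulPt V hn).exists_coords
  have hne : IsNonconst (.some X₁ Y₁ hXY : (curveFF V).toAffine.Point) := hm ▸ isNonconst_mulPt V hn
  have hX : X₁ ∈ L := ⟨gx V, by
    show pullback (mulPt V n) (gx V) = X₁
    rw [hm]; exact pullback_gx hne⟩
  have hY : Y₁ ∈ L := ⟨gy V, by
    show pullback (mulPt V n) (gy V) = Y₁
    rw [hm]; exact pullback_gy hne⟩
  have htop : L⟮gx V⟯ = ⊤ :=
    adjoin_gx_eq_top_of_notMem V hY (y_mulPt_notMem_adjoin_gx V hn hXY hm)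
  have heq : ((curveFF V).Φ n).eval (gx V) = X₁ * ((curveFF V).ΨSq n).eval (gx V) :=
    (Φ_eq_mul_of_nsmul_eq (curveFF_Δ_ne_zero V) (gen_nonsingular V) hm).2
  rw [curveFF, map_Φ, map_ΨSq, eval_map, eval_map, ← aeval_def, ← aeval_def] at heq
  set p : L[X] := (V.Φ n).map (algebraMap k L) - C ⟨X₁, hX⟩ * (V.ΨSq n).map (algebraMap k L)
    with hp
  have hdeg : p.natDegree = n ^ 2 := by
    have h1 : (C (⟨X₁, hX⟩ : L) * (V.ΨSq n).map (algebraMap k L)).natDegree <
        ((V.Φ n).map (algebraMap k L)).natDegree := by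
      refine lt_of_le_of_lt ((natDegree_C_mul_le _ _).trans natDegree_map_le) ?_
      rw [natDegree_map, natDegree_Φ, Int.natAbs_natCast]
      refine lt_of_le_of_lt (natDegree_ΨSq_le V n) ?_
      rw [Int.natAbs_natCast]
      have : 0 < n ^ 2 := pow_pos (Nat.pos_of_ne_zero hn0) 2
      omega
    rw [hp, natDegree_sub_eq_left_of_natDegree_lt h1, natDegree_map, natDegree_Φ,
      Int.natAbs_natCast]
  have hp0 : p ≠ 0 := fun h => by
    rw [h, natDegree_zero] at hdeg
    exact hn0 (pow_eq_zero_iff two_ne_zero |>.1 hdeg.symm)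
  have hroot : aeval (gx V) p = 0 := by
    rw [hp, map_sub, map_mul, aeval_C, aeval_map_algebraMap, aeval_map_algebraMap]
    exact sub_eq_zero.2 heq
  have hint : IsIntegral L (gx V) := (show IsAlgebraic L (gx V) from ⟨p, hp0, hroot⟩).isIntegral
  have := adjoin.finiteDimensional hint
  refine ⟨Module.Finite.equiv ((IntermediateField.equivOfEq htop).trans
    IntermediateField.topEquiv).toLinearEquiv, ?_⟩
  rw [← IntermediateField.finrank_top', ← htop, adjoin.finrank hint, ← hdeg]
  exact natDegree_le_of_dvd (minpoly.dvd _ _ hroot) hp0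

/-- A function invariant under translation by all `n`-torsion points is a pullback by `[n]`. -/
theorem exists_pullback_of_fixed {n : ℕ} (hn : (n : k) ≠ 0) {g : FF V}
    (h : ∀ S : V.toAffine.Point, n • S = 0 → translate S g = g) :
    ∃ u, pullback (mulPt V n) u = g := by
  obtain ⟨hfd, hle⟩ := finrank_fieldRange_le V hn
  set L := (pullAlgHom (isNonconst_mulPt V hn)).fieldRange with hL
  let K₁ : IntermediateField L (FF V) := L⟮g⟯
  have hfix : ∀ S : {S : V.toAffine.Point // n • S = 0}, ∀ z : K₁,
      translate S.1 (z : FF V) = (z : FF V) := by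
    intro S z
    obtain ⟨z, hz⟩ := z
    induction hz using IntermediateField.adjoin_induction with
    | mem x hx =>
      simp only [Set.mem_singleton_iff] at hx
      subst hx
      exact h _ S.2
    | algebraMap c =>
      obtain ⟨u, hu⟩ := c.2
      show translate S.1 (c : FF V) = (c : FF V)
      rw [← hu]
      exact translate_pullback_mulPt V hn S.2 u
    | add x y _ _ hx hy => rw [map_add, hx, hy]
    | inv x _ hx => rw [map_inv₀, hx]
    | mul x y _ _ hx hy => rw [map_mul, hx, hy]
  let f : {S : V.toAffine.Point // n • S = 0} → (FF V →ₐ[K₁] FF V) := fun S =>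
    { translate S.1 with commutes' := hfix S }
  have hinj : Function.Injective f := fun S S' e => Subtype.ext (translate_injective (by
    ext z; exact congrArg (fun φ : FF V →ₐ[K₁] FF V => φ z) e))
  have : FiniteDimensional K₁ (FF V) := Module.Finite.of_restrictScalars_finite L K₁ (FF V)
  have h1 : n ^ 2 ≤ Module.finrank K₁ (FF V) := by
    rw [← natCard_nsmul_eq_zero (V_Δ_ne_zero V) hn]
    exact (Nat.card_le_card_of_injective f hinj).trans (card_algHom_le_finrank _ _ _)
  have h2 := Module.finrank_mul_finrank L K₁ (FF V)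
  have hn2 : 0 < n ^ 2 := pow_pos (Nat.pos_of_ne_zero (fun h => hn (by simp [h]))) 2
  have h3 : Module.finrank L K₁ = 1 := by
    have h4 : 0 < Module.finrank L K₁ := Module.finrank_pos
    nlinarith
  rw [IntermediateField.finrank_adjoin_simple_eq_one_iff, IntermediateField.mem_bot] at h3
  obtain ⟨⟨z, u, hu⟩, hz⟩ := h3
  exact ⟨u, hu.trans hz⟩

end FermatAgent.EC
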