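import Fermat.Agent.EC.WeilDet
import Fermat.Prelude.Def_FreyPackage_DetCyclotomic

/-!
# The determinant of `E[p]` is the mod `p` cyclotomic character
-/

set_option autoImplicit false

noncomputable section

open WeierstrassCurve WeierstrassCurve.Affine

namespace FermatAgent.EC

universe r s v

variable {R : Type r} {S : Type s} {K : Type v} [CommRing R] [CommRing S] [Field K]
  [DecidableEq K] [IsAlgClosed K] {W' : Affine R} [Algebra R S] [Algebra R K] [Algebra S K]
  [IsScalarTower R S K]

omit [DecidableEq K] [IsAlgClosed K] in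
/-- An automorphism over the base fixes a curve defined over the base. -/
lemma map_algEquiv_baseChange (σ : K ≃ₐ[S] K) :
    (W'⁄K : WeierstrassCurve K).map σ.toRingEquiv.toRingHom = W'⁄K := by
  show (WeierstrassCurve.map W' (algebraMap R K)).map _ = WeierstrassCurve.map W' (algebraMap R K)
  rw [WeierstrassCurve.map_map]
  congr 1
  refine RingHom.ext fun r => ?_
  show σ (algebraMap R K r) = algebraMap R K r
  rw [IsScalarTower.algebraMap_apply R S K, σ.commutes]

omit [IsAlgClosed K] in
/-- The point map of an automorphism is the Galois action on points. -/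
lemma mapPoint_algEquiv (σ : K ≃ₐ[S] K) (P : (W'⁄K).Point) :
    mapPoint σ.toRingEquiv.toRingHom (map_algEquiv_baseChange σ) P = σ • P := by
  rw [Point.algEquiv_smul_def]
  cases P <;> rfl

/-- The determinant of the Galois action on `E[p]` is the cyclotomic character. -/
theorem galoisRepDetEqCyclotomic (hΔ : (W'⁄K : WeierstrassCurve K).Δ ≠ 0) (p : ℕ)
    [hp : Fact p.Prime] (hpK : (p : K) ≠ 0) [NeZero p]
    (hn : Nat.card (rootsOfUnity p K) = p) :
    Point.GaloisRepDetEqCyclotomic S W' p hn := by
  intro σ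
  have : WeierstrassCurve.IsElliptic (W'⁄K : WeierstrassCurve K) := ⟨isUnit_iff_ne_zero.2 hΔ⟩
  refine Units.ext ?_
  rw [Point.galoisRepDet_apply, LinearEquiv.coe_det,
    det_eq_natCast_of_weilPair (V := (W'⁄K : WeierstrassCurve K)) hpK _
      ((modularCyclotomicCharacter K hn (σ : K ≃+* K) : (ZMod p)ˣ) : ZMod p).val
      (fun P Q => ?_), ZMod.natCast_zmod_val]
  have hP := nsmul_coe_torsionBy (V := (W'⁄K : WeierstrassCurve K)) P
  have hQ := nsmul_coe_torsionBy (V := (W'⁄K : WeierstrassCurve K)) Q
  have h1 := weilPair_mapPoint hpK σ.toRingEquiv (map_algEquiv_baseChange σ) hP hQ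
  rw [mapPoint_algEquiv, mapPoint_algEquiv] at h1
  refine h1.trans ?_
  have hu := modularCyclotomicCharacter.spec K hn (σ : K ≃+* K)
    (t := (Units.mk0 _ (weilPair_ne_zero (T := (Q : (W'⁄K).Point)) hP)))
    ((mem_rootsOfUnity p _).2 (Units.ext (by
      rw [Units.val_pow_eq_pow_val]; exact weilPair_pow_eq_one hpK hP hQ)))
  exact hu

/-- Over `ℚ`: the determinant of the mod `p` representation is cyclotomic. -/
theorem galoisRepDetEqCyclotomic_rat [DecidableEq (AlgebraicClosure ℚ)] (W : WeierstrassCurve ℚ)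
    (hΔ : W.Δ ≠ 0) (p : ℕ) [hp : Fact p.Prime] [NeZero p]
    (hn : Nat.card (rootsOfUnity p (AlgebraicClosure ℚ)) = p) :
    Point.GaloisRepDetEqCyclotomic ℚ W.toAffine p hn :=
  galoisRepDetEqCyclotomic (baseChange_Δ_ne_zero W hΔ) p
    (Nat.cast_ne_zero.2 hp.out.ne_zero) hn

end FermatAgent.EC
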