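import Fermat.Agent.EC.Order

/-!
# Divisors on an elliptic curve: the map `P ↦ (P) - (O)` to divisor classes
-/

set_option autoImplicit false

noncomputable section

open Polynomial WeierstrassCurve WeierstrassCurve.Affine
open AlgebraicCurve FermatAgent.Curve

namespace FermatAgent.EC

universe u

variable {k : Type u} [Field k] [IsAlgClosed k] {V : WeierstrassCurve k} [V.IsElliptic]

omit [IsAlgClosed k] [V.IsElliptic] in
/-- The function `x - a` is nonzero. -/
lemma gx_sub_ne_zero (a : k) : gx V - algebraMap k _ a ≠ 0 := fun h =>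
  transcendental_gx V (by rw [sub_eq_zero.1 h]; exact isAlgebraic_algebraMap _)

/-- `x - a` vanishes at a point with first coordinate `a`. -/
lemma ord_sub_pos {a b : k} (hn : V.toAffine.Nonsingular a b) :
    1 ≤ ordAt (Point.some a b hn) (gx V - algebraMap k _ a) :=
  ((center_eq_some_iff.1 (center_placeAt _)).1).resolve_left (gx_sub_ne_zero a)

/-- `x` is regular at every point other than the origin. -/
lemma gx_sub_mem_of_ne_zero {P : V.toAffine.Point} (hP : P ≠ 0) :
    gx V ∈ (placeAt P).toValuationSubring := by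
  by_contra h
  exact hP (by rw [← center_placeAt P]; exact center_eq_zero_iff.2 h)

/-- The order of `x` at infinity is `-2`, that of `y` is `-3`. -/
theorem ordAt_zero_gx_gy :
    ordAt (0 : V.toAffine.Point) (gx V) = -2 ∧ ordAt (0 : V.toAffine.Point) (gy V) = -3 := by
  classical
  set v := placeAt (0 : V.toAffine.Point) with hv
  have hpole : v.ord (gx V) < 0 := by
    have := (center_eq_zero_iff (v := v)).1 (center_placeAt 0)
    rwa [mem_iff_not_ord_neg, not_not] at this
  have hle : -2 ≤ v.ord (gx V) := by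
    have htr : Transcendental k (gx V)⁻¹ :=
      fun h => transcendental_gx V (inv_inv (gx V) ▸ h.inv)
    have h := sum_ord_mul_deg_le htr {v} (fun u hu => by
      rw [Finset.mem_singleton] at hu
      rw [hu, Place.ord_inv]
      omega)
    rw [adjoin_inv_eq, Finset.sum_singleton, deg_eq_one, mul_one] at h
    have h2 := h.trans (finrank_adjoin_gx_le V)
    rw [Place.ord_inv] at h2
    omega
  have hy := two_mul_ord_gy hpole
  constructor <;> simp only [ordAt, ← hv] <;> omega

omit [V.IsElliptic] [IsAlgClosed k] in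
/-- Polynomials take values where the variable does. -/
private lemma hasVal_aeval {v : Place k (FF V)} {x : FF V} {a : k} (hx : HasVal v x a) (s : k[X]) :
    HasVal v (aeval x s) (s.eval a) := by
  induction s using Polynomial.induction_on with
  | C c => simpa using hasVal_algebraMap _ c
  | add s t hs ht => simpa using hs.add ht
  | monomial m c _ => simpa using (hasVal_algebraMap _ c).mul (hx.pow (m + 1))

/-- At a point of order two, vanishing of `p + q y` to the order of `x - x₀` forces `q x₀ = 0`. -/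
private lemma eval_eq_zero_of_two_torsion {x₀ y₀ : k} (hy₀ : V.toAffine.Nonsingular x₀ y₀)
    (h2 : y₀ = V.toAffine.negY x₀ y₀) {p q : k[X]}
    (hge : OrdGE (placeAt (Point.some x₀ y₀ hy₀))
      (ordAt (Point.some x₀ y₀ hy₀) (gx V - algebraMap k _ x₀))
      (aeval (gx V) p + aeval (gx V) q * gy V))
    (h0 : p.eval x₀ + q.eval x₀ * y₀ = 0) : q.eval x₀ = 0 := by
  by_contra hq
  set U := gx V - algebraMap k _ x₀ with hU
  set v := placeAt (Point.some x₀ y₀ hy₀) with hv
  have h2' : 2 ≤ v.ord U := ord_two_torsion (center_placeAt _) h2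
  obtain ⟨hx, hy⟩ := center_eq_some_iff.1 (center_placeAt (Point.some x₀ y₀ hy₀))
  obtain ⟨p', hp'⟩ := dvd_iff_isRoot.2 (show (p - C (p.eval x₀)).IsRoot x₀ by simp)
  obtain ⟨q', hq'⟩ := dvd_iff_isRoot.2 (show (q - C (q.eval x₀)).IsRoot x₀ by simp)
  have e : algebraMap k _ (q.eval x₀) * (gy V - algebraMap k _ y₀) =
      (aeval (gx V) p + aeval (gx V) q * gy V) - U * (aeval (gx V) p' +
        aeval (gx V) q' * gy V) := by
    have e1 := congrArg (aeval (gx V)) hp'
    have e2 := congrArg (aeval (gx V)) hq'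
    simp only [map_sub, map_mul, aeval_X, aeval_C] at e1 e2
    rw [hU]
    have e3 := congrArg (algebraMap k (FF V)) h0
    simp only [map_add, map_mul, map_zero] at e3
    linear_combination -e1 - gy V * e2 - e3
  have hgy : gy V ∈ v.toValuationSubring := hy.mem
  have hTge : OrdGE v 2 (algebraMap k _ (q.eval x₀) * (gy V - algebraMap k _ y₀)) := by
    rw [e]
    refine (hge.mono h2').sub ?_
    simpa using OrdGE.mul (v := v) (n := 2) (f := U) (Or.inr h2')
      (mem_iff_ordGE.1 (add_mem (hasVal_aeval hx p').mem (mul_mem (hasVal_aeval hx q').mem hgy)))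
  have hT : OrdGE v 2 (gy V - algebraMap k _ y₀) := by
    have := (ordGE_algebraMap (v := v) (q.eval x₀)⁻¹).mul hTge
    rwa [← mul_assoc, ← map_mul, inv_mul_cancel₀ hq, map_one, one_mul, zero_add] at this
  -- but `y - y₀` is a uniformizer
  have h1 := (equation_iff ..).mp (gen_equation V)
  have h3 := congrArg (algebraMap k (FF V)) ((equation_iff ..).mp hy₀.1)
  have h4 := congrArg (algebraMap k (FF V)) h2
  simp only [WeierstrassCurve.map_a₁, WeierstrassCurve.map_a₂, WeierstrassCurve.map_a₃,
    WeierstrassCurve.map_a₄, WeierstrassCurve.map_a₆, negY, map_add, map_mul, map_sub,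
    map_neg, map_pow] at h1 h3 h4
  have hwx : -(V.a₁ * y₀ - (3 * x₀ ^ 2 + 2 * V.a₂ * x₀ + V.a₄)) ≠ 0 := by
    rw [neg_ne_zero]
    have := hy₀.2.resolve_right (by
      rw [not_not, Affine.evalEval_polynomialY]
      simp only [negY] at h2
      linear_combination h2)
    rwa [Affine.evalEval_polynomialX] at this
  have hu0 : HasVal v U 0 := hasVal_zero_iff.2 (Or.inr (ord_sub_pos hy₀))
  have hw := ((hu0.pow 2).add ((hasVal_algebraMap v (3 * x₀ + V.a₂)).mul hu0)).add
    (hasVal_algebraMap v (-(V.a₁ * y₀ - (3 * x₀ ^ 2 + 2 * V.a₂ * x₀ + V.a₄))))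
  obtain ⟨hw0, hwo⟩ := hw.ord_eq_zero (by simpa using hwx)
  have heq : (gy V - algebraMap k _ y₀) * (gy V - algebraMap k _ y₀ +
      algebraMap k _ V.a₁ * U) = U * (U ^ 2 + algebraMap k _ (3 * x₀ + V.a₂) * U +
      algebraMap k _ (-(V.a₁ * y₀ - (3 * x₀ ^ 2 + 2 * V.a₂ * x₀ + V.a₄)))) := by
    simp only [map_add, map_mul, map_sub, map_neg, map_pow, map_ofNat, hU]
    linear_combination h1 - h3 - (gy V - algebraMap k _ y₀) * h4
  have hU2 : v.ord U ≤ 2 := by
    have := sum_ord_le_two U x₀ hU {v} (fun u hu => by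
      rw [Finset.mem_singleton] at hu; rw [hu]; omega)
    simpa using this
  have h5 : OrdGE v 4 (U * (U ^ 2 + algebraMap k _ (3 * x₀ + V.a₂) * U +
      algebraMap k _ (-(V.a₁ * y₀ - (3 * x₀ ^ 2 + 2 * V.a₂ * x₀ + V.a₄))))) := by
    rw [← heq]
    exact hT.mul (hT.add (by
      simpa using (ordGE_algebraMap (v := v) V.a₁).mul (Or.inr h2' : OrdGE v 2 U)))
  have hU0 : U ≠ 0 := gx_sub_ne_zero x₀
  rw [ordGE_iff_le (mul_ne_zero hU0 hw0), v.ord_mul hU0 hw0, hwo] at h5
  omega

/-- If a function regular away from infinity times a nonzero polynomial in `x` is a polynomial in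
`x` and `y`, then so is the function. -/
private lemma exists_eq_poly_of_mul_eq {u : FF V}
    (hreg : ∀ P : V.toAffine.Point, P ≠ 0 → u ∈ (placeAt P).toValuationSubring) :
    ∀ (n : ℕ) (p q r : k[X]), r.natDegree ≤ n → r ≠ 0 →
      u * aeval (gx V) r = aeval (gx V) p + aeval (gx V) q * gy V →
      ∃ p q : k[X], u = aeval (gx V) p + aeval (gx V) q * gy V := by
  intro n
  induction n with
  | zero =>
    intro p q r hr hr0 h
    obtain ⟨c, rfl⟩ := natDegree_eq_zero.1 (Nat.le_zero.1 hr)
    have hc : c ≠ 0 := fun e => hr0 (by rw [e, map_zero])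
    refine ⟨C c⁻¹ * p, C c⁻¹ * q, ?_⟩
    rw [aeval_C] at h
    apply mul_right_cancel₀ ((_root_.map_ne_zero (algebraMap k (FF V))).2 hc)
    rw [h]
    simp only [map_mul, aeval_C, map_inv₀]
    have : algebraMap k (FF V) c ≠ 0 := (_root_.map_ne_zero _).2 hc
    field_simp
  | succ n ih =>
    intro p q r hr hr0 h
    by_cases hd : r.natDegree = 0
    · exact ih p q r (by omega) hr0 h
    obtain ⟨x₀, hx₀⟩ := IsAlgClosed.exists_root r (fun e => hd (natDegree_eq_of_degree_eq_some e))
    obtain ⟨r', rfl⟩ := dvd_iff_isRoot.2 hx₀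
    have hr' : r' ≠ 0 := right_ne_zero_of_mul hr0
    obtain ⟨y₀, hy₀⟩ := exists_y_of_x (V_Δ_ne_zero V) x₀
    set U := gx V - algebraMap k _ x₀ with hU
    rw [map_mul, map_sub, aeval_X, aeval_C, ← hU] at h
    have hval : ∀ (y₁ : k) (hn : V.toAffine.Nonsingular x₀ y₁),
        OrdGE (placeAt (Point.some x₀ y₁ hn)) (ordAt (Point.some x₀ y₁ hn) U)
          (aeval (gx V) p + aeval (gx V) q * gy V) ∧ p.eval x₀ + q.eval x₀ * y₁ = 0 := by
      intro y₁ hn
      have hw : OrdGE (placeAt (Point.some x₀ y₁ hn)) 0 u :=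
        mem_iff_ordGE.1 (hreg _ (Point.some_ne_zero hn))
      obtain ⟨hx, hy⟩ := center_eq_some_iff.1 (center_placeAt (Point.some x₀ y₁ hn))
      have hge : OrdGE (placeAt (Point.some x₀ y₁ hn)) (ordAt (Point.some x₀ y₁ hn) U)
          (aeval (gx V) p + aeval (gx V) q * gy V) := by
        rw [← h]
        have := hw.mul ((ordGE_self U).mul (mem_iff_ordGE.1 (hasVal_aeval hx r').mem))
        exact this.mono (le_of_eq (by simp [ordAt]))
      refine ⟨hge, ((hasVal_aeval hx p).add ((hasVal_aeval hx q).mul hy)).unique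
        (hasVal_zero_iff.2 (hge.mono (ord_sub_pos hn)))⟩
    have hq : q.eval x₀ = 0 := by
      by_contra hq
      by_cases h2 : y₀ = V.toAffine.negY x₀ y₀
      · exact hq (eval_eq_zero_of_two_torsion hy₀ h2 (hval y₀ hy₀).1 (hval y₀ hy₀).2)
      · obtain ⟨-, h0⟩ := hval y₀ hy₀
        obtain ⟨-, h1⟩ := hval _ ((nonsingular_neg ..).mpr hy₀)
        have : q.eval x₀ * (y₀ - V.toAffine.negY x₀ y₀) = 0 := by linear_combination h0 - h1
        exact h2 (sub_eq_zero.1 ((mul_eq_zero.1 this).resolve_left hq))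
    have hp : p.eval x₀ = 0 := by
      have := (hval y₀ hy₀).2
      rw [hq, zero_mul, add_zero] at this
      exact this
    obtain ⟨p', rfl⟩ := dvd_iff_isRoot.2 (show p.IsRoot x₀ from hp)
    obtain ⟨q', rfl⟩ := dvd_iff_isRoot.2 (show q.IsRoot x₀ from hq)
    refine ih p' q' r' ?_ hr' ?_
    · rw [natDegree_mul (X_sub_C_ne_zero x₀) hr', natDegree_X_sub_C] at hr
      omega
    · apply mul_right_cancel₀ (gx_sub_ne_zero (V := V) x₀)
      simp only [map_mul, map_sub, aeval_X, aeval_C] at h ⊢
      rw [hU] at h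
      linear_combination h

/-- A function regular away from infinity is a polynomial in `x` and `y`. -/
theorem exists_eq_poly_of_regular {u : FF V}
    (hreg : ∀ P : V.toAffine.Point, P ≠ 0 → u ∈ (placeAt P).toValuationSubring) :
    ∃ p q : k[X], u = aeval (gx V) p + aeval (gx V) q * gy V := by
  classical
  -- a polynomial denominator
  obtain ⟨a, b, hb, rfl⟩ := IsFractionRing.div_surjective (A := V.toAffine.CoordinateRing) u
  have hfin : Module.Finite k[X] V.toAffine.CoordinateRing :=
    Module.Finite.of_basis (CoordinateRing.basis V.toAffine)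
  obtain ⟨pb, qb, hpq⟩ := CoordinateRing.exists_smul_basis_eq b
  set bc : V.toAffine.CoordinateRing := CoordinateRing.mk V.toAffine
    (C pb + C qb * (-Polynomial.X - C (C V.a₁ * X + C V.a₃))) with hbc
  have hNb : CoordinateRing.mk V.toAffine (C (Algebra.norm k[X] b)) = b * bc := by
    have h1 := CoordinateRing.coe_norm_smul_basis (W' := V.toAffine) pb qb
    rw [map_mul] at h1
    have h2 : CoordinateRing.mk V.toAffine (C pb + C qb * Polynomial.X) = b := by
      rw [← hpq, CoordinateRing.smul, CoordinateRing.smul, mul_one, map_add, map_mul]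
    rw [h2, ← hbc, hpq] at h1
    exact h1
  have hN : Algebra.norm k[X] b ≠ 0 := Algebra.norm_ne_zero_iff.2 (nonZeroDivisors.ne_zero hb)
  obtain ⟨pn, qn, hn⟩ := exists_smul_eq V (a * bc)
  refine exists_eq_poly_of_mul_eq hreg _ pn qn (Algebra.norm k[X] b) le_rfl hN ?_
  rw [← hn]
  have hr : aeval (gx V) (Algebra.norm k[X] b) = algebraMap V.toAffine.CoordinateRing (FF V)
      (CoordinateRing.mk V.toAffine (C (Algebra.norm k[X] b))) := by
    rw [mk_eq_aevalAeval]
    simp [evalEval, aeval_def, eval_map]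
  rw [hr, hNb, map_mul, map_mul]
  have : algebraMap V.toAffine.CoordinateRing (FF V) b ≠ 0 :=
    IsFractionRing.to_map_ne_zero_of_mem_nonZeroDivisors hb
  field_simp

/-- No function has a simple pole at infinity as its only pole. -/
theorem not_simple_zero_pole (u : FF V)
    (h0 : ordAt (0 : V.toAffine.Point) u = -1)
    (hreg : ∀ P : V.toAffine.Point, P ≠ 0 → 0 ≤ ordAt P u) : False := by
  classical
  have hu : u ≠ 0 := fun e => by rw [e, ordAt, Place.ord_zero] at h0; omega
  obtain ⟨p, q, rfl⟩ := exists_eq_poly_of_regular (u := u)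
    (fun P hP => (mem_iff_ord_nonneg hu).2 (hreg P hP))
  obtain ⟨hx, hy⟩ := ordAt_zero_gx_gy (V := V)
  simp only [ordAt] at h0 hx hy
  set v := placeAt (0 : V.toAffine.Point)
  have hp : ∀ s : k[X], s ≠ 0 → aeval (gx V) s ≠ 0 ∧
      v.ord (aeval (gx V) s) = -2 * s.natDegree := by
    intro s
    induction h : s.natDegree generalizing s with
    | zero =>
      intro hs
      obtain ⟨c, rfl⟩ := natDegree_eq_zero.1 h
      have hc : c ≠ 0 := fun e => hs (by rw [e, map_zero])
      rw [aeval_C]
      exact ⟨(_root_.map_ne_zero _).2 hc, by rw [ord_algebraMap hc]; simp⟩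
    | succ m ih =>
      intro hs
      obtain ⟨x₀, hx₀⟩ := IsAlgClosed.exists_root s
        (fun e => by
          have := natDegree_eq_of_degree_eq_some (n := 0) (by simpa using e)
          omega)
      obtain ⟨s', rfl⟩ := dvd_iff_isRoot.2 hx₀
      have hs' := right_ne_zero_of_mul hs
      rw [natDegree_mul (X_sub_C_ne_zero x₀) hs', natDegree_X_sub_C] at h
      obtain ⟨hne, ho⟩ := ih s' (by omega) hs'
      rw [map_mul, map_sub, aeval_X, aeval_C]
      refine ⟨mul_ne_zero (gx_sub_ne_zero x₀) hne, ?_⟩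
      rw [v.ord_mul (gx_sub_ne_zero x₀) hne, ho]
      have hgx : gx V ≠ 0 := fun e => by rw [e, v.ord_zero] at hx; omega
      have : OrdGE v (v.ord (gx V) + 1) (-algebraMap k (FF V) x₀) :=
        (ordGE_algebraMap (v := v) x₀).neg.mono (by omega)
      rw [sub_eq_add_neg, (ord_add_eq_of_ordGE hgx this).2, hx]
      push_cast
      ring
  have hgy : gy V ≠ 0 := fun e => by rw [e, v.ord_zero] at hy; omega
  rcases eq_or_ne q 0 with rfl | hq
  · rcases eq_or_ne p 0 with rfl | hp0
    · simp at hu
    · simp only [map_zero, zero_mul, add_zero] at h0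
      rw [(hp p hp0).2] at h0
      omega
  · obtain ⟨hqn, hqo⟩ := hp q hq
    have hqy : v.ord (aeval (gx V) q * gy V) = -2 * q.natDegree - 3 := by
      rw [v.ord_mul hqn hgy, hqo, hy]; ring
    rcases eq_or_ne p 0 with rfl | hp0
    · simp only [map_zero, zero_add] at h0
      omega
    · obtain ⟨hpn, hpo⟩ := hp p hp0
      rcases lt_or_ge (v.ord (aeval (gx V) p)) (v.ord (aeval (gx V) q * gy V)) with hlt | hge
      · rw [(ord_add_eq_of_ordGE hpn (Or.inr (by omega))).2, hpo] at h0
        omega
      · have hne : v.ord (aeval (gx V) p) ≠ v.ord (aeval (gx V) q * gy V) := by omega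
        rw [add_comm, (ord_add_eq_of_ordGE (mul_ne_zero hqn hgy) (Or.inr (by omega))).2,
          hqy] at h0
        omega

end FermatAgent.EC
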