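import Mathlib.AlgebraicGeometry.EllipticCurve.Affine.Point
import Mathlib.Tactic.LinearCombination
import Mathlib.Tactic.FieldSimp

/-!
# Additivity of the multiplier of the invariant differential

For a derivation `D` killing the coefficients, a point `(x, y)` has multiplier `c` if
`D x = c (2y + a₁x + a₃)` and `D y = c (3x² + 2a₂x + a₄ - a₁y)`.
-/

set_option autoImplicit false

open WeierstrassCurve WeierstrassCurve.Affine

namespace FermatAgent.EC

universe u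

variable {L : Type u} [Field L] [DecidableEq L] (D : L →+ L) (W : WeierstrassCurve L)

/-- Multiplier of the invariant differential at a point. -/
def HasMult : W.toAffine.Point → L → Prop
  | .zero, c => c = 0
  | .some x y _, c => D x = c * (2 * y + W.a₁ * x + W.a₃) ∧
      D y = c * (3 * x ^ 2 + 2 * W.a₂ * x + W.a₄ - W.a₁ * y)

variable {D W}
variable (hD : ∀ a b : L, D (a * b) = a * D b + b * D a)
  (h1 : D W.a₁ = 0) (h2 : D W.a₂ = 0) (h3 : D W.a₃ = 0) (h4 : D W.a₄ = 0)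

include hD in

include hD in
omit [DecidableEq L] in
lemma deriv_div {a b : L} (hb : b ≠ 0) : D (a / b) = (b * D a - a * D b) / b ^ 2 := by
  have h := hD (a / b) b
  rw [div_mul_cancel₀ _ hb] at h
  field_simp at h ⊢
  linear_combination -h

omit [DecidableEq L] in
include hD h1 h2 h3 in
lemma mult_of_slope {x₁ y₁ x₂ y₂ ℓ c₁ c₂ : L}
    (hx₁ : D x₁ = c₁ * (2 * y₁ + W.a₁ * x₁ + W.a₃))
    (hy₁ : D y₁ = c₁ * (3 * x₁ ^ 2 + 2 * W.a₂ * x₁ + W.a₄ - W.a₁ * y₁))
    (hx₂ : D x₂ = c₂ * (2 * y₂ + W.a₁ * x₂ + W.a₃))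
    (hline : y₂ = y₁ + ℓ * (x₂ - x₁))
    (hE : ℓ * (2 * y₁ + W.a₁ * x₁ + W.a₃) - (3 * x₁ ^ 2 + 2 * W.a₂ * x₁ + W.a₄ - W.a₁ * y₁)
      + (x₁ - x₂) * (x₁ - W.toAffine.addX x₁ x₂ ℓ) = 0)
    (hℓ : D ℓ = c₁ * (x₁ - W.toAffine.addX x₁ x₂ ℓ) + c₂ * (x₂ - W.toAffine.addX x₁ x₂ ℓ)) :
    D (W.toAffine.addX x₁ x₂ ℓ) = (c₁ + c₂) * (2 * W.toAffine.addY x₁ x₂ y₁ ℓ +
        W.a₁ * W.toAffine.addX x₁ x₂ ℓ + W.a₃) ∧
      D (W.toAffine.addY x₁ x₂ y₁ ℓ) = (c₁ + c₂) * (3 * W.toAffine.addX x₁ x₂ ℓ ^ 2 +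
        2 * W.a₂ * W.toAffine.addX x₁ x₂ ℓ + W.a₄ - W.a₁ * W.toAffine.addY x₁ x₂ y₁ ℓ) := by
  have hx3 : D (W.toAffine.addX x₁ x₂ ℓ) = (2 * ℓ + W.a₁) * D ℓ - D x₁ - D x₂ := by
    simp only [addX, map_sub, map_add, pow_two, hD, h1, h2]
    ring
  have key : D (W.toAffine.addX x₁ x₂ ℓ) = (c₁ + c₂) * (2 * W.toAffine.addY x₁ x₂ y₁ ℓ +
      W.a₁ * W.toAffine.addX x₁ x₂ ℓ + W.a₃) := by
    rw [hx3, hℓ, hx₁, hx₂, hline]
    simp only [addY, negY, negAddY, addX]
    ring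
  refine ⟨key, ?_⟩
  have hy3 : D (W.toAffine.addY x₁ x₂ y₁ ℓ) = -(D ℓ * (W.toAffine.addX x₁ x₂ ℓ - x₁) +
      ℓ * (D (W.toAffine.addX x₁ x₂ ℓ) - D x₁) + D y₁) -
      W.a₁ * D (W.toAffine.addX x₁ x₂ ℓ) := by
    simp only [addY, negY, negAddY, map_sub, map_add, map_neg, hD, h1, h3]
    ring
  rw [hy3, key, hℓ, hx₁, hy₁]
  simp only [addY, negY, negAddY, addX] at hE ⊢
  linear_combination (2 * c₁ + c₂) * hE

include hD h1 h2 h3 h4 in
/-- Multipliers of the invariant differential add under the group law. -/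
theorem HasMult.add {P Q : W.toAffine.Point} {c₁ c₂ : L} (hP : HasMult D W P c₁)
    (hQ : HasMult D W Q c₂) : HasMult D W (P + Q) (c₁ + c₂) := by
  match P, Q, hP, hQ with
  | .zero, Q, hP, hQ =>
    obtain rfl : c₁ = 0 := hP
    rw [← Point.zero_def, zero_add, zero_add]; exact hQ
  | .some x₁ y₁ hn₁, .zero, hP, hQ =>
    obtain rfl : c₂ = 0 := hQ
    rw [← Point.zero_def, add_zero, add_zero]; exact hP
  | .some x₁ y₁ hn₁, .some x₂ y₂ hn₂, ⟨hx₁, hy₁⟩, ⟨hx₂, hy₂⟩ =>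
    have he₁ := (equation_iff ..).mp hn₁.1
    have he₂ := (equation_iff ..).mp hn₂.1
    by_cases hx : x₁ = x₂
    · subst hx
      by_cases hy : y₁ = W.toAffine.negY x₁ y₂
      · rw [Point.add_of_Y_eq rfl hy]
        show c₁ + c₂ = 0
        subst hy
        simp only [negY, map_sub, map_neg, hD, h1, h3] at hx₁ hy₁ ⊢
        have e1 : (c₁ + c₂) * (2 * y₂ + W.a₁ * x₁ + W.a₃) = 0 := by
          linear_combination hx₁ - hx₂
        have e2 : (c₁ + c₂) * (3 * x₁ ^ 2 + 2 * W.a₂ * x₁ + W.a₄ - W.a₁ * y₂) = 0 := by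
          linear_combination -hy₁ - hy₂ - W.a₁ * hx₁
        rcases hn₂ with ⟨-, hn⟩
        rw [Affine.evalEval_polynomialX, Affine.evalEval_polynomialY] at hn
        rcases hn with hn | hn
        · refine (mul_eq_zero.mp e2).resolve_right fun h => hn ?_
          linear_combination -h
        · exact (mul_eq_zero.mp e1).resolve_right hn
      · rw [Point.add_of_Y_ne hy]
        obtain rfl := Y_eq_of_Y_ne hn₁.1 hn₂.1 rfl hy
        have hu : 2 * y₁ + W.a₁ * x₁ + W.a₃ ≠ 0 := by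
          intro h0
          apply hy
          simp only [negY]
          linear_combination h0
        have hc : c₁ = c₂ := mul_right_cancel₀ hu (hx₁.symm.trans hx₂)
        subst hc
        have hden : y₁ - W.toAffine.negY x₁ y₁ = 2 * y₁ + W.a₁ * x₁ + W.a₃ := by
          simp only [negY]; ring
        have hs : W.toAffine.slope x₁ x₁ y₁ y₁ = (3 * x₁ ^ 2 + 2 * W.a₂ * x₁ + W.a₄ - W.a₁ * y₁) /
            (2 * y₁ + W.a₁ * x₁ + W.a₃) := by
          rw [slope_of_Y_ne rfl hy, hden]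
        show _ ∧ _
        rw [hs]
        refine mult_of_slope hD h1 h2 h3 hx₁ hy₁ hx₂ ?_ ?_ ?_
        · ring
        · rw [div_mul_cancel₀ _ hu]; ring
        · have e1 : D (3 * x₁ ^ 2 + 2 * W.a₂ * x₁ + W.a₄ - W.a₁ * y₁) =
              (6 * x₁ + 2 * W.a₂) * D x₁ - W.a₁ * D y₁ := by
            rw [show (3 : L) * x₁ ^ 2 = x₁ * x₁ + x₁ * x₁ + x₁ * x₁ by ring,
              show 2 * W.a₂ * x₁ = W.a₂ * x₁ + W.a₂ * x₁ by ring]
            simp only [map_sub, map_add, hD, h1, h2, h4]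
            ring
          have e2 : D (2 * y₁ + W.a₁ * x₁ + W.a₃) = 2 * D y₁ + W.a₁ * D x₁ := by
            rw [show (2 : L) * y₁ = y₁ + y₁ by ring]
            simp only [map_add, hD, h1, h3]
            ring
          rw [deriv_div hD hu, e1, e2, hx₁, hy₁]
          simp only [addX]
          field_simp
          ring
    · rw [Point.add_of_X_ne hx]
      show _ ∧ _
      rw [slope_of_X_ne hx]
      have he : x₁ - x₂ ≠ 0 := sub_ne_zero.2 hx
      refine mult_of_slope hD h1 h2 h3 hx₁ hy₁ hx₂ ?_ ?_ ?_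
      · field_simp; ring
      · apply mul_right_cancel₀ he
        simp only [addX, zero_mul]
        field_simp
        linear_combination he₁ - he₂
      · rw [deriv_div hD he, map_sub, map_sub, hx₁, hx₂, hy₁, hy₂]
        apply mul_right_cancel₀ (pow_ne_zero 3 he)
        simp only [addX]
        field_simp
        linear_combination (c₂ - c₁) * (he₁ - he₂)

end FermatAgent.EC
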