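import Fermat.Agent.EC.Order
import Fermat.Agent.EC.Multiplier
import Fermat.Agent.Curve.Differential

/-!
# Endomorphisms as points over the function field; separable ones are unramified

A point `f` over the function field induces the map `valueAt f` on points and is determined by it
(`eq_of_valueAt_eq`); it is an endomorphism (`IsEndo`) when that map is additive. `HasDiffMult f c`
says that `f` multiplies the invariant differential by `c`; this is additive in `f`, so `n` times
the generic point has multiplier `n` (`hasDiffMult_nsmul`). `ordAt_pullback`: a nonconstant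
endomorphism with nonzero multiplier is unramified everywhere, since translations make the index
independent of the point and an index at least two would kill the differential.
-/

set_option autoImplicit false

noncomputable section

open Polynomial WeierstrassCurve WeierstrassCurve.Affine
open AlgebraicCurve FermatAgent.Curve

namespace FermatAgent.EC

universe u

variable {k : Type u} [Field k] [DecidableEq k] [IsAlgClosed k] {V : WeierstrassCurve k}
  [V.IsElliptic]

/-- The map on points induced by a point over the function field. -/
def valueAt (f : (curveFF V).toAffine.Point) (P : V.toAffine.Point) : V.toAffine.Point :=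
  evPt (placeAt P) f

/-- Evaluation at a point is additive in points over the function field. -/
lemma valueAt_add (f g : (curveFF V).toAffine.Point) (P : V.toAffine.Point) :
    valueAt (f + g) P = valueAt f P + valueAt g P := evPt_add _ f g

omit [DecidableEq k] in
lemma valueAt_neg (f : (curveFF V).toAffine.Point) (P : V.toAffine.Point) :
    valueAt (-f) P = -valueAt f P := evPt_neg f

/-- Evaluation at a point commutes with differences. -/
lemma valueAt_sub (f g : (curveFF V).toAffine.Point) (P : V.toAffine.Point) :
    valueAt (f - g) P = valueAt f P - valueAt g P := by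
  rw [sub_eq_add_neg, valueAt_add, valueAt_neg, sub_eq_add_neg]

/-- A constant point takes that value everywhere. -/
@[simp]
lemma valueAt_constPt (A P : V.toAffine.Point) : valueAt (constPt A) P = A := evPt_constPt A

omit [DecidableEq k] in
/-- The generic point takes the value `P` at `P`. -/
@[simp]
lemma valueAt_genPoint (P : V.toAffine.Point) : valueAt (genPoint V) P = P := center_placeAt P

/-- Evaluation at a point commutes with natural multiples. -/
lemma valueAt_nsmul (n : ℕ) (f : (curveFF V).toAffine.Point) (P : V.toAffine.Point) :
    valueAt (n • f) P = n • valueAt f P :=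
  map_nsmul (evHom (placeAt P)) n f

/-- Evaluation at a point commutes with integral multiples. -/
lemma valueAt_zsmul (n : ℤ) (f : (curveFF V).toAffine.Point) (P : V.toAffine.Point) :
    valueAt (n • f) P = n • valueAt f P :=
  map_zsmul (evHom (placeAt P)) n f

/-- A point over the function field is determined by its values. -/
theorem eq_of_valueAt_eq {f g : (curveFF V).toAffine.Point} (h : ∀ P, valueAt f P = valueAt g P) :
    f = g := by
  rw [← sub_eq_zero]
  have h0 : ∀ P, valueAt (f - g) P = 0 := fun P => by rw [valueAt_sub, h, sub_self]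
  match hfg : f - g, h0 with
  | .zero, _ => rfl
  | .some X₀ Y₀ hn, h0 =>
    exfalso
    have hall : ∀ P : V.toAffine.Point, ordAt P X₀ ≠ 0 := fun P h1 => by
      refine notMem_of_evPt_eq_zero (h0 P) ?_
      rw [mem_iff_not_ord_neg, show (placeAt P).ord X₀ = 0 from h1]
      norm_num
    have := (finite_ordAt_ne_zero (V := V) X₀).subset (fun P _ => hall P : Set.univ ⊆ _)
    exact Set.infinite_univ this

/-- An endomorphism: the induced map on points is additive. -/
def IsEndo (f : (curveFF V).toAffine.Point) : Prop :=
  ∀ P Q, valueAt f (P + Q) = valueAt f P + valueAt f Q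

/-- The generic point gives an endomorphism, the identity. -/
lemma isEndo_genPoint : IsEndo (genPoint V) := fun P Q => by simp

lemma IsEndo.add {f g : (curveFF V).toAffine.Point} (hf : IsEndo f) (hg : IsEndo g) :
    IsEndo (f + g) := fun P Q => by rw [valueAt_add, valueAt_add, valueAt_add, hf, hg]; abel

lemma IsEndo.neg {f : (curveFF V).toAffine.Point} (hf : IsEndo f) : IsEndo (-f) := fun P Q => by
  rw [valueAt_neg, valueAt_neg, valueAt_neg, hf, neg_add]

/-- A difference of endomorphisms is an endomorphism. -/
lemma IsEndo.sub {f g : (curveFF V).toAffine.Point} (hf : IsEndo f) (hg : IsEndo g) :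
    IsEndo (f - g) := sub_eq_add_neg f g ▸ hf.add hg.neg

/-- An endomorphism as a homomorphism on points. -/
def IsEndo.hom {f : (curveFF V).toAffine.Point} (hf : IsEndo f) :
    V.toAffine.Point →+ V.toAffine.Point :=
  AddMonoidHom.mk' (valueAt f) hf

/-- Fibres of a nonconstant point are finite. -/
theorem finite_fibre {f : (curveFF V).toAffine.Point} (hf : IsNonconst f) (Q : V.toAffine.Point) :
    {P | valueAt f P = Q}.Finite := by
  obtain ⟨X₀, Y₀, hn, rfl, ht⟩ := hf.exists_coords
  match Q with
  | .zero =>
    refine (finite_ordAt_ne_zero (V := V) X₀).subset fun P hP h1 => ?_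
    refine notMem_of_evPt_eq_zero hP ?_
    rw [mem_iff_not_ord_neg, show (placeAt P).ord X₀ = 0 from h1]
    norm_num
  | .some a b h =>
    refine (finite_ordAt_ne_zero (V := V) (X₀ - algebraMap k _ a)).subset fun P hP h1 => ?_
    obtain ⟨hx, -⟩ := hasVal_of_evPt_eq_some hP
    rcases hx with h0 | h0
    · exact ht (by rw [sub_eq_zero.1 h0]; exact isAlgebraic_algebraMap a)
    · have h1' : (placeAt P).ord (X₀ - algebraMap k _ a) = 0 := h1
      omega

/-- Translations and endomorphisms commute up to the induced map. -/
theorem translate_comp_pullback {f : (curveFF V).toAffine.Point} (hf : IsEndo f)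
    (hne : IsNonconst f) (A : V.toAffine.Point) :
    (translate A).comp (pullback f) = (pullback f).comp (translate (valueAt f A)) := by
  have e1 : pullPoint (isNonconst_translate A) f = f + constPt (valueAt f A) :=
    eq_of_valueAt_eq fun P => by
      rw [valueAt, evPt_pullPoint', evPt_genPoint_add_constPt, center_placeAt, valueAt_add,
        valueAt_constPt]
      exact hf P A
  have e2 : pullPoint hne (genPoint V + constPt (valueAt f A)) = f + constPt (valueAt f A) := by
    rw [map_add, pullPoint_genPoint, pullPoint_constPt]
  rw [translate, pullback_comp (isNonconst_translate A) hne (e1 ▸ hne.add_const _), translate,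
    pullback_comp hne (isNonconst_translate _) (e2 ▸ hne.add_const _), e1, e2]

omit [DecidableEq k] in
lemma ordAt_sub_of_not_two_torsion {a b : k} {hn : V.toAffine.Nonsingular a b}
    (h2 : b ≠ V.toAffine.negY a b) :
    ordAt (Point.some a b hn) (gx V - algebraMap k _ a) = 1 := by
  have hne : gx V - algebraMap k _ a ≠ 0 := fun h => transcendental_gx V
    (by rw [sub_eq_zero.1 h]; exact isAlgebraic_algebraMap _)
  have hpos : ∀ (b' : k) (hn' : V.toAffine.Nonsingular a b'),
      1 ≤ (placeAt (Point.some a b' hn')).ord (gx V - algebraMap k _ a) := fun b' hn' =>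
    ((center_eq_some_iff.1 (center_placeAt _)).1).resolve_left hne
  have hdiff : placeAt (Point.some a b hn) ≠
      placeAt (Point.some a _ ((nonsingular_neg ..).mpr hn)) := fun e => h2 (by
    have := placeAt_injective e
    simp only [Point.some.injEq] at this
    exact this.2)
  classical
  have h := sum_ord_le_two _ a rfl
    {placeAt (Point.some a b hn), placeAt (Point.some a _ ((nonsingular_neg ..).mpr hn))}
    (fun u hu => by
      simp only [Finset.mem_insert, Finset.mem_singleton] at hu
      rcases hu with rfl | rfl
      · linarith [hpos b hn]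
      · linarith [hpos _ ((nonsingular_neg ..).mpr hn)])
  rw [Finset.sum_pair hdiff] at h
  have := hpos b hn
  have := hpos _ ((nonsingular_neg ..).mpr hn)
  simp only [ordAt]
  omega

section Differential

variable {v : Place k (FF V)} {t : FF V} (ht : v.ord t = 1)

/-- Classical equality of Laurent series. -/
local instance : DecidableEq (LaurentSeries k) := Classical.decEq _

/-- The curve over the Laurent series field. -/
abbrev curveLS (V : WeierstrassCurve k) : WeierstrassCurve (LaurentSeries k) :=
  V.map (algebraMap k (LaurentSeries k))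

omit [DecidableEq k] [V.IsElliptic] in
/-- Expansion at a uniformizer carries the curve over the function field to that over the series. -/
lemma map_expand : (curveFF V).map (expand ht).toRingHom = curveLS V := by
  rw [curveFF, WeierstrassCurve.map_map]
  congr 1
  exact RingHom.ext (expand ht).commutes

/-- A point expanded at a uniformizer. -/
def expandPt : (curveFF V).toAffine.Point →+ (curveLS V).toAffine.Point :=
  mapPoint (expand ht).toRingHom (map_expand ht)

omit [DecidableEq k] [IsAlgClosed k] in
/-- The operator `theta` kills constants. -/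
lemma theta_algebraMap (c : k) : theta (algebraMap k (LaurentSeries k) c) = 0 := by
  ext j
  rcases eq_or_ne j 0 with rfl | hj
  · simp
  · rw [HahnSeries.algebraMap_apply', coeff_theta]
    simp [HahnSeries.coeff_single_of_ne hj]

/-- `f` multiplies the invariant differential by `c`. -/
def HasDiffMult (f : (curveFF V).toAffine.Point) (c : k) : Prop :=
  ∀ (v : Place k (FF V)) (t : FF V) (ht : v.ord t = 1) (c₀ : LaurentSeries k),
    HasMult theta (curveLS V) (expandPt ht (genPoint V)) c₀ →
      HasMult theta (curveLS V) (expandPt ht f) (algebraMap k _ c * c₀)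

lemma hasDiffMult_constPt (A : V.toAffine.Point) : HasDiffMult (constPt A) (0 : k) := by
  intro v t ht c₀ _
  rw [map_zero, zero_mul]
  match A with
  | .zero => rfl
  | .some a b h =>
    constructor <;> simp [(expand ht).commutes, theta_algebraMap]

section

omit [DecidableEq k]

/-- The generic point multiplies the invariant differential by one. -/
lemma hasDiffMult_genPoint : HasDiffMult (genPoint V) (1 : k) := fun v t ht c₀ h => by
  simpa using h

lemma HasDiffMult.add {f g : (curveFF V).toAffine.Point} {c d : k} (hf : HasDiffMult f c)
    (hg : HasDiffMult g d) : HasDiffMult (f + g) (c + d) := by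
  intro v t ht c₀ h
  rw [map_add, map_add (algebraMap k (LaurentSeries k)), add_mul]
  exact HasMult.add theta_mul (theta_algebraMap _) (theta_algebraMap _) (theta_algebraMap _)
    (theta_algebraMap _) (hf v t ht c₀ h) (hg v t ht c₀ h)

lemma HasDiffMult.neg {f : (curveFF V).toAffine.Point} {c : k} (hf : HasDiffMult f c) :
    HasDiffMult (-f) (-c) := by
  intro v t ht c₀ h
  have hh := hf v t ht c₀ h
  rw [map_neg, map_neg (algebraMap k (LaurentSeries k)), neg_mul]
  match hP : expandPt ht f, hh with
  | .zero, hh =>
    show -(algebraMap k (LaurentSeries k) c * c₀) = 0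
    rw [show algebraMap k (LaurentSeries k) c * c₀ = 0 from hh, neg_zero]
  | .some x y hn, ⟨h1, h2⟩ =>
    rw [Point.neg_some]
    refine ⟨?_, ?_⟩
    · simp only [negY]; linear_combination h1
    · simp only [negY, map_sub, map_neg, theta_mul, WeierstrassCurve.map_a₁,
        WeierstrassCurve.map_a₃, theta_algebraMap] at h1 h2 ⊢
      linear_combination -h2 - algebraMap k (LaurentSeries k) V.a₁ * h1

/-- The multiplier of a difference is the difference of the multipliers. -/
lemma HasDiffMult.sub {f g : (curveFF V).toAffine.Point} {c d : k} (hf : HasDiffMult f c)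
    (hg : HasDiffMult g d) : HasDiffMult (f - g) (c - d) := by
  simpa [sub_eq_add_neg] using hf.add hg.neg

lemma hasMult_genPoint_aux {a b : k} {hn : V.toAffine.Nonsingular a b}
    (h2 : b ≠ V.toAffine.negY a b)
    (ht : (placeAt (Point.some a b hn)).ord (gx V - algebraMap k _ a) = 1) :
    ∃ c₀ : LaurentSeries k, c₀ ≠ 0 ∧ c₀.order = 1 ∧
      HasMult theta (curveLS V) (expandPt ht (genPoint V)) c₀ := by
  obtain ⟨hx, hy⟩ := center_eq_some_iff.1 (center_placeAt (Point.some a b hn))
  set u := 2 * gy V + algebraMap k _ V.a₁ * gx V + algebraMap k _ V.a₃ with hu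
  have hub : 2 * b + V.a₁ * a + V.a₃ ≠ 0 := fun h => h2 (by
    simp only [negY]; linear_combination h)
  have huv : HasVal (placeAt (Point.some a b hn)) u (2 * b + V.a₁ * a + V.a₃) :=
    (((hasVal_ofNat _ 2).mul hy).add ((hasVal_algebraMap _ V.a₁).mul hx)).add
      (hasVal_algebraMap _ V.a₃)
  obtain ⟨hu0, huo⟩ := huv.ord_eq_zero hub
  set E := (expand ht).toRingHom with hE
  have hEu : E u ≠ 0 := (_root_.map_ne_zero _).2 hu0
  have hEc : ∀ c : k, E (algebraMap k _ c) = algebraMap k _ c := (expand ht).commutes
  have hEx : E (gx V) = HahnSeries.single 1 1 + algebraMap k _ a := by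
    have h1 : E (gx V - algebraMap k _ a) = HahnSeries.single 1 1 := expand_t ht
    rw [← h1, map_sub, hEc]; ring
  have hth : theta (E (gx V)) = HahnSeries.single 1 1 := by
    rw [hEx, map_add, theta_algebraMap, theta_single, add_zero]; simp
  have hs : (HahnSeries.single (1 : ℤ) (1 : k) : LaurentSeries k) ≠ 0 := by simp
  refine ⟨HahnSeries.single 1 1 / E u, div_ne_zero hs hEu, ?_, ?_⟩
  · rw [div_eq_mul_inv, HahnSeries.order_mul hs (inv_ne_zero hEu),
      FermatAgent.Curve.order_inv hEu, HahnSeries.order_single one_ne_zero,
      show (E u).order = _ from order_expand ht u, huo]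
    norm_num
  · have heu : E u = 2 * E (gy V) + algebraMap k _ V.a₁ * E (gx V) + algebraMap k _ V.a₃ := by
      simp [hu, hEc, map_ofNat]
    have h0 : theta (E (gx V)) = HahnSeries.single 1 1 / E u *
        (2 * E (gy V) + algebraMap k _ V.a₁ * E (gx V) + algebraMap k _ V.a₃) := by
      rw [← heu, div_mul_cancel₀ _ hEu, hth]
    refine ⟨?_, ?_⟩
    · exact h0
    · show theta (E (gy V)) = HahnSeries.single 1 1 / E u * (3 * E (gx V) ^ 2 +
        2 * algebraMap k _ V.a₂ * E (gx V) + algebraMap k _ V.a₄ -
          algebraMap k _ V.a₁ * E (gy V))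
      have heq := congrArg (fun z => theta (E z)) ((equation_iff ..).mp (gen_equation V))
      simp only [WeierstrassCurve.map_a₁, WeierstrassCurve.map_a₂, WeierstrassCurve.map_a₃,
        WeierstrassCurve.map_a₄, WeierstrassCurve.map_a₆, pow_three, pow_two, map_add, map_mul,
        hEc, theta_mul, theta_algebraMap, mul_zero, add_zero] at heq
      apply mul_right_cancel₀ hEu
      rw [div_mul_eq_mul_div, div_mul_cancel₀ _ hEu, ← hth]
      rw [heu]
      linear_combination heq

end

/-- Multiplication by `n` multiplies the invariant differential by `n`. -/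
lemma hasDiffMult_nsmul (n : ℕ) : HasDiffMult (n • genPoint V) (n : k) := by
  induction n with
  | zero =>
    simpa using hasDiffMult_constPt (0 : V.toAffine.Point)
  | succ n ih => simpa [succ_nsmul] using ih.add hasDiffMult_genPoint

/-- A nonconstant endomorphism with nonzero differential is unramified everywhere. -/
theorem ordAt_pullback {f : (curveFF V).toAffine.Point} (hf : IsEndo f) (hne : IsNonconst f)
    {c : k} (hc : HasDiffMult f c) (hc0 : c ≠ 0) (P : V.toAffine.Point) (u : FF V) :
    ordAt P (pullback f u) = ordAt (valueAt f P) u := by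
  classical
  obtain ⟨P₀, hP₀⟩ := Set.Infinite.nonempty
    ((Set.infinite_univ (α := V.toAffine.Point)).sdiff ((finite_two_nsmul 0).union
      ((finite_two_nsmul (V := V) 0).biUnion fun Q _ => finite_fibre hne Q)))
  simp only [Set.mem_sdiff, Set.mem_univ, true_and, Set.mem_union, Set.mem_iUnion, not_or,
    Set.mem_ofPred_eq, exists_prop, not_exists, not_and] at hP₀
  obtain ⟨hP2, hQ2⟩ := hP₀
  -- the ramification index does not depend on the point
  obtain ⟨e, he, hE⟩ := exists_ramification hne P₀
  have hconst : ∀ u, ordAt P (pullback f u) = e * ordAt (valueAt f P) u := fun u => by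
    have h1 := RingHom.congr_fun (translate_comp_pullback hf hne (P - P₀)) u
    have h2 := congrArg (ordAt P₀) h1
    simp only [RingHom.comp_apply] at h2
    rw [ordAt_translate, add_sub_cancel, hE, ordAt_translate] at h2
    rw [h2]
    congr 2
    show valueAt f P₀ + valueAt f (P - P₀) = _
    rw [← hf, add_sub_cancel]
  suffices e = 1 by rw [hconst, this, Nat.cast_one, one_mul]
  rcases P₀ with _ | ⟨a, b, hn⟩
  · exact absurd (nsmul_zero 2) hP2
  rcases hQ : valueAt f (Point.some a b hn) with _ | ⟨a', b', hn'⟩
  · exact absurd hQ (hQ2 0 (nsmul_zero 2))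
  ·
    have hb : b ≠ V.toAffine.negY a b := fun e => hP2 (by
      rw [two_nsmul]; exact Point.add_self_of_Y_eq e)
    have hb' : b' ≠ V.toAffine.negY a' b' := fun e => (hQ2 _ (by
      rw [two_nsmul]; exact Point.add_self_of_Y_eq e)) hQ
    have ht : (placeAt (Point.some a b hn)).ord (gx V - algebraMap k _ a) = 1 :=
      ordAt_sub_of_not_two_torsion hb
    obtain ⟨c₀, hc₀, ho, hm⟩ := hasMult_genPoint_aux hb ht
    have hfm := hc _ _ ht c₀ hm
    obtain ⟨X₀, Y₀, hXY, rfl, -⟩ := hne.exists_coords
    obtain ⟨hX, hY⟩ := hasVal_of_evPt_eq_some hQ
    have h1 : theta (expand ht (X₀ - algebraMap k _ a')) = algebraMap k _ c * c₀ *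
        expand ht (2 * Y₀ + algebraMap k _ V.a₁ * X₀ + algebraMap k _ V.a₃) := by
      rw [map_sub, map_sub, (expand ht).commutes, theta_algebraMap, sub_zero]
      simpa [(expand ht).commutes, map_ofNat] using hfm.1
    have hub : 2 * b' + V.a₁ * a' + V.a₃ ≠ 0 := fun h => hb' (by
      simp only [negY]; linear_combination h)
    obtain ⟨hu0, huo⟩ := ((((hasVal_ofNat _ 2).mul hY).add
      ((hasVal_algebraMap _ V.a₁).mul hX)).add (hasVal_algebraMap _ V.a₃)).ord_eq_zero hub
    have hge : 2 ≤ e → False := by
      intro he2
      have hu : ordAt (Point.some a b hn) (X₀ - algebraMap k _ a') = e := by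
        have := hE (gx V - algebraMap k _ a')
        rw [map_sub, pullback_algebraMap hne, pullback_gx hne] at this
        rw [this]
        have hQ' : evPt (placeAt (Point.some a b hn)) (.some X₀ Y₀ hXY : (curveFF V).toAffine.Point)
            = Point.some a' b' hn' := hQ
        rw [hQ', ordAt_sub_of_not_two_torsion hb', mul_one]
      have hsge : SGE 2 (expand ht (X₀ - algebraMap k _ a')) :=
        (ordGE_iff_sge ht).1 (Or.inr (le_of_le_of_eq (by exact_mod_cast he2) hu.symm))
      have := sge_theta hsge
      rw [h1] at this
      have hco : algebraMap k (LaurentSeries k) c ≠ 0 := (_root_.map_ne_zero _).2 hc0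
      have hne2 := (_root_.map_ne_zero (expand ht)).2 hu0
      have h3 := this.le_order (mul_ne_zero (mul_ne_zero hco hc₀) hne2)
      rw [HahnSeries.order_mul (mul_ne_zero hco hc₀) hne2, HahnSeries.order_mul hco hc₀,
        order_expand, huo, ho] at h3
      have hoc : (algebraMap k (LaurentSeries k) c).order = 0 := by
        rw [← (expand ht).commutes c, order_expand, ord_algebraMap hc0]
      rw [hoc] at h3
      omega
    have : ¬ 2 ≤ e := hge
    omega

end Differential

end FermatAgent.EC
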