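import Fermat.Agent.EC.WeilDet
import Mathlib.Algebra.CharP.Frobenius
import Mathlib.LinearAlgebra.Matrix.Charpoly.Coeff
import Mathlib.LinearAlgebra.Charpoly.ToMatrix

/-!
# The Frobenius endomorphism

For a curve over an algebraically closed field `k` of characteristic `p` with coefficients in
`𝔽_q`, the Frobenius `φ` satisfies `φ² - a φ + q = 0`, `a = q + 1 - #E(𝔽_q)`, and on `E[ℓ]`,
for a prime `ℓ ≠ p`, has trace `a` and determinant `q`.
-/

set_option autoImplicit false

noncomputable section

open WeierstrassCurve WeierstrassCurve.Affine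
open AlgebraicCurve FermatAgent.Curve

namespace FermatAgent.EC

universe u

variable {k : Type u} [Field k] [DecidableEq k] {V : WeierstrassCurve k}
  {σ : k ≃+* k} {p r : ℕ} [CharP k p]

section Trace

section Plane

open Polynomial

variable {R : Type*} [CommRing R] [Nontrivial R] {M : Type*} [AddCommGroup M] [Module R M]
  (b : Module.Basis (Fin 2) R M) (f : Module.End R M)

include b

/-- The characteristic polynomial in rank two. -/
theorem charpoly_plane [Module.Free R M] [Module.Finite R M] :
    f.charpoly = X ^ 2 - C (LinearMap.trace R M f) * X + C (LinearMap.det f) := by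
  rw [← LinearMap.charpoly_toMatrix f b, LinearMap.trace_eq_matrix_trace R b,
    ← LinearMap.det_toMatrix b, Matrix.charpoly_fin_two]

/-- Cayley–Hamilton in rank two. -/
theorem quadratic_plane (x : M) :
    f (f x) - LinearMap.trace R M f • f x + LinearMap.det f • x = 0 := by
  have := Module.Free.of_basis b
  have := Module.Finite.of_basis b
  have h := LinearMap.congr_fun (LinearMap.aeval_self_charpoly f) x
  rw [charpoly_plane b f] at h
  simpa [pow_two, Polynomial.aeval_def] using h

omit [Nontrivial R] in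
/-- The trace of an automorphism of a plane with an eigenvector. -/
theorem trace_eq_of_eigenvector [IsDomain R] {v : M} (hv : v ≠ 0) {c d : R} (hc : c ≠ 0)
    (hfv : f v = c • v) (hdet : LinearMap.det f = c * d) :
    LinearMap.trace R M f = c + d := by
  have h := quadratic_plane b f v
  rw [hfv, map_smul, hfv, hdet, smul_smul, smul_smul, ← sub_smul, ← add_smul] at h
  have h1 : c * c - LinearMap.trace R M f * c + c * d = 0 := by
    by_contra hne
    refine hv (b.repr.injective (Finsupp.ext fun i => ?_))
    have := congrArg (fun v => b.repr v i) h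
    simpa [hne] using this
  refine mul_right_cancel₀ hc ?_
  linear_combination -h1

end Plane

/-- Cayley–Hamilton in dimension two. -/
theorem comp_self_of_trace_det {R : Type*} [Field R] {M : Type*} [AddCommGroup M] [Module R M]
    (hrank : Module.finrank R M = 2) (A : M →ₗ[R] M) (x : M) :
    A (A x) - LinearMap.trace R M A • A x + LinearMap.det A • x = 0 :=
  have := Module.finite_of_finrank_eq_succ hrank
  quadratic_plane (Module.finBasisOfFinrankEq R M hrank) A x

/-- In dimension two, `det (1 - A) = 1 - tr A + det A`. -/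
theorem trace_eq_of_det {R : Type*} [Field R] {M : Type*} [AddCommGroup M] [Module R M]
    (hrank : Module.finrank R M = 2) (A : M →ₗ[R] M) :
    LinearMap.trace R M A = 1 + LinearMap.det A - LinearMap.det (1 - A) := by
  have := Module.finite_of_finrank_eq_succ hrank
  set b := Module.finBasisOfFinrankEq R M hrank
  rw [LinearMap.trace_eq_matrix_trace R b, ← LinearMap.det_toMatrix b A,
    ← LinearMap.det_toMatrix b (1 - A), map_sub, LinearMap.toMatrix_one]
  simp [Matrix.trace_fin_two, Matrix.det_fin_two, -LinearMap.det_toMatrix]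
  ring

end Trace

variable (hr : 0 < r) (hσV : V.map σ.toRingHom = V) (hσ : ∀ x : k, σ x = x ^ (p ^ r))

include hr in
omit [DecidableEq k] [CharP k p] in
lemma one_lt_q (hp : p.Prime) : 1 < p ^ r := Nat.one_lt_pow hr.ne' hp.one_lt

section FF

/-- Classical equality of Laurent series. -/
local instance : DecidableEq (LaurentSeries k) := Classical.decEq _

variable [IsAlgClosed k] [V.IsElliptic] [hp : Fact p.Prime]

instance charP_FF : CharP (FF V) p := charP_of_injective_algebraMap' k p

include hσV hσ in
omit [DecidableEq k] [IsAlgClosed k] [V.IsElliptic] in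
lemma map_iterateFrobenius :
    (curveFF V).map (iterateFrobenius (FF V) p r) = curveFF V := by
  rw [curveFF, WeierstrassCurve.map_map]
  have : (iterateFrobenius (FF V) p r).comp (algebraMap k (FF V)) =
      (algebraMap k (FF V)).comp σ.toRingHom := RingHom.ext fun c => by
    simp [iterateFrobenius_def, hσ]
  rw [this, ← WeierstrassCurve.map_map, hσV]

/-- Composition with Frobenius on points over the function field. -/
def frobMap : (curveFF V).toAffine.Point →+ (curveFF V).toAffine.Point :=
  mapPoint (iterateFrobenius (FF V) p r) (map_iterateFrobenius hσV hσ)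

/-- The Frobenius point `(x^q, y^q)`. -/
def frobPt : (curveFF V).toAffine.Point := frobMap hσV hσ (genPoint V)

lemma valueAt_frobMap (f : (curveFF V).toAffine.Point) (P : V.toAffine.Point) :
    valueAt (frobMap hσV hσ f) P = mapPoint σ.toRingHom hσV (valueAt f P) := by
  have hq : p ^ r ≠ 0 := (pow_pos hp.out.pos r).ne'
  rcases f with _ | ⟨X₀, Y₀, hf⟩
  · rfl
  rw [frobMap, mapPoint_some]
  unfold valueAt
  rcases hP : evPt (placeAt P) (Point.some X₀ Y₀ hf) with _ | ⟨a, b, hab⟩
  · rw [mapPoint_zero]
    have hX := notMem_of_evPt_eq_zero hP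
    refine evPt_of_notMem ?_
    rw [iterateFrobenius_def]
    intro hmem
    apply hX
    have hX0 : X₀ ≠ 0 := fun e => hX (e ▸ zero_mem _)
    rw [mem_iff_ord_nonneg (pow_ne_zero _ hX0), ord_pow] at hmem
    rw [mem_iff_ord_nonneg hX0]
    have : (0 : ℤ) < ((p ^ r : ℕ) : ℤ) := by exact_mod_cast Nat.pos_of_ne_zero hq
    nlinarith
  · rw [mapPoint_some]
    obtain ⟨hx, hy⟩ := hasVal_of_evPt_eq_some hP
    refine evPt_of_hasVal ?_ ?_
    · rw [iterateFrobenius_def]
      exact (hσ a).symm ▸ hx.pow _
    · rw [iterateFrobenius_def]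
      exact (hσ b).symm ▸ hy.pow _

lemma valueAt_frobPt (P : V.toAffine.Point) :
    valueAt (frobPt hσV hσ) P = mapPoint σ.toRingHom hσV P := by
  rw [frobPt, valueAt_frobMap hσV hσ, valueAt_genPoint]

lemma isEndo_frobPt : IsEndo (frobPt hσV hσ) := fun P Q => by
  simp only [valueAt_frobPt hσV hσ, map_add]

include hr in

omit [DecidableEq k] in
include hr in
lemma hasDiffMult_frobPt : HasDiffMult (frobPt hσV hσ) (0 : k) := by
  intro v t ht c₀ _
  have hpow : ∀ (z : LaurentSeries k) (m : ℕ), theta (z ^ m) = (m : LaurentSeries k) *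
      (z ^ (m - 1) * theta z) := by
    intro z m
    induction m with
    | zero =>
      rw [pow_zero, Nat.cast_zero, zero_mul, ← map_one (algebraMap k (LaurentSeries k)),
        theta_algebraMap]
    | succ m ih =>
      rcases m with _ | m
      · simp
      · rw [pow_succ, theta_mul, ih]
        simp only [Nat.add_sub_cancel, Nat.cast_add, Nat.cast_one, pow_succ]
        ring
  have hchar : ((p ^ r : ℕ) : LaurentSeries k) = 0 := by
    have : CharP (LaurentSeries k) p := charP_of_injective_algebraMap' k p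
    rw [Nat.cast_pow, CharP.cast_eq_zero, zero_pow hr.ne']
  rw [map_zero, zero_mul, frobPt, frobMap, genPoint, mapPoint_some, expandPt, mapPoint_some]
  constructor <;>
    · show theta (expand ht (iterateFrobenius (FF V) p r _)) = _
      rw [iterateFrobenius_def, map_pow, hpow, hchar, zero_mul, zero_mul]

omit [CharP k p] in
include hr hσ in
/-- Frobenius has finitely many fixed points. -/
lemma finite_fixed : {P : V.toAffine.Point | mapPoint σ.toRingHom hσV P = P}.Finite := by
  classical
  have hfin : {x : k | x ^ (p ^ r) = x}.Finite := by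
    refine ((Polynomial.X ^ (p ^ r) - Polynomial.X :
        Polynomial k).roots.toFinset.finite_toSet).subset
      fun x hx => ?_
    simp only [Finset.mem_coe, Multiset.mem_toFinset,
      Polynomial.mem_roots (FiniteField.X_pow_card_sub_X_ne_zero k (one_lt_q hr hp.out)),
      Polynomial.IsRoot.def, Polynomial.eval_sub, Polynomial.eval_pow, Polynomial.eval_X]
    exact sub_eq_zero.2 hx
  refine ((finite_points_of_x hfin).union (Set.finite_singleton (0 : V.toAffine.Point))).subset ?_
  rintro (_ | ⟨x, y, h⟩) hP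
  · exact Or.inr rfl
  · left
    simp only [Set.mem_ofPred_eq, mapPoint_some, Point.some.injEq] at hP
    exact ⟨x, y, h, rfl, (hσ x).symm.trans hP.1⟩

/-- `1 - φ`. -/
def oneSubFrob : (curveFF V).toAffine.Point := genPoint V - frobPt hσV hσ

lemma valueAt_oneSubFrob (P : V.toAffine.Point) :
    valueAt (oneSubFrob hσV hσ) P = P - mapPoint σ.toRingHom hσV P := by
  rw [oneSubFrob, valueAt_sub, valueAt_genPoint, valueAt_frobPt hσV hσ]

include hr in
lemma isNonconst_oneSubFrob : IsNonconst (oneSubFrob hσV hσ) := by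
  intro A h
  have hall : ∀ P, P - mapPoint σ.toRingHom hσV P = A := fun P => by
    rw [← valueAt_oneSubFrob hσV hσ, h, valueAt_constPt]
  have hA : A = 0 := by rw [← hall 0, map_zero, sub_zero]
  subst hA
  exact Set.infinite_univ ((finite_fixed hr hσV hσ).subset fun P _ =>
    (sub_eq_zero.1 (hall P)).symm)

/-- The number of rational points. -/
def fixedCard : ℕ := Nat.card {P : V.toAffine.Point // mapPoint σ.toRingHom hσV P = P}

include hr hσ in
/-- `1 - φ` multiplies the Weil pairing by its degree, the number of rational points. -/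
theorem weilPair_oneSubFrob {n : ℕ} (hn : (n : k) ≠ 0) {S T : V.toAffine.Point}
    (hS : n • S = 0) (hT : n • T = 0) :
    weilPair n (S - mapPoint σ.toRingHom hσV S) (T - mapPoint σ.toRingHom hσV T) =
      weilPair n S T ^ fixedCard hσV := by
  have h := weilPair_valueAt hn (isEndo_genPoint.sub (isEndo_frobPt hσV hσ))
    (isNonconst_oneSubFrob hr hσV hσ)
    (hasDiffMult_genPoint.sub (hasDiffMult_frobPt hr hσV hσ))
    (by rw [sub_zero]; exact one_ne_zero) hS hT
  change weilPair n (valueAt (oneSubFrob hσV hσ) S) (valueAt (oneSubFrob hσV hσ) T) =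
    weilPair n S T ^ Nat.card {C : V.toAffine.Point // valueAt (oneSubFrob hσV hσ) C = 0} at h
  simp only [valueAt_oneSubFrob hσV hσ] at h
  rw [h, fixedCard]
  congr 1
  exact Nat.card_congr (Equiv.subtypeEquivRight fun P => by rw [sub_eq_zero]; exact eq_comm)

variable {ℓ : ℕ} [hl : Fact ℓ.Prime] [Module (ZMod ℓ) (Submodule.torsionBy ℤ V.toAffine.Point ℓ)]

omit [IsAlgClosed k] [V.IsElliptic] [CharP k p] hp
    [Module (ZMod ℓ) (Submodule.torsionBy ℤ V.toAffine.Point ℓ)] hl in
lemma mapPoint_mem_torsionBy (P : Submodule.torsionBy ℤ V.toAffine.Point ℓ) :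
    mapPoint σ.toRingHom hσV (P : V.toAffine.Point) ∈ Submodule.torsionBy ℤ V.toAffine.Point ℓ := by
  rw [Submodule.mem_torsionBy_iff, natCast_zsmul, ← map_nsmul, nsmul_coe_torsionBy, map_zero]

/-- Frobenius on `E[ℓ]`. -/
def frobTorsion : Submodule.torsionBy ℤ V.toAffine.Point ℓ →ₗ[ZMod ℓ]
    Submodule.torsionBy ℤ V.toAffine.Point ℓ :=
  AddMonoidHom.toZModLinearMap ℓ
    { toFun := fun P => ⟨mapPoint σ.toRingHom hσV P, mapPoint_mem_torsionBy hσV P⟩
      map_zero' := Subtype.ext (by simp)
      map_add' := fun P Q => Subtype.ext (by simp) }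

omit [CharP k p] hp [IsAlgClosed k] [V.IsElliptic] in
@[simp]
lemma frobTorsion_coe (P : Submodule.torsionBy ℤ V.toAffine.Point ℓ) :
    (frobTorsion hσV P : V.toAffine.Point) = mapPoint σ.toRingHom hσV P := rfl

omit [CharP k p] in
include hσ in
omit hp in
/-- **The determinant of Frobenius on `E[ℓ]` is `q`**, by the Weil pairing. -/
theorem det_frobTorsion (hl : (ℓ : k) ≠ 0) :
    LinearMap.det (frobTorsion (ℓ := ℓ) hσV) = ((p ^ r : ℕ) : ZMod ℓ) := by
  refine det_eq_natCast_of_weilPair hl _ _ fun S T => ?_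
  rw [frobTorsion_coe, frobTorsion_coe,
    weilPair_mapPoint hl σ hσV (nsmul_coe_torsionBy S) (nsmul_coe_torsionBy T), hσ]

include hr hσ in
/-- **The trace of Frobenius on `E[ℓ]` is `q + 1 - #E(𝔽_q)`**: the determinant of `1 - φ` is its
degree `#E(𝔽_q)`. -/
theorem trace_frobTorsion (hl' : (ℓ : k) ≠ 0) :
    LinearMap.trace (ZMod ℓ) _ (frobTorsion (ℓ := ℓ) hσV) =
      (((p ^ r : ℕ) : ℤ) + 1 - fixedCard hσV : ℤ) := by
  have hrank := finrank_torsionBy_zmod (V := V) (ℓ := ℓ) hl'
  rw [trace_eq_of_det hrank, det_frobTorsion hσV hσ hl',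
    det_eq_natCast_of_weilPair hl' _ (fixedCard hσV) fun S T => ?_]
  · push_cast; ring
  · simp only [LinearMap.sub_apply, Module.End.one_apply, AddSubgroupClass.coe_sub,
      frobTorsion_coe]
    exact weilPair_oneSubFrob hr hσV hσ hl' (nsmul_coe_torsionBy S) (nsmul_coe_torsionBy T)

include hr hσ in
/-- **`φ² - a φ + q = 0` on all points**, `a = q + 1 - #E(𝔽_q)`: it holds on every `E[l]`. -/
theorem frobenius_quadratic (P : V.toAffine.Point) :
    mapPoint σ.toRingHom hσV (mapPoint σ.toRingHom hσV P) -
      (((p ^ r : ℕ) : ℤ) + 1 - fixedCard hσV) • mapPoint σ.toRingHom hσV P +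
      ((p ^ r : ℕ) : ℤ) • P = 0 := by
  set a : ℤ := ((p ^ r : ℕ) : ℤ) + 1 - fixedCard hσV
  set q : ℤ := ((p ^ r : ℕ) : ℤ)
  set F := frobMap hσV hσ (frobPt hσV hσ) - a • frobPt hσV hσ + q • genPoint V with hF
  have hval : ∀ P, valueAt F P = mapPoint σ.toRingHom hσV (mapPoint σ.toRingHom hσV P) -
      a • mapPoint σ.toRingHom hσV P + q • P := fun P => by
    simp only [hF, valueAt_add, valueAt_sub, valueAt_zsmul, valueAt_frobMap hσV hσ,
      valueAt_frobPt hσV hσ, valueAt_genPoint]
  have htors : ∀ (l : ℕ) (hl : l.Prime), l ≠ p → ∀ P : V.toAffine.Point, l • P = 0 →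
      valueAt F P = 0 := by
    intro l hl hlp P hP
    have := Fact.mk hl
    have hlk : (l : k) ≠ 0 := by
      rw [ne_eq, CharP.cast_eq_zero_iff k p, Nat.prime_dvd_prime_iff_eq hp.out hl]
      exact Ne.symm hlp
    let inst : Module (ZMod l) (Submodule.torsionBy ℤ V.toAffine.Point l) :=
      AddCommGroup.zmodModule fun x => Subtype.ext (by simp [nsmul_coe_torsionBy x])
    have hrank := finrank_torsionBy_zmod (V := V) (ℓ := l) hlk
    let x : Submodule.torsionBy ℤ V.toAffine.Point l :=
      ⟨P, (Submodule.mem_torsionBy_iff _ _).2 (by rw [natCast_zsmul]; exact hP)⟩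
    have h := comp_self_of_trace_det hrank (frobTorsion hσV) x
    rw [trace_frobTorsion hr hσV hσ hlk, det_frobTorsion hσV hσ hlk,
      Int.cast_smul_eq_zsmul, Nat.cast_smul_eq_nsmul, ← natCast_zsmul] at h
    rw [hval]
    simpa [a, q, x] using congrArg Subtype.val h
  by_cases hne : IsNonconst F
  · exfalso
    have hfin : {P : V.toAffine.Point | valueAt F P = 0}.Finite := finite_fibre hne 0
    have hex : ∀ l : {l : ℕ // l.Prime ∧ l ≠ p}, ∃ P : V.toAffine.Point, l.1 • P = 0 ∧ P ≠ 0 := by
      rintro ⟨l, hl, hlp⟩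
      have hlk : (l : k) ≠ 0 := by
        rw [ne_eq, CharP.cast_eq_zero_iff k p, Nat.prime_dvd_prime_iff_eq hp.out hl]
        exact Ne.symm hlp
      by_contra hcon
      push Not at hcon
      have h1 := natCard_nsmul_eq_zero (V_Δ_ne_zero V) hlk
      have : Subsingleton {P : V.toAffine.Point // l • P = 0} :=
        ⟨fun P Q => Subtype.ext ((hcon _ P.2).trans (hcon _ Q.2).symm)⟩
      have : Nonempty {P : V.toAffine.Point // l • P = 0} := ⟨⟨0, nsmul_zero _⟩⟩
      rw [Nat.card_of_subsingleton ⟨0, nsmul_zero _⟩] at h1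
      exact absurd h1.symm (Nat.one_lt_pow two_ne_zero hl.one_lt).ne'
    choose Q hQ hQ0 using hex
    have hinj : Function.Injective Q := fun l l' e => by
      have h1 := addOrderOf_eq_prime (hp := ⟨l.2.1⟩) (hQ l) (hQ0 l)
      have h2 := addOrderOf_eq_prime (hp := ⟨l'.2.1⟩) (hQ l') (hQ0 l')
      exact Subtype.ext (h1.symm.trans ((congrArg addOrderOf e).trans h2))
    have : Infinite {l : ℕ // l.Prime ∧ l ≠ p} :=
      (Nat.infinite_setOfPred_prime.sdiff (Set.finite_singleton p)).to_subtype
    exact (Set.infinite_range_of_injective hinj) (hfin.subset (by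
      rintro _ ⟨l, rfl⟩
      exact htors l.1 l.2.1 l.2.2 _ (hQ l)))
  · simp only [IsNonconst, ne_eq, not_forall, not_not] at hne
    obtain ⟨A, hA⟩ := hne
    have hA0 : A = 0 := by
      have h0 := hval 0
      rw [hA, valueAt_constPt] at h0
      simpa using h0
    rw [← hval, hA, valueAt_constPt, hA0]

end FF

end FermatAgent.EC
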