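import Fermat.Agent.Curve.Expansion

/-!
# Values of functions at places over an algebraically closed field
-/

set_option autoImplicit false

noncomputable section

open AlgebraicCurve FermatAgent.Curve

namespace FermatAgent.EC

universe u v

variable {K : Type u} {F : Type v} [Field K] [Field F] [Algebra K F]

/-- `u` is regular at `v` with value `c`. -/
def HasVal (v : Place K F) (u : F) (c : K) : Prop :=
  OrdGE v 1 (u - algebraMap K F c)

variable {v : Place K F} {u w : F} {a b : K}

/-- A function with a value at a place is regular there. -/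
theorem HasVal.mem (h : HasVal v u a) : u ∈ v.toValuationSubring := by
  have := add_mem (OrdGE.mem (n := 1) h (by norm_num)) (v.algebraMap_mem' a)
  rwa [sub_add_cancel] at this

/-- A constant takes itself as value. -/
theorem hasVal_algebraMap (v : Place K F) (c : K) : HasVal v (algebraMap K F c) c := by
  rw [HasVal, sub_self]; exact OrdGE.zero

theorem hasVal_zero (v : Place K F) : HasVal v (0 : F) 0 := by
  simpa using hasVal_algebraMap v (0 : K)

/-- The function `1` takes the value `1`. -/
theorem hasVal_one (v : Place K F) : HasVal v (1 : F) 1 := by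
  simpa using hasVal_algebraMap v (1 : K)

/-- A numeral takes itself as value. -/
theorem hasVal_ofNat (v : Place K F) (n : ℕ) [n.AtLeastTwo] :
    HasVal v (OfNat.ofNat n : F) (OfNat.ofNat n : K) := by
  simpa [map_ofNat] using hasVal_algebraMap v (OfNat.ofNat n : K)

/-- Values add. -/
theorem HasVal.add (h : HasVal v u a) (h' : HasVal v w b) : HasVal v (u + w) (a + b) := by
  rw [HasVal, map_add]
  convert OrdGE.add h h' using 1; ring

/-- The value of a negative is the negative of the value. -/
theorem HasVal.neg (h : HasVal v u a) : HasVal v (-u) (-a) := by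
  rw [HasVal, map_neg]
  convert OrdGE.neg h using 1; ring

/-- Values subtract. -/
theorem HasVal.sub (h : HasVal v u a) (h' : HasVal v w b) : HasVal v (u - w) (a - b) := by
  simpa [sub_eq_add_neg] using h.add h'.neg

/-- The value is zero iff the function vanishes at the place. -/
theorem hasVal_zero_iff : HasVal v u 0 ↔ OrdGE v 1 u := by simp [HasVal]

/-- A function is regular at a place iff its order there is not negative. -/
theorem mem_iff_not_ord_neg : u ∈ v.toValuationSubring ↔ ¬ v.ord u < 0 := by
  rcases eq_or_ne u 0 with rfl | hu
  · simp [zero_mem]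
  · rw [mem_iff_ord_nonneg hu, not_lt]

variable [IsAlgClosed K] [IsFF K F]

open Classical in
/-- The value of a function at a place; `0` at poles. -/
def pval (v : Place K F) (u : F) : K :=
  if h : u ∈ v.toValuationSubring then (exists_sub_algebraMap v (mem_iff_ordGE.1 h)).choose else 0

/-- A regular function takes the value `pval`. -/
theorem hasVal_pval (hu : u ∈ v.toValuationSubring) : HasVal v u (pval v u) := by
  rw [pval, dif_pos hu]
  exact (exists_sub_algebraMap v (mem_iff_ordGE.1 hu)).choose_spec

omit [IsAlgClosed K] [IsFF K F] in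
/-- The value at a place is unique. -/
theorem HasVal.unique (h : HasVal v u a) (h' : HasVal v u b) : a = b :=
  eq_of_ordGE_one_sub h h'

/-- If a value exists it is `pval`. -/
theorem HasVal.pval_eq (h : HasVal v u a) : pval v u = a :=
  (hasVal_pval h.mem).unique h

omit [IsAlgClosed K] [IsFF K F] in
/-- Values multiply. -/
theorem HasVal.mul (h : HasVal v u a) (h' : HasVal v w b) : HasVal v (u * w) (a * b) := by
  rw [HasVal, map_mul, show u * w - algebraMap K F a * algebraMap K F b =
    (u - algebraMap K F a) * w + algebraMap K F a * (w - algebraMap K F b) by ring]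
  exact ((OrdGE.mul h (mem_iff_ordGE.1 h'.mem)).mono (by omega)).add
    ((OrdGE.mul (ordGE_algebraMap a) h').mono (by omega))

omit [IsAlgClosed K] [IsFF K F] in
/-- Values of powers are powers of values. -/
theorem HasVal.pow (h : HasVal v u a) (n : ℕ) : HasVal v (u ^ n) (a ^ n) := by
  induction n with
  | zero => simpa using hasVal_one v
  | succ n ih => simpa [pow_succ] using ih.mul h

omit [IsAlgClosed K] [IsFF K F] in
/-- A function with nonzero value is a unit at the place. -/
theorem HasVal.ord_eq_zero (h : HasVal v u a) (ha : a ≠ 0) : u ≠ 0 ∧ v.ord u = 0 := by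
  have hu : u ≠ 0 := fun h0 => ha (h.unique (h0 ▸ hasVal_zero v))
  refine ⟨hu, le_antisymm ?_ ((mem_iff_ord_nonneg hu).1 h.mem)⟩
  by_contra hlt
  exact ha (h.unique (hasVal_zero_iff.2 (Or.inr (not_le.1 hlt))))

/-- The value of the inverse of a unit is the inverse of the value. -/
theorem HasVal.inv (h : HasVal v u a) (ha : a ≠ 0) : HasVal v u⁻¹ a⁻¹ := by
  obtain ⟨hu, hord⟩ := h.ord_eq_zero ha
  have hm : u⁻¹ ∈ v.toValuationSubring :=
    (mem_iff_ord_nonneg (inv_ne_zero hu)).2 (by rw [v.ord_inv, hord, neg_zero])
  have h1 := (hasVal_pval hm).mul h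
  rw [inv_mul_cancel₀ hu] at h1
  rw [← eq_inv_of_mul_eq_one_left (h1.unique (hasVal_one v))]
  exact hasVal_pval hm

/-- Values divide, for a denominator with nonzero value. -/
theorem HasVal.div (h : HasVal v u a) (h' : HasVal v w b) (hb : b ≠ 0) :
    HasVal v (u / w) (a / b) := by
  simpa [div_eq_mul_inv] using h.mul (h'.inv hb)

omit [IsAlgClosed K] in
/-- A function without zeros or poles is constant. -/
theorem exists_eq_algebraMap_of_ord_eq_zero [IsAlgClosed K] (h : ∀ v : Place K F, v.ord u = 0) :
    ∃ c : K, algebraMap K F c = u := by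
  have halg : IsAlgebraic K u := by
    by_contra ht
    obtain ⟨v, hv⟩ := exists_place_ord_pos (K := K) (x := u) ht
    exact hv.ne' (h v)
  have := (minpoly.degree_eq_one_iff (A := K) (x := u)).1
    (IsAlgClosed.degree_eq_one_of_irreducible K (minpoly.irreducible halg.isIntegral))
  exact this

omit [IsFF K F] in
/-- A function that is not constant is transcendental. -/
theorem transcendental_of_not_const (h : ∀ c : K, algebraMap K F c ≠ u) : Transcendental K u := by
  intro halg
  obtain ⟨c, hc⟩ := (minpoly.degree_eq_one_iff (A := K) (x := u)).1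
    (IsAlgClosed.degree_eq_one_of_irreducible K (minpoly.irreducible halg.isIntegral))
  exact h c hc

end FermatAgent.EC
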