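import Mathlib.AlgebraicGeometry.EllipticCurve.Affine.Point

/-!
# Point maps induced by field homomorphisms
-/

set_option autoImplicit false

open WeierstrassCurve WeierstrassCurve.Affine

namespace FermatAgent.EC

universe u v w

variable {F : Type u} {L : Type v} {M : Type w} [Field F] [Field L] [Field M]
  [DecidableEq F] [DecidableEq L] [DecidableEq M]
  {V : WeierstrassCurve F} {V' : WeierstrassCurve L} {V'' : WeierstrassCurve M}

/-- The group homomorphism on points induced by `φ : F →+* L` with `V.map φ = V'`. -/
def mapPoint (φ : F →+* L) (h : V.map φ = V') : V.toAffine.Point →+ V'.toAffine.Point where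
  toFun P := match P with
    | .zero => .zero
    | .some x y hP => .some (φ x) (φ y) (h ▸ (Affine.map_nonsingular _ φ.injective x y).mpr hP)
  map_zero' := rfl
  map_add' := by
    subst h
    rintro (_ | ⟨x₁, y₁, h₁⟩) (_ | ⟨x₂, y₂, h₂⟩)
    any_goals rfl
    by_cases hxy : x₁ = x₂ ∧ y₁ = V.toAffine.negY x₂ y₂
    · rw [Point.add_of_Y_eq hxy.1 hxy.2]
      refine (Point.add_of_Y_eq (congrArg φ hxy.1) ?_).symm
      rw [hxy.2]
      exact (Affine.map_negY φ x₂ y₂).symm
    · rw [Point.add_some hxy]
      have hxy' : ¬(φ x₁ = φ x₂ ∧ φ y₁ = (V.map φ).toAffine.negY (φ x₂) (φ y₂)) := fun hh =>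
        hxy ⟨φ.injective hh.1, φ.injective (hh.2.trans (Affine.map_negY φ x₂ y₂))⟩
      rw [Point.add_some hxy']
      simp only [Point.some.injEq]
      exact ⟨by rw [Affine.map_slope, Affine.map_addX], by rw [Affine.map_slope, Affine.map_addY]⟩

/-- The point map sends the origin to the origin. -/
@[simp]
lemma mapPoint_zero (φ : F →+* L) (h : V.map φ = V') :
    mapPoint φ h (.zero : V.toAffine.Point) = .zero := rfl

/-- The point map applies the homomorphism to the coordinates. -/
@[simp]
lemma mapPoint_some (φ : F →+* L) (h : V.map φ = V') {x y : F} (hP : V.toAffine.Nonsingular x y) :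
    mapPoint φ h (.some x y hP) =
      .some (φ x) (φ y) (h ▸ (Affine.map_nonsingular _ φ.injective x y).mpr hP) := rfl

/-- The point map is injective. -/
lemma mapPoint_injective (φ : F →+* L) (h : V.map φ = V') :
    Function.Injective (mapPoint φ h) := by
  rintro (_ | ⟨x, y, hP⟩) (_ | ⟨x', y', hP'⟩) e
  · rfl
  · exact absurd e.symm (Point.some_ne_zero _)
  · exact absurd e (Point.some_ne_zero _)
  · simp only [mapPoint_some, Point.some.injEq] at e ⊢
    exact ⟨φ.injective e.1, φ.injective e.2⟩

/-- Point maps compose. -/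
lemma mapPoint_mapPoint (φ : F →+* L) (h : V.map φ = V') (ψ : L →+* M) (h' : V'.map ψ = V'')
    (P : V.toAffine.Point) :
    mapPoint ψ h' (mapPoint φ h P) =
      mapPoint (ψ.comp φ) (by rw [← WeierstrassCurve.map_map, h, h']) P := by
  cases P <;> rfl

/-- Equal homomorphisms give equal point maps. -/
lemma mapPoint_congr {φ φ' : F →+* L} (e : φ = φ') (h : V.map φ = V') (h' : V.map φ' = V')
    (P : V.toAffine.Point) : mapPoint φ h P = mapPoint φ' h' P := by
  subst e; rfl

/-- The identity gives the identity on points. -/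
lemma mapPoint_id (P : V.toAffine.Point) (h : V.map (RingHom.id F) = V) :
    mapPoint (RingHom.id F) h P = P := by
  cases P <;> rfl

end FermatAgent.EC
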