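import Fermat.Agent.EC.Torsion
import Fermat.Agent.EC.PointMap
import Fermat.Agent.EC.PlaceValue

/-!
# The function field of an elliptic curve over an algebraically closed field; places are points

The function field `FF` is generated by `gx` and `gy` and has degree at most two over `k(x)`
(`finrank_adjoin_gx_le`); `genPoint` is the generic point. A point with coordinates in `FF` takes
at each place a value `evPt`, in particular the center of the place is the value of the generic
point (`center`). Every point is a center, and the bound of two zeros for `x - a` and for `1 / x`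
shows that it determines the place (`center_bijective`); `placeAt` is the inverse.
-/

set_option autoImplicit false

noncomputable section

open Polynomial IntermediateField WeierstrassCurve WeierstrassCurve.Affine
open AlgebraicCurve FermatAgent.Curve

namespace FermatAgent.EC

universe u

variable {k : Type u} [Field k]

/-- The function field `k(W)`. -/
abbrev FF (V : WeierstrassCurve k) : Type u := V.toAffine.FunctionField

variable (V : WeierstrassCurve k)

instance instDecEqFF : DecidableEq (FF V) := Classical.decEq _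

/-- The curve over its own function field. -/
abbrev curveFF : WeierstrassCurve (FF V) := V.map (algebraMap k (FF V))

/-- The function `x`. -/
def gx : FF V := algebraMap V.toAffine.CoordinateRing (FF V) (CoordinateRing.mk V.toAffine (C X))

/-- The function `y`. -/
def gy : FF V :=
  algebraMap V.toAffine.CoordinateRing (FF V) (CoordinateRing.mk V.toAffine Polynomial.X)

/-- Constant polynomials give the constants of the function field. -/
lemma algebraMap_mk_CC (c : k) :
    algebraMap V.toAffine.CoordinateRing (FF V) (CoordinateRing.mk V.toAffine (C (C c))) =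
      algebraMap k (FF V) c := by
  rw [IsScalarTower.algebraMap_apply k V.toAffine.CoordinateRing (FF V)]
  rfl

/-- The class of a polynomial in the function field is its value at `(x, y)`. -/
lemma mk_eq_aevalAeval (p : k[X][X]) :
    algebraMap V.toAffine.CoordinateRing (FF V) (CoordinateRing.mk V.toAffine p) =
      (p.map (mapRingHom (algebraMap k (FF V)))).evalEval (gx V) (gy V) := by
  have h : (algebraMap V.toAffine.CoordinateRing (FF V)).comp (CoordinateRing.mk V.toAffine) =
      (evalEvalRingHom (gx V) (gy V)).comp (mapRingHom (mapRingHom (algebraMap k (FF V)))) := by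
    refine Polynomial.ringHom_ext' (Polynomial.ringHom_ext (fun c => ?_) ?_) ?_
    · simp only [RingHom.comp_apply, coe_mapRingHom, Polynomial.map_C]
      rw [algebraMap_mk_CC]
      show _ = ((C (C (algebraMap k (FF V) c))).eval (C (gy V))).eval (gx V)
      rw [eval_C, eval_C]
    · simp only [RingHom.comp_apply, coe_mapRingHom, Polynomial.map_C, Polynomial.map_X]
      show gx V = ((C X).eval (C (gy V))).eval (gx V)
      rw [eval_C, eval_X]
    · simp only [RingHom.comp_apply, coe_mapRingHom, Polynomial.map_X]
      show gy V = ((X : (FF V)[X][X]).eval (C (gy V))).eval (gx V)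
      rw [eval_X, eval_C]
  exact RingHom.congr_fun h p

/-- The generic coordinates satisfy the equation of the curve. -/
lemma gen_equation : (curveFF V).toAffine.Equation (gx V) (gy V) := by
  rw [Affine.Equation, curveFF, Affine.map_polynomial, ← mk_eq_aevalAeval]
  simp

/-- Every element of the coordinate ring is `p(x) + q(x) y`. -/
lemma exists_smul_eq (a : V.toAffine.CoordinateRing) : ∃ p q : k[X],
    algebraMap V.toAffine.CoordinateRing (FF V) a = aeval (gx V) p + aeval (gx V) q * gy V := by
  obtain ⟨p, q, rfl⟩ := CoordinateRing.exists_smul_basis_eq a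
  refine ⟨p, q, ?_⟩
  rw [CoordinateRing.smul, CoordinateRing.smul, mul_one, ← map_mul, ← map_add, mk_eq_aevalAeval]
  simp [evalEval, aeval_def, eval_map]

/-- The function `x` is transcendental. -/
lemma transcendental_gx : Transcendental k (gx V) := by
  rw [transcendental_iff]
  intro p hp
  have h : algebraMap V.toAffine.CoordinateRing (FF V)
      (CoordinateRing.mk V.toAffine (C p)) = 0 := by
    rw [mk_eq_aevalAeval, ← hp]
    simp [evalEval, aeval_def, eval_map]
  rw [map_eq_zero_iff _ (IsFractionRing.injective _ _)] at h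
  exact FaithfulSMul.algebraMap_injective k[X] V.toAffine.CoordinateRing (by rw [map_zero]; exact h)

lemma isIntegral_gy : IsIntegral k⟮gx V⟯ (gy V) := by
  set X' : k⟮gx V⟯ := AdjoinSimple.gen k (gx V) with hX'
  have hXc : (X' : FF V) = gx V := rfl
  let A (c : k) : k⟮gx V⟯ := algebraMap k _ c
  refine ⟨Polynomial.X ^ 2 + C (A V.a₁ * X' + A V.a₃) * Polynomial.X -
    C (X' ^ 3 + A V.a₂ * X' ^ 2 + A V.a₄ * X' + A V.a₆), ?_, ?_⟩
  · monicity!
  · have h := (equation_iff ..).mp (gen_equation V)
    simp only [WeierstrassCurve.map_a₁, WeierstrassCurve.map_a₂, WeierstrassCurve.map_a₃,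
      WeierstrassCurve.map_a₄, WeierstrassCurve.map_a₆] at h
    simp [A, hXc, ← IsScalarTower.algebraMap_apply]
    linear_combination h

/-- The function field is generated by `x` and `y`. -/
lemma adjoin_gy_eq_top : k⟮gx V⟯⟮gy V⟯ = ⊤ := by
  have hgy : gy V ∈ k⟮gx V⟯⟮gy V⟯ := mem_adjoin_simple_self _ _
  have hgx : ∀ p : k[X], aeval (gx V) p ∈ k⟮gx V⟯⟮gy V⟯ := fun p =>
    IntermediateField.algebraMap_mem _ (⟨_, IntermediateField.algebra_adjoin_le_adjoin k {gx V}
      (by rw [Algebra.adjoin_singleton_eq_range_aeval]; exact ⟨p, rfl⟩)⟩ : k⟮gx V⟯)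
  rw [eq_top_iff]
  intro u _
  obtain ⟨a, b, -, rfl⟩ := IsFractionRing.div_surjective (A := V.toAffine.CoordinateRing) u
  obtain ⟨p, q, ha⟩ := exists_smul_eq V a
  obtain ⟨p', q', hb⟩ := exists_smul_eq V b
  rw [ha, hb]
  exact div_mem (add_mem (hgx p) (mul_mem (hgx q) hgy)) (add_mem (hgx p') (mul_mem (hgx q') hgy))

/-- The function field is finite over `k(x)`. -/
lemma finiteDimensional_adjoin_gx : FiniteDimensional k⟮gx V⟯ (FF V) := by
  have := adjoin.finiteDimensional (isIntegral_gy V)
  exact Module.Finite.equiv
    ((IntermediateField.equivOfEq (adjoin_gy_eq_top V)).trans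
      IntermediateField.topEquiv).toLinearEquiv

instance instIsFF : IsFF k (FF V) :=
  ⟨gx V, transcendental_gx V, finiteDimensional_adjoin_gx V⟩

/-- The function field has degree at most two over `k(x)`. -/
lemma finrank_adjoin_gx_le : Module.finrank k⟮gx V⟯ (FF V) ≤ 2 := by
  have := finiteDimensional_adjoin_gx V
  have htop := adjoin_gy_eq_top V
  rw [← IntermediateField.finrank_top', ← htop, adjoin.finrank (isIntegral_gy V)]
  set X' : k⟮gx V⟯ := AdjoinSimple.gen k (gx V) with hX'
  have hXc : (X' : FF V) = gx V := rfl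
  let A (c : k) : k⟮gx V⟯ := algebraMap k _ c
  set P : (k⟮gx V⟯)[X] := Polynomial.X ^ 2 + C (A V.a₁ * X' + A V.a₃) * Polynomial.X -
    C (X' ^ 3 + A V.a₂ * X' ^ 2 + A V.a₄ * X' + A V.a₆) with hP
  have hmon : P.Monic := by rw [hP]; monicity!
  have hroot : aeval (gy V) P = 0 := by
    have h := (equation_iff ..).mp (gen_equation V)
    simp only [WeierstrassCurve.map_a₁, WeierstrassCurve.map_a₂, WeierstrassCurve.map_a₃,
      WeierstrassCurve.map_a₄, WeierstrassCurve.map_a₆] at h
    simp [hP, A, hXc, ← IsScalarTower.algebraMap_apply]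
    linear_combination h
  refine (natDegree_le_natDegree (minpoly.min _ _ hmon hroot)).trans ?_
  rw [hP]
  compute_degree

variable [V.IsElliptic]

/-- The discriminant of the curve is nonzero. -/
lemma V_Δ_ne_zero : V.Δ ≠ 0 := V.isUnit_Δ.ne_zero

/-- The discriminant of the curve over its function field is nonzero. -/
lemma curveFF_Δ_ne_zero : (curveFF V).Δ ≠ 0 := by
  rw [curveFF, map_Δ]
  exact (_root_.map_ne_zero _).2 (V_Δ_ne_zero V)

/-- The generic point is a nonsingular point. -/
lemma gen_nonsingular : (curveFF V).toAffine.Nonsingular (gx V) (gy V) :=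
  (Affine.equation_iff_nonsingular_of_Δ_ne_zero (curveFF_Δ_ne_zero V)).mp (gen_equation V)

/-- The generic point. -/
def genPoint : (curveFF V).toAffine.Point := .some _ _ (gen_nonsingular V)

variable [IsAlgClosed k]

section Center

variable {V}
variable {v : Place k (FF V)} {X₀ Y₀ : FF V}

omit [V.IsElliptic] in
/-- Where the first coordinate of a point is regular the second one is. -/
lemma mem_of_equation (h : (curveFF V).toAffine.Equation X₀ Y₀) (hX : X₀ ∈ v.toValuationSubring) :
    Y₀ ∈ v.toValuationSubring := by
  rw [equation_iff] at h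
  simp only [WeierstrassCurve.map_a₁, WeierstrassCurve.map_a₂, WeierstrassCurve.map_a₃,
    WeierstrassCurve.map_a₄, WeierstrassCurve.map_a₆] at h
  rcases v.toValuationSubring.mem_or_inv_mem Y₀ with hY | hY
  · exact hY
  by_contra hY'
  have hY0 : Y₀ ≠ 0 := fun h0 => hY' (h0 ▸ zero_mem _)
  have hval : HasVal v Y₀⁻¹ 0 := by
    refine hasVal_zero_iff.2 (Or.inr ?_)
    have h1 : v.ord Y₀ < 0 := by
      by_contra hh
      exact hY' ((mem_iff_ord_nonneg hY0).2 (not_lt.1 hh))
    rw [v.ord_inv]; omega
  have hX' := hasVal_pval hX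
  have key : (1 : FF V) = Y₀⁻¹ ^ 2 * (X₀ ^ 3 + algebraMap k _ V.a₂ * X₀ ^ 2 +
      algebraMap k _ V.a₄ * X₀ + algebraMap k _ V.a₆) -
        Y₀⁻¹ * (algebraMap k _ V.a₁ * X₀ + algebraMap k _ V.a₃) := by
    field_simp
    linear_combination h
  have := ((hval.pow 2).mul ((((hX'.pow 3).add ((hasVal_algebraMap v V.a₂).mul (hX'.pow 2))).add
    ((hasVal_algebraMap v V.a₄).mul hX')).add (hasVal_algebraMap v V.a₆))).sub
      (hval.mul (((hasVal_algebraMap v V.a₁).mul hX').add (hasVal_algebraMap v V.a₃)))
  rw [← key] at this
  exact one_ne_zero ((hasVal_one v).unique (by simpa using this))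

omit [V.IsElliptic] [IsAlgClosed k] in
lemma equation_of_hasVal (h : (curveFF V).toAffine.Equation X₀ Y₀) {a b : k}
    (ha : HasVal v X₀ a) (hb : HasVal v Y₀ b) : V.toAffine.Equation a b := by
  rw [equation_iff] at h ⊢
  simp only [WeierstrassCurve.map_a₁, WeierstrassCurve.map_a₂, WeierstrassCurve.map_a₃,
    WeierstrassCurve.map_a₄, WeierstrassCurve.map_a₆] at h
  have h1 := ((hb.pow 2).add (((hasVal_algebraMap v V.a₁).mul ha).mul hb)).add
    ((hasVal_algebraMap v V.a₃).mul hb)
  have h2 := (((ha.pow 3).add ((hasVal_algebraMap v V.a₂).mul (ha.pow 2))).add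
    ((hasVal_algebraMap v V.a₄).mul ha)).add (hasVal_algebraMap v V.a₆)
  rw [h] at h1
  exact h1.unique h2

open Classical in
/-- The value at `v` of a point with coordinates in the function field. -/
def evPt (v : Place k (FF V)) : (curveFF V).toAffine.Point → V.toAffine.Point
  | .zero => .zero
  | .some X₀ Y₀ h =>
    if hX : X₀ ∈ v.toValuationSubring then
      .some (pval v X₀) (pval v Y₀)
        ((Affine.equation_iff_nonsingular_of_Δ_ne_zero (V_Δ_ne_zero V)).mp
          (equation_of_hasVal h.1 (hasVal_pval hX) (hasVal_pval (mem_of_equation h.1 hX))))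
    else .zero

/-- A point whose first coordinate has a pole takes the origin as value. -/
lemma evPt_of_notMem {h : (curveFF V).toAffine.Nonsingular X₀ Y₀}
    (hX : X₀ ∉ v.toValuationSubring) : evPt v (.some X₀ Y₀ h) = .zero := dif_neg hX

/-- A point with regular coordinates takes the point of their values as value. -/
lemma evPt_of_hasVal {h : (curveFF V).toAffine.Nonsingular X₀ Y₀} {a b : k}
    (ha : HasVal v X₀ a) (hb : HasVal v Y₀ b) :
    evPt v (.some X₀ Y₀ h) = .some a b
      ((Affine.equation_iff_nonsingular_of_Δ_ne_zero (V_Δ_ne_zero V)).mp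
        (equation_of_hasVal h.1 ha hb)) := by
  rw [evPt, dif_pos ha.mem]
  simp only [Point.some.injEq]
  exact ⟨ha.pval_eq, hb.pval_eq⟩

/-- If the value of a point is affine, its coordinates take the coordinates of that value. -/
lemma hasVal_of_evPt_eq_some {h : (curveFF V).toAffine.Nonsingular X₀ Y₀} {a b : k}
    {hn : V.toAffine.Nonsingular a b} (he : evPt v (.some X₀ Y₀ h) = .some a b hn) :
    HasVal v X₀ a ∧ HasVal v Y₀ b := by
  by_cases hX : X₀ ∈ v.toValuationSubring
  · rw [evPt, dif_pos hX] at he
    simp only [Point.some.injEq] at he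
    exact ⟨he.1 ▸ hasVal_pval hX, he.2 ▸ hasVal_pval (mem_of_equation h.1 hX)⟩
  · rw [evPt_of_notMem hX] at he
    exact absurd he.symm (Point.some_ne_zero _)

/-- If the value of a point is the origin, its first coordinate has a pole. -/
lemma notMem_of_evPt_eq_zero {h : (curveFF V).toAffine.Nonsingular X₀ Y₀}
    (he : evPt v (.some X₀ Y₀ h) = .zero) : X₀ ∉ v.toValuationSubring := fun hX => by
  rw [evPt, dif_pos hX] at he
  exact Point.some_ne_zero _ he

/-- The point under a place. -/
def center (v : Place k (FF V)) : V.toAffine.Point := evPt v (genPoint V)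

/-- A place lies over the affine point given by the values of `x` and `y`. -/
lemma center_eq_some_iff {a b : k} {hn : V.toAffine.Nonsingular a b} :
    center v = .some a b hn ↔ HasVal v (gx V) a ∧ HasVal v (gy V) b :=
  ⟨hasVal_of_evPt_eq_some, fun h => evPt_of_hasVal h.1 h.2⟩

/-- A place lies over the origin iff `x` has a pole there. -/
lemma center_eq_zero_iff : center v = .zero ↔ gx V ∉ v.toValuationSubring :=
  ⟨notMem_of_evPt_eq_zero, evPt_of_notMem⟩

end Center

/-- Every affine point is the center of a place. -/
lemma exists_center_eq_some {a b : k} (hn : V.toAffine.Nonsingular a b) :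
    ∃ v : Place k (FF V), center v = .some a b hn := by
  let ι := algebraMap V.toAffine.CoordinateRing (FF V)
  let I := CoordinateRing.XYIdeal V.toAffine a (C b)
  let e : V.toAffine.CoordinateRing ≃+* ι.range :=
    RingEquiv.ofBijective ι.rangeRestrict
      ⟨fun s t h => IsFractionRing.injective _ _ (congrArg Subtype.val h),
        ι.rangeRestrict_surjective⟩
  have hI : I ≠ ⊤ := fun h => by
    have : Nontrivial (V.toAffine.CoordinateRing ⧸ I) :=
      (CoordinateRing.quotientXYIdealEquiv (W' := V.toAffine) (y := C b)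
        hn.1).toEquiv.nontrivial
    exact Ideal.Quotient.nontrivial_iff.1 this h
  have hI' : I.map e.toRingHom ≠ ⊤ := fun h => hI (by
    have := congrArg (Ideal.comap e.toRingHom) h
    rwa [Ideal.comap_map_of_bijective e.toRingHom e.bijective, Ideal.comap_top] at this)
  obtain ⟨O, hO, hIO⟩ := Ideal.image_subset_nonunits_valuationSubring _ hI'
  have hnon : ∀ i ∈ I, ι i ∈ O.nonunits := fun i hi =>
    hIO ⟨e i, Ideal.mem_map_of_mem _ hi, rfl⟩
  have hk : ∀ c : k, algebraMap k (FF V) c ∈ O := fun c =>
    hO ⟨algebraMap k _ c,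
      (IsScalarTower.algebraMap_apply k V.toAffine.CoordinateRing (FF V) c).symm⟩
  have hgx : ι (CoordinateRing.XClass V.toAffine a) = gx V - algebraMap k _ a := by
    rw [CoordinateRing.XClass, mk_eq_aevalAeval]
    simp [evalEval]
  have hgy : ι (CoordinateRing.YClass V.toAffine (C b)) = gy V - algebraMap k _ b := by
    rw [CoordinateRing.YClass, mk_eq_aevalAeval]
    simp [evalEval]
  have hx := hnon _ (Ideal.subset_span (Set.mem_insert _ _) :
    CoordinateRing.XClass V.toAffine a ∈ I)
  have hy := hnon _ (Ideal.subset_span (Set.mem_insert_of_mem _ rfl) :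
    CoordinateRing.YClass V.toAffine (C b) ∈ I)
  rw [hgx] at hx
  rw [hgy] at hy
  have hne : gx V - algebraMap k _ a ≠ 0 := fun h => transcendental_gx V
    (by rw [sub_eq_zero.1 h]; exact isAlgebraic_algebraMap _)
  have hinv : (gx V - algebraMap k _ a)⁻¹ ∉ O := fun hm => by
    rw [ValuationSubring.mem_nonunits_iff] at hx
    rcases O.mem_or_inv_mem (gx V - algebraMap k _ a) with h | h
    · have := (O.valuation_le_one_iff _).2 hm
      rw [map_inv₀] at this
      exact absurd this (not_le.2 ((one_lt_inv₀ (pos_iff_ne_zero.2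
        ((Valuation.ne_zero_iff _).2 hne))).2 hx))
    · have := (O.valuation_le_one_iff _).2 hm
      rw [map_inv₀] at this
      exact absurd this (not_le.2 ((one_lt_inv₀ (pos_iff_ne_zero.2
        ((Valuation.ne_zero_iff _).2 hne))).2 hx))
  let v : Place k (FF V) := placeOfValuationSubring O hk
    (fun h => hinv (h ▸ ValuationSubring.mem_top _))
  have key : ∀ {u : FF V} {c : k}, u - algebraMap k _ c ∈ O.nonunits → HasVal v u c := by
    intro u c hu
    rw [HasVal]
    rcases eq_or_ne (u - algebraMap k _ c) 0 with h0 | h0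
    · exact Or.inl h0
    refine Or.inr ?_
    by_contra hle
    have hm : (u - algebraMap k _ c)⁻¹ ∈ O :=
      (mem_iff_ord_nonneg (v := v) (inv_ne_zero h0)).2 (by rw [v.ord_inv]; omega)
    rw [ValuationSubring.mem_nonunits_iff] at hu
    have := (O.valuation_le_one_iff _).2 hm
    rw [map_inv₀] at this
    exact absurd this (not_le.2 ((one_lt_inv₀ (pos_iff_ne_zero.2
      ((Valuation.ne_zero_iff _).2 h0))).2 hu))
  exact ⟨v, center_eq_some_iff.2 ⟨key hx, key hy⟩⟩

/-- A place over infinity exists. -/
lemma exists_center_eq_zero : ∃ v : Place k (FF V), center v = .zero := by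
  obtain ⟨v, hv⟩ := exists_place_ord_pos (K := k) (x := (gx V)⁻¹)
    (fun h => transcendental_gx V (inv_inv (gx V) ▸ h.inv))
  refine ⟨v, center_eq_zero_iff.2 ?_⟩
  rw [mem_iff_not_ord_neg, not_not]
  rw [v.ord_inv] at hv
  omega

section Multiplicity

variable {V}

omit [V.IsElliptic] in
/-- A function `x - c` has at most two zeros with multiplicity. -/
lemma sum_ord_le_two (u : FF V) (c : k) (hu : u = gx V - algebraMap k _ c)
    (S : Finset (Place k (FF V))) (hS : ∀ v ∈ S, 0 < v.ord u) :
    ∑ v ∈ S, v.ord u ≤ 2 := by
  have htr : Transcendental k u := by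
    subst hu
    exact fun h => transcendental_gx V
      (by simpa using h.add (isAlgebraic_algebraMap (R := k) (A := FF V) c))
  have h := sum_ord_mul_deg_le htr S hS
  have hadj : k⟮u⟯ = k⟮gx V⟯ := by
    subst hu
    apply le_antisymm
    · exact adjoin_simple_le_iff.2
        (sub_mem (mem_adjoin_simple_self _ _) (IntermediateField.algebraMap_mem _ _))
    · rw [adjoin_simple_le_iff]
      simpa using add_mem (mem_adjoin_simple_self k (gx V - algebraMap k (FF V) c))
        (IntermediateField.algebraMap_mem k⟮gx V - algebraMap k (FF V) c⟯ c)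
  rw [hadj] at h
  have h2 := finrank_adjoin_gx_le V
  calc ∑ v ∈ S, v.ord u = ∑ v ∈ S, (((v.ord u).toNat * v.deg : ℕ) : ℤ) := by
        refine Finset.sum_congr rfl fun v hv => ?_
        rw [deg_eq_one, mul_one, Int.toNat_of_nonneg (hS v hv).le]
    _ ≤ 2 := by exact_mod_cast h.trans h2

/-- `x - a` vanishes doubly at a point with first coordinate `a` equal to its negative. -/
lemma ord_two_torsion {v : Place k (FF V)} {a b : k} {hn : V.toAffine.Nonsingular a b}
    (hv : center v = .some a b hn) (hb : b = V.toAffine.negY a b) :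
    2 ≤ v.ord (gx V - algebraMap k _ a) := by
  obtain ⟨hx, hy⟩ := center_eq_some_iff.1 hv
  have hu : gx V - algebraMap k _ a ≠ 0 := fun h => transcendental_gx V
    (by rw [sub_eq_zero.1 h]; exact isAlgebraic_algebraMap _)
  have hux : 1 ≤ v.ord (gx V - algebraMap k _ a) := hx.resolve_left hu
  have hne := hn.2
  rw [Affine.evalEval_polynomialY] at hne
  have hwx : V.toAffine.polynomialX.evalEval a b ≠ 0 := by
    refine hn.2.resolve_right ?_
    rw [not_not, Affine.evalEval_polynomialY]
    simp only [negY] at hb
    linear_combination hb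
  rw [Affine.evalEval_polynomialX] at hwx
  set A := algebraMap k (FF V)
  set U := gx V - A a with hU
  set T := gy V - A b with hT
  have hy' : OrdGE v 1 T := hy
  have heq : T * (T + A V.a₁ * U) =
      U * (U ^ 2 + A (3 * a + V.a₂) * U + A (-(V.a₁ * b - (3 * a ^ 2 + 2 * V.a₂ * a + V.a₄)))) := by
    have h1 := (equation_iff ..).mp (gen_equation V)
    have h2 := congrArg A ((equation_iff ..).mp hn.1)
    have h3 := congrArg A hb
    simp only [WeierstrassCurve.map_a₁, WeierstrassCurve.map_a₂, WeierstrassCurve.map_a₃,
      WeierstrassCurve.map_a₄, WeierstrassCurve.map_a₆, negY, map_add, map_mul, map_sub, map_neg,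
      map_pow, map_ofNat] at h1 h2 h3 ⊢
    simp only [hU, hT]
    linear_combination h1 - h2 - (gy V - A b) * h3
  have hu0 : HasVal v U 0 := hasVal_zero_iff.2 (Or.inr hux)
  have hw : HasVal v
      (U ^ 2 + A (3 * a + V.a₂) * U + A (-(V.a₁ * b - (3 * a ^ 2 + 2 * V.a₂ * a + V.a₄))))
      (-(V.a₁ * b - (3 * a ^ 2 + 2 * V.a₂ * a + V.a₄))) := by
    convert ((hu0.pow 2).add ((hasVal_algebraMap v (3 * a + V.a₂)).mul hu0)).add
      (hasVal_algebraMap v (-(V.a₁ * b - (3 * a ^ 2 + 2 * V.a₂ * a + V.a₄)))) using 1
    ring
  obtain ⟨hw0, hwo⟩ := hw.ord_eq_zero (neg_ne_zero.2 hwx)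
  have h2 : OrdGE v 2 (T * (T + A V.a₁ * U)) := by
    have hTU : OrdGE v 1 (T + A V.a₁ * U) := by
      refine hy'.add ?_
      simpa using (ordGE_algebraMap (v := v) V.a₁).mul (Or.inr hux : OrdGE v 1 U)
    simpa using hy'.mul hTU
  rw [heq, ordGE_iff_le (mul_ne_zero hu hw0), v.ord_mul hu hw0, hwo] at h2
  linarith

omit [V.IsElliptic] [IsAlgClosed k] in
/-- At a pole of `x` the order of `y` is three halves of that of `x`. -/
lemma two_mul_ord_gy {v : Place k (FF V)} (hpole : v.ord (gx V) < 0) :
    2 * v.ord (gy V) = 3 * v.ord (gx V) := by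
  have h := (equation_iff ..).mp (gen_equation V)
  simp only [WeierstrassCurve.map_a₁, WeierstrassCurve.map_a₂, WeierstrassCurve.map_a₃,
    WeierstrassCurve.map_a₄, WeierstrassCurve.map_a₆] at h
  set A := algebraMap k (FF V)
  set m := v.ord (gx V) with hm
  have hg : gx V ≠ 0 := fun h0 => by rw [hm, h0, v.ord_zero] at hpole; omega
  have hlo : ∀ (c : k) (i : ℕ), OrdGE v (i * m) (A c * gx V ^ i) := fun c i => by
    have := (ordGE_algebraMap (v := v) c).mul ((ordGE_self (v := v) (gx V)).pow i)
    simpa using this
  have hrhs : v.ord (gx V ^ 3 + A V.a₂ * gx V ^ 2 + A V.a₄ * gx V + A V.a₆) = 3 * m := by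
    have h3 : OrdGE v (v.ord (gx V ^ 3) + 1)
        (A V.a₂ * gx V ^ 2 + A V.a₄ * gx V + A V.a₆) := by
      rw [ord_pow]
      refine (((hlo V.a₂ 2).mono (by push_cast; omega)).add ?_).add ?_
      · simpa using (hlo V.a₄ 1).mono (show ((3 : ℕ) : ℤ) * v.ord (gx V) + 1 ≤ (1 : ℕ) * m by
          push_cast; omega)
      · simpa using (hlo V.a₆ 0).mono (show ((3 : ℕ) : ℤ) * v.ord (gx V) + 1 ≤ (0 : ℕ) * m by
          push_cast; omega)
    rw [add_assoc, add_assoc, ← add_assoc (A V.a₂ * gx V ^ 2),
      (ord_add_eq_of_ordGE (pow_ne_zero 3 hg) h3).2, ord_pow]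
    norm_num [hm]
  have ht : gy V ≠ 0 := fun h0 => by
    rw [h0] at h
    simp only [mul_zero, add_zero, zero_pow two_ne_zero] at h
    rw [← h, v.ord_zero] at hrhs
    omega
  have hlin : OrdGE v m (A V.a₁ * gx V + A V.a₃) := by
    refine OrdGE.add (by simpa using hlo V.a₁ 1) ((ordGE_algebraMap V.a₃).mono hpole.le)
  rcases lt_or_ge (v.ord (gy V)) m with h4 | h4
  · have : OrdGE v (v.ord (gy V ^ 2) + 1) (A V.a₁ * gx V * gy V + A V.a₃ * gy V) := by
      rw [ord_pow, ← add_mul]
      exact (hlin.mul (ordGE_self (gy V))).mono (by push_cast; omega)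
    have h5 := (ord_add_eq_of_ordGE (pow_ne_zero 2 ht) this).2
    rw [← add_assoc, h, hrhs, ord_pow] at h5
    push_cast at h5
    omega
  · have h6 : OrdGE v (2 * m) (gy V ^ 2 + A V.a₁ * gx V * gy V + A V.a₃ * gy V) := by
      rw [add_assoc, ← add_mul]
      exact OrdGE.add (((ordGE_self (gy V)).pow 2).mono (by push_cast; omega))
        ((hlin.mul (ordGE_self (gy V))).mono (by omega))
    rw [h] at h6
    rcases h6 with h6 | h6
    · rw [h6, v.ord_zero] at hrhs; omega
    · omega

/-- A place is determined by the point under it. -/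
theorem center_injective : Function.Injective (center (V := V)) := by
  classical
  intro v w hvw
  by_contra hne
  match hv : center v with
  | .zero =>
    have hw : center w = .zero := hvw ▸ hv
    have key : ∀ v : Place k (FF V), center v = .zero → 2 ≤ v.ord (gx V)⁻¹ := by
      intro v hv
      rw [center_eq_zero_iff, mem_iff_not_ord_neg, not_not] at hv
      rw [v.ord_inv]
      have := two_mul_ord_gy hv
      omega
    have hsum : ∑ u ∈ {v, w}, Place.ord u (gx V)⁻¹ ≤ 2 := by
      have htr : Transcendental k (gx V)⁻¹ :=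
        fun h => transcendental_gx V (inv_inv (gx V) ▸ h.inv)
      have h := sum_ord_mul_deg_le htr {v, w} (fun u hu => by
        simp only [Finset.mem_insert, Finset.mem_singleton] at hu
        rcases hu with rfl | rfl
        · linarith [key _ hv]
        · linarith [key _ hw])
      rw [adjoin_inv_eq] at h
      have h2 := h.trans (finrank_adjoin_gx_le V)
      calc ∑ u ∈ {v, w}, Place.ord u (gx V)⁻¹
          = ∑ u ∈ {v, w}, (((u.ord (gx V)⁻¹).toNat * u.deg : ℕ) : ℤ) := by
            refine Finset.sum_congr rfl fun u hu => ?_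
            rw [deg_eq_one, mul_one, Int.toNat_of_nonneg]
            simp only [Finset.mem_insert, Finset.mem_singleton] at hu
            rcases hu with rfl | rfl
            · linarith [key _ hv]
            · linarith [key _ hw]
        _ ≤ 2 := by exact_mod_cast h2
    rw [Finset.sum_pair hne] at hsum
    linarith [key _ hv, key _ hw]
  | .some a b hn =>
    have hw : center w = .some a b hn := hvw ▸ hv
    have hpos : ∀ (u : Place k (FF V)) (b' : k) (hn' : V.toAffine.Nonsingular a b'),
        center u = .some a b' hn' → 1 ≤ u.ord (gx V - algebraMap k _ a) := fun u b' hn' hu =>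
      ((center_eq_some_iff.1 hu).1).resolve_left fun h => transcendental_gx V
        (by rw [sub_eq_zero.1 h]; exact isAlgebraic_algebraMap _)
    by_cases hb : b = V.toAffine.negY a b
    · have h := sum_ord_le_two _ a rfl {v, w} (fun u hu => by
        simp only [Finset.mem_insert, Finset.mem_singleton] at hu
        rcases hu with rfl | rfl
        · linarith [hpos _ _ _ hv]
        · linarith [hpos _ _ _ hw])
      rw [Finset.sum_pair hne] at h
      linarith [ord_two_torsion hv hb, ord_two_torsion hw hb]
    · obtain ⟨z, hz⟩ := exists_center_eq_some V ((nonsingular_neg ..).mpr hn)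
      have hzne : ∀ u, center u = .some a b hn → u ≠ z := fun u hu he => by
        rw [he, hz] at hu
        simp only [Point.some.injEq] at hu
        exact hb hu.2.symm
      have h := sum_ord_le_two _ a rfl {v, w, z} (fun u hu => by
        simp only [Finset.mem_insert, Finset.mem_singleton] at hu
        rcases hu with rfl | rfl | rfl
        · linarith [hpos _ _ _ hv]
        · linarith [hpos _ _ _ hw]
        · linarith [hpos _ _ _ hz])
      rw [Finset.sum_insert (by simp [hne, hzne v hv]), Finset.sum_pair (hzne w hw)] at h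
      linarith [hpos _ _ _ hv, hpos _ _ _ hw, hpos _ _ _ hz]

theorem center_bijective : Function.Bijective (center (V := V)) :=
  ⟨center_injective, fun P => match P with
    | .zero => exists_center_eq_zero V
    | .some _ _ h => exists_center_eq_some V h⟩

/-- The place at a point. -/
def placeAt (P : V.toAffine.Point) : Place k (FF V) :=
  (Equiv.ofBijective _ (center_bijective (V := V))).symm P

/-- The point under the place at `P` is `P`. -/
@[simp]
lemma center_placeAt (P : V.toAffine.Point) : center (placeAt P) = P :=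
  (Equiv.ofBijective _ (center_bijective (V := V))).apply_symm_apply P

/-- The place at the point under a place is that place. -/
@[simp]
lemma placeAt_center (v : Place k (FF V)) : placeAt (center v) = v :=
  (Equiv.ofBijective _ (center_bijective (V := V))).symm_apply_apply v

/-- Distinct points have distinct places. -/
lemma placeAt_injective : Function.Injective (placeAt (V := V)) :=
  (Equiv.ofBijective _ (center_bijective (V := V))).symm.injective

end Multiplicity

end FermatAgent.EC
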