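import Fermat.Agent.EC.Divisor

/-!
# `P ↦ (P) - (O)` is additive in divisor classes; existence of functions with given divisor

`kappa P` is the class of `(P) - (O)` on the elliptic curve. The vertical line gives negation and
the line through three distinct points gives additivity for generic pairs (`kappa_add_generic`);
the general case (`kappa_add`, `kappaHom`) follows with an auxiliary point. Hence two finite
families of points with equal sums differ by the divisor of a function
(`exists_function_of_sum_eq`).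
-/

set_option autoImplicit false

noncomputable section

open Polynomial WeierstrassCurve WeierstrassCurve.Affine
open AlgebraicCurve FermatAgent.Curve

namespace FermatAgent.EC

universe u

variable {k : Type u} [Field k] [DecidableEq k] [IsAlgClosed k] {V : WeierstrassCurve k}
  [V.IsElliptic]

/-- The class of `(P) - (O)`. -/
def kappa (P : V.toAffine.Point) : Pic k (FF V) :=
  QuotientAddGroup.mk (Finsupp.single (placeAt P) 1 - Finsupp.single (placeAt 0) 1)

omit [DecidableEq k] in
lemma kappa_zero : kappa (0 : V.toAffine.Point) = 0 := by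
  rw [kappa, sub_self]; rfl

omit [IsAlgClosed k] [V.IsElliptic] [DecidableEq k] in
lemma mk_divisorOf {u : FF V} (hu : u ≠ 0) :
    (QuotientAddGroup.mk (divisorOf u) : Pic k (FF V)) = 0 :=
  (QuotientAddGroup.eq_zero_iff _).2 ⟨u, hu, fun v => divisorOf_apply u v⟩

omit [DecidableEq k] in
/-- A function with poles only at `O` has the given zeros when they exhaust the pole order. -/
lemma divisorOf_eq {u : FF V} (s : Finset V.toAffine.Point)
    (hs0 : (0 : V.toAffine.Point) ∉ s) (hs : ∀ P ∈ s, 1 ≤ ordAt P u)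
    (hreg : ∀ P : V.toAffine.Point, P ≠ 0 → 0 ≤ ordAt P u)
    (hO : ordAt (0 : V.toAffine.Point) u = -(s.card : ℤ)) :
    divisorOf u = (∑ P ∈ s, Finsupp.single (placeAt P) 1)
      - (s.card : ℤ) • Finsupp.single (placeAt (0 : V.toAffine.Point)) 1 := by
  classical
  set E := divisorOf u - ((∑ P ∈ s, Finsupp.single (placeAt P) (1 : ℤ))
      - (s.card : ℤ) • Finsupp.single (placeAt (0 : V.toAffine.Point)) 1) with hE
  have hsum : ∀ Q : V.toAffine.Point, (∑ P ∈ s, Finsupp.single (placeAt P) (1 : ℤ)) (placeAt Q) =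
      if Q ∈ s then 1 else 0 := fun Q => by
    rw [Finsupp.finsetSum_apply]
    simp [Finsupp.single_apply, placeAt_injective.eq_iff]
  have hnn : ∀ v, 0 ≤ E v := by
    intro v
    rw [← placeAt_center v]
    set Q := center v
    rcases eq_or_ne Q 0 with hQ | hQ
    · rw [hE, hQ]
      simp only [Finsupp.sub_apply, Finsupp.smul_apply, hsum, if_neg hs0, Finsupp.single_eq_same,
        divisorOf_apply]
      rw [show (placeAt (0 : V.toAffine.Point)).ord u = _ from hO]
      simp
    · rw [hE]
      simp only [Finsupp.sub_apply, Finsupp.smul_apply, hsum, divisorOf_apply,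
        Finsupp.single_eq_of_ne (placeAt_injective.ne hQ), smul_zero, sub_zero]
      split_ifs with h
      · have h1 : 1 ≤ (placeAt Q).ord u := hs Q h
        omega
      · have h1 : 0 ≤ (placeAt Q).ord u := hreg Q hQ
        omega
  have hdeg : Divisor.degree E = 0 := by
    rw [hE, map_sub, degree_divisorOf, map_sub, map_zsmul, map_sum]
    simp [Divisor.degree_single, deg_eq_one]
  have : E = 0 := by
    ext v
    by_contra hv
    have hmem : v ∈ E.support := Finsupp.mem_support_iff.2 hv
    have h0 : Divisor.degree E = ∑ w ∈ E.support, E w := by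
      conv_lhs => rw [← Finsupp.sum_single E]
      rw [Finsupp.sum, map_sum]
      simp [Divisor.degree_single, deg_eq_one]
    have h1 := Finset.single_le_sum (f := fun w => E w) (fun w _ => hnn w) hmem
    rw [← h0, hdeg] at h1
    exact hv (le_antisymm h1 (hnn v))
  exact sub_eq_zero.1 this

omit [DecidableEq k] in
lemma regular_poly_gx_gy {P : V.toAffine.Point} (hP : P ≠ 0) :
    gx V ∈ (placeAt P).toValuationSubring ∧ gy V ∈ (placeAt P).toValuationSubring :=
  ⟨gx_sub_mem_of_ne_zero hP, mem_of_equation (gen_equation V) (gx_sub_mem_of_ne_zero hP)⟩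

/-- The vertical line. -/
lemma kappa_neg_generic {a b : k} (hn : V.toAffine.Nonsingular a b)
    (h2 : b ≠ V.toAffine.negY a b) :
    kappa (Point.some a b hn) + kappa (-Point.some a b hn) = 0 := by
  classical
  set P := Point.some a b hn with hP
  have hne : P ≠ -P := fun e => h2 (by
    rw [hP, Point.neg_some] at e
    simp only [Point.some.injEq] at e
    exact e.2)
  obtain ⟨hx, hy⟩ := ordAt_zero_gx_gy (V := V)
  have hU0 := gx_sub_ne_zero (V := V) a
  have hO : ordAt (0 : V.toAffine.Point) (gx V - algebraMap k _ a) = -2 := by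
    have hgx : gx V ≠ 0 := fun e => by rw [ordAt, e, Place.ord_zero] at hx; omega
    have h1 : OrdGE (placeAt (0 : V.toAffine.Point))
        ((placeAt (0 : V.toAffine.Point)).ord (gx V) + 1)
        (-algebraMap k (FF V) a) := by
      have := show (placeAt (0 : V.toAffine.Point)).ord (gx V) = -2 from hx
      exact (ordGE_algebraMap (v := placeAt (0 : V.toAffine.Point)) a).neg.mono (by omega)
    show (placeAt (0 : V.toAffine.Point)).ord _ = -2
    rw [sub_eq_add_neg, (ord_add_eq_of_ordGE hgx h1).2]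
    exact hx
  have hd := divisorOf_eq (u := gx V - algebraMap k _ a) {P, -P}
    (by simp only [Finset.mem_insert, Finset.mem_singleton, not_or]
        exact ⟨(Point.some_ne_zero hn).symm, fun e => Point.some_ne_zero hn (neg_eq_zero.1 e.symm)⟩)
    (fun Q hQ => by
      simp only [Finset.mem_insert, Finset.mem_singleton] at hQ
      rcases hQ with rfl | rfl
      · exact ord_sub_pos hn
      · exact ord_sub_pos _)
    (fun Q hQ => (mem_iff_ord_nonneg hU0).1
      (sub_mem (regular_poly_gx_gy hQ).1 ((placeAt Q).algebraMap_mem' a)))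
    (by rw [Finset.card_pair hne]; exact hO)
  have h := mk_divisorOf hU0
  rw [hd, Finset.sum_pair hne, Finset.card_pair hne] at h
  rw [kappa, kappa, ← QuotientAddGroup.mk_add, ← h]
  congr 1
  rw [show ((2 : ℕ) : ℤ) • Finsupp.single (placeAt (0 : V.toAffine.Point)) (1 : ℤ) =
    Finsupp.single (placeAt (0 : V.toAffine.Point)) 1 +
      Finsupp.single (placeAt (0 : V.toAffine.Point)) 1 by rw [Nat.cast_ofNat, two_zsmul]]
  abel

/-- Additivity for three distinct collinear points. -/
lemma kappa_add_generic {P Q : V.toAffine.Point} (hP : P ≠ 0) (hQ : Q ≠ 0) (h₁ : P ≠ Q)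
    (h₂ : P ≠ -Q) (h₃ : P + 2 • Q ≠ 0) (h₄ : 2 • P + Q ≠ 0) (h₅ : 2 • (P + Q) ≠ 0) :
    kappa (P + Q) = kappa P + kappa Q := by
  classical
  match P, Q, hP, hQ with
  | .zero, _, hP, _ => exact absurd rfl hP
  | .some _ _ _, .zero, _, hQ => exact absurd rfl hQ
  | .some x₁ y₁ n₁, .some x₂ y₂ n₂, _, _ =>
    have hx : x₁ ≠ x₂ := fun e => by
      rcases (Point.X_eq_iff (h₁ := n₁) (h₂ := n₂)).mp e with e' | e'
      · exact h₁ e'
      · exact h₂ e'
    set R := Point.some x₁ y₁ n₁ + Point.some x₂ y₂ n₂ with hR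
    obtain ⟨x₃, y₃, n₃, hR3⟩ : ∃ x₃ y₃ n₃, R = Point.some x₃ y₃ n₃ :=
      ⟨_, _, _, Point.add_of_X_ne hx⟩
    have hR2 : y₃ ≠ V.toAffine.negY x₃ y₃ := fun e => h₅ (by
      rw [hR3, two_nsmul]; exact Point.add_self_of_Y_eq e)
    have hR3' := hR3
    rw [hR, Point.add_of_X_ne hx, Point.some.injEq] at hR3'
    set ℓ := V.toAffine.slope x₁ x₂ y₁ y₂ with hℓ
    set u := gy V - algebraMap k (FF V) ℓ * (gx V - algebraMap k _ x₁) - algebraMap k _ y₁ with hu
    obtain ⟨hox, hoy⟩ := ordAt_zero_gx_gy (V := V)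
    simp only [ordAt] at hox hoy
    set v0 := placeAt (0 : V.toAffine.Point)
    have hgy : gy V ≠ 0 := fun e => by rw [e, v0.ord_zero] at hoy; omega
    have huO : u ≠ 0 ∧ v0.ord u = -3 := by
      have h1 : OrdGE v0 (v0.ord (gy V) + 1)
          (-(algebraMap k (FF V) ℓ * (gx V - algebraMap k _ x₁)) + -algebraMap k _ y₁) := by
        rw [hoy]
        refine OrdGE.add ?_ ((ordGE_algebraMap (v := v0) y₁).neg.mono (by norm_num))
        refine OrdGE.neg ?_
        have hg2 : OrdGE v0 (-2) (gx V - algebraMap k (FF V) x₁) :=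
          (Or.inr hox.ge : OrdGE v0 (-2) (gx V)) |> fun h =>
            OrdGE.sub h ((ordGE_algebraMap (v := v0) x₁).mono (by norm_num))
        simpa using (ordGE_algebraMap (v := v0) ℓ).mul hg2
      obtain ⟨e1, e2⟩ := ord_add_eq_of_ordGE hgy h1
      rw [hu, show gy V - algebraMap k (FF V) ℓ * (gx V - algebraMap k _ x₁) - algebraMap k _ y₁ =
        gy V + (-(algebraMap k (FF V) ℓ * (gx V - algebraMap k _ x₁)) + -algebraMap k _ y₁) by ring]
      exact ⟨e1, e2.trans hoy⟩
    have hzero : ∀ (a b : k) (hn : V.toAffine.Nonsingular a b), b = ℓ * (a - x₁) + y₁ →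
        1 ≤ ordAt (Point.some a b hn) u := by
      intro a b hn hb
      obtain ⟨hxa, hya⟩ := center_eq_some_iff.1 (center_placeAt (Point.some a b hn))
      have h := (hya.sub ((hasVal_algebraMap _ ℓ).mul (hxa.sub (hasVal_algebraMap _ x₁)))).sub
        (hasVal_algebraMap _ y₁)
      rw [show b - ℓ * (a - x₁) - y₁ = 0 by rw [hb]; ring] at h
      exact (hasVal_zero_iff.1 h).resolve_left huO.1
    have hline : y₂ = ℓ * (x₂ - x₁) + y₁ := by
      rw [hℓ, slope_of_X_ne hx]
      have : x₁ - x₂ ≠ 0 := sub_ne_zero.2 hx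
      field_simp
      ring
    have hy3 : V.toAffine.negY x₃ y₃ = ℓ * (x₃ - x₁) + y₁ := by
      rw [← hR3'.1, ← hR3'.2]
      simp only [negY, addY, negAddY]
      ring
    have hd := divisorOf_eq (u := u) {Point.some x₁ y₁ n₁, Point.some x₂ y₂ n₂, -R}
      (by
        simp only [Finset.mem_insert, Finset.mem_singleton, not_or]
        exact ⟨(Point.some_ne_zero _).symm, (Point.some_ne_zero _).symm, fun e =>
          Point.some_ne_zero n₃ (hR3 ▸ neg_eq_zero.1 e.symm)⟩)
      (fun S hS => by
        simp only [Finset.mem_insert, Finset.mem_singleton] at hS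
        rcases hS with rfl | rfl | rfl
        · exact hzero _ _ n₁ (by ring)
        · exact hzero _ _ n₂ hline
        · rw [hR3, Point.neg_some]; exact hzero _ _ _ hy3)
      (fun S hS => (mem_iff_ord_nonneg huO.1).1 (sub_mem (sub_mem (regular_poly_gx_gy hS).2
        (mul_mem ((placeAt S).algebraMap_mem' ℓ)
          (sub_mem (regular_poly_gx_gy hS).1 ((placeAt S).algebraMap_mem' x₁))))
        ((placeAt S).algebraMap_mem' y₁)))
    have hne1 : Point.some x₁ y₁ n₁ ≠ -R := fun e => h₄ (by
      rw [two_nsmul]; nth_rw 2 [e]; rw [hR]; abel)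
    have hne2 : Point.some x₂ y₂ n₂ ≠ -R := fun e => h₃ (by
      rw [two_nsmul]; nth_rw 2 [e]; rw [hR]; abel)
    have hcard : ({Point.some x₁ y₁ n₁, Point.some x₂ y₂ n₂, -R} : Finset V.toAffine.Point).card
        = 3 := by
      rw [Finset.card_insert_of_notMem (by simp [h₁, hne1]), Finset.card_pair hne2]
    have hd' := hd (by rw [hcard]; exact huO.2)
    have h := mk_divisorOf huO.1
    rw [hd', hcard, Finset.sum_insert (by simp [h₁, hne1]), Finset.sum_pair hne2] at h
    have hneg : kappa R + kappa (-R) = 0 := by rw [hR3]; exact kappa_neg_generic n₃ hR2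
    have h' : kappa (Point.some x₁ y₁ n₁) + kappa (Point.some x₂ y₂ n₂) + kappa (-R) = 0 := by
      rw [← h, kappa, kappa, kappa, ← QuotientAddGroup.mk_add, ← QuotientAddGroup.mk_add]
      congr 1
      rw [show ((3 : ℕ) : ℤ) • Finsupp.single v0 (1 : ℤ) =
        Finsupp.single v0 1 + Finsupp.single v0 1 + Finsupp.single v0 1 by
          rw [show ((3 : ℕ) : ℤ) = 1 + 1 + 1 by norm_num, add_zsmul, add_zsmul, one_zsmul]]
      abel
    show kappa R = _
    exact add_right_cancel (hneg.trans h'.symm)

/-- `kappa` is additive. -/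
theorem kappa_add (P Q : V.toAffine.Point) : kappa (P + Q) = kappa P + kappa Q := by
  rcases eq_or_ne P 0 with rfl | hP
  · rw [zero_add, kappa_zero, zero_add]
  rcases eq_or_ne Q 0 with rfl | hQ
  · rw [add_zero, kappa_zero, add_zero]
  -- choose an auxiliary point outside finitely many exceptions
  set S : Set V.toAffine.Point :=
    {0, P + Q, -(P + Q), -(P + Q) - (P + Q), P - Q, -P - Q, -P - P - Q, Q, -Q, -Q - Q, -Q, -(P + Q)}
    ∪ {C | 2 • C = -(P + Q)} ∪ {C | 2 • C = 2 • (-(P + Q))} ∪ {C | 2 • C = -P - 2 • Q}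
    ∪ {C | 2 • C = 2 • (-Q)} ∪ {C | 2 • C = -Q} with hS
  have hfin : S.Finite := by
    refine (((((Set.toFinite _).union (finite_two_nsmul _)).union (finite_two_nsmul _)).union
      (finite_two_nsmul _)).union (finite_two_nsmul _)).union (finite_two_nsmul _)
  obtain ⟨R, hR⟩ := Set.Infinite.nonempty ((Set.infinite_univ (α := V.toAffine.Point)).sdiff hfin)
  simp only [hS, Set.mem_sdiff, Set.mem_univ, true_and, Set.mem_union, Set.mem_insert_iff,
    Set.mem_singleton_iff, Set.mem_ofPred_eq, not_or] at hR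
  obtain ⟨⟨⟨⟨⟨⟨r0, r1, r2, r3, r4, r5, r6, r7, r8, r9, r10, r11⟩, t1⟩, t2⟩, t3⟩, t4⟩, t5⟩ := hR
  have hQR : Q + R ≠ 0 := fun e => r8 (eq_neg_of_add_eq_zero_right e)
  have key2 : kappa (Q + R) = kappa Q + kappa R := by
    refine kappa_add_generic hQ r0 (Ne.symm r7) ?_ ?_ ?_ ?_
    · intro e; exact hQR (by rw [e]; abel)
    · intro e; exact t5 (eq_neg_of_add_eq_zero_right e)
    · intro e; exact r9 (by rw [eq_neg_of_add_eq_zero_right e, two_nsmul]; abel)
    · intro e; exact t4 (by rw [nsmul_add] at e; rw [eq_neg_of_add_eq_zero_right e]; abel)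
  have key3 : kappa (P + (Q + R)) = kappa P + kappa (Q + R) := by
    refine kappa_add_generic hP hQR ?_ ?_ ?_ ?_ ?_
    · intro e; exact r4 (by rw [e]; abel)
    · intro e; exact r5 (by rw [e]; abel)
    · intro e; exact t3 (by
        rw [nsmul_add, ← add_assoc] at e; rw [eq_neg_of_add_eq_zero_right e]; abel)
    · intro e
      refine r6 ?_
      calc R = (2 • P + (Q + R)) - P - P - Q := by rw [two_nsmul]; abel
        _ = -P - P - Q := by rw [e]; abel
    · intro e; exact t2 (by
        rw [← add_assoc, nsmul_add] at e; rw [eq_neg_of_add_eq_zero_right e]; abel)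
  rcases eq_or_ne (P + Q) 0 with h0 | h0
  · rw [h0, kappa_zero]
    rw [← add_assoc, h0, zero_add, key2, ← add_assoc, eq_comm, add_eq_right] at key3
    exact key3.symm
  · have key1 : kappa (P + Q + R) = kappa (P + Q) + kappa R := by
      refine kappa_add_generic h0 r0 (Ne.symm r1) ?_ ?_ ?_ ?_
      · intro e; exact r2 (by rw [e]; abel)
      · intro e; exact t1 (eq_neg_of_add_eq_zero_right e)
      · intro e; exact r3 (by rw [eq_neg_of_add_eq_zero_right e, two_nsmul]; abel)
      · intro e; exact t2 (by rw [nsmul_add] at e; rw [eq_neg_of_add_eq_zero_right e]; abel)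
    rw [add_assoc, key3, key2, ← add_assoc] at key1
    exact (add_right_cancel key1).symm

/-- `kappa` as a homomorphism. -/
def kappaHom : V.toAffine.Point →+ Pic k (FF V) := AddMonoidHom.mk' kappa kappa_add

/-- A divisor of degree zero with sum zero is principal. -/
theorem exists_function_of_sum_eq {ι : Type*} (s : Finset ι) (P Q : ι → V.toAffine.Point)
    (h : ∑ i ∈ s, P i = ∑ i ∈ s, Q i) :
    ∃ u : FF V, u ≠ 0 ∧ ∀ R : V.toAffine.Point, ordAt R u =
      ((s.filter fun i => P i = R).card : ℤ) - ((s.filter fun i => Q i = R).card : ℤ) := by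
  classical
  have hk : ∑ i ∈ s, kappa (P i) = ∑ i ∈ s, kappa (Q i) := by
    show ∑ i ∈ s, kappaHom (P i) = ∑ i ∈ s, kappaHom (Q i)
    rw [← map_sum, ← map_sum, h]
  set D : Divisor k (FF V) :=
    ∑ i ∈ s, (Finsupp.single (placeAt (P i)) 1 - Finsupp.single (placeAt (Q i)) 1) with hD
  have hD0 : (QuotientAddGroup.mk D : Pic k (FF V)) = 0 := by
    rw [hD, show (QuotientAddGroup.mk (∑ i ∈ s, (Finsupp.single (placeAt (P i)) (1 : ℤ) -
        Finsupp.single (placeAt (Q i)) 1)) : Pic k (FF V)) = QuotientAddGroup.mk' _ _ from rfl,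
      map_sum]
    rw [← sub_eq_zero] at hk
    rw [← hk, ← Finset.sum_sub_distrib]
    refine Finset.sum_congr rfl fun i _ => ?_
    rw [kappa, kappa, ← QuotientAddGroup.mk_sub]
    show QuotientAddGroup.mk _ = _
    congr 1
    abel
  obtain ⟨u, hu, hord⟩ := (QuotientAddGroup.eq_zero_iff _).1 hD0
  refine ⟨u, hu, fun R => ?_⟩
  rw [ordAt, ← hord, hD, Finsupp.finsetSum_apply]
  simp only [Finsupp.sub_apply, Finsupp.single_apply, placeAt_injective.eq_iff]
  rw [Finset.sum_sub_distrib, Finset.sum_boole, Finset.sum_boole]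

end FermatAgent.EC
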