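import Fermat.Agent.EC.Universal

/-!
# Multiplication by `n` on x-coordinates

For a point `P = (x, y)` of a curve with `Δ ≠ 0`: `n • P = 0` iff `ΨSqₙ(x) = 0`, and otherwise
`x(n • P) = Φₙ(x) / ΨSqₙ(x)`.
-/

set_option autoImplicit false

open Polynomial WeierstrassCurve WeierstrassCurve.Affine

namespace FermatAgent.EC

universe u

variable {F : Type u} [Field F] [DecidableEq F] {V : WeierstrassCurve F}

/-- The x-coordinate of `n • P` is described by the values `N = Φₙ(x)` and `D = ΨSqₙ(x)`. -/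
def XRepresents (Q : V.toAffine.Point) (N D : F) : Prop :=
  match Q with
  | .zero => D = 0 ∧ N ≠ 0
  | .some x' _ _ => D ≠ 0 ∧ N = x' * D

/-- The step from `A`, `B = A + P` to `B + P` when `B` has the abscissa of `P`, so `B = ± P`. -/
lemma xRepresents_step_of_x_eq (hΔ : V.Δ ≠ 0) {x' y y' : F} (h : V.toAffine.Nonsingular x' y)
    (h' : V.toAffine.Nonsingular x' y') (A : V.toAffine.Point) {Np Dp D Ns Ds : F}
    (hA : A + Point.some x' y h = Point.some x' y' h') (hA' : XRepresents A Np Dp) (hD : D ≠ 0)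
    (hsum : Ns * Dp + Np * Ds = biSum V x' (x' * D) D)
    (hprod : Ns * Np = biProd V x' (x' * D) D) (hsq : Ds * Dp = (x' * D - x' * D) ^ 2) :
    XRepresents (Point.some x' y' h' + Point.some x' y h) Ns Ds := by
  set P := Point.some x' y h with hP
  rw [biSum_scale, biSum_self] at hsum
  rw [biProd_scale, biProd_self] at hprod
  have h0 : Ds * Dp = 0 := by linear_combination hsq
  rcases (Point.X_eq_iff (h₁ := h') (h₂ := h)).mp rfl with e | e
  · rw [e, ← hP, eq_comm, right_eq_add] at hA
    rw [hA] at hA'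
    obtain ⟨hDp, hNp⟩ := hA'
    subst hDp
    rw [e, ← hP]
    by_cases hy : y = V.toAffine.negY x' y
    · have hb : V.Ψ₂Sq.eval x' = 0 := by
        rw [← psiTwoVal_sq h.1, pow_eq_zero_iff two_ne_zero, psiTwoVal]
        simp [negY] at hy
        linear_combination hy
      have hDs : Ds = 0 := by
        rw [hb] at hsum
        exact (mul_eq_zero.mp (by linear_combination hsum : Np * Ds = 0)).resolve_left hNp
      rw [hP, Point.add_self_of_Y_eq hy]
      refine ⟨hDs, fun hNs => ?_⟩
      subst hNs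
      rcases Φ_two_or_Ψ₂Sq_ne_zero V hΔ x' with hh | hh
      · exact hh ((mul_eq_zero.mp (by linear_combination -hprod :
          (V.Φ 2).eval x' * D ^ 2 = 0)).resolve_right (pow_ne_zero 2 hD))
      · exact hh hb
    · rw [hP, Point.add_self_of_Y_ne hy]
      have hb : psiTwoVal V x' y ≠ 0 := by
        intro hb
        apply hy
        simp only [psiTwoVal] at hb
        simp only [negY]
        linear_combination hb
      have h2 := addX_self_mul h.1 hy
      rw [psiTwoVal_sq h.1] at h2
      have hb2 : V.Ψ₂Sq.eval x' ≠ 0 := psiTwoVal_sq h.1 ▸ pow_ne_zero 2 hb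
      have hDs : Ds ≠ 0 := by
        intro hDs
        subst hDs
        exact mul_ne_zero hb2 (pow_ne_zero 2 hD) (by linear_combination -hsum)
      refine ⟨hDs, ?_⟩
      apply mul_right_cancel₀ hNp
      linear_combination hprod - D ^ 2 * h2 -
        V.toAffine.addX x' x' (V.toAffine.slope x' x' y y) * hsum
  · rw [e, ← hP, neg_add_cancel]
    rw [e, ← hP, ← eq_sub_iff_add_eq] at hA
    by_cases hDp : Dp = 0
    · -- then `A = 0`, so `P = -P`
      have hA0 : A = 0 := by
        match A, hA' with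
        | .zero, _ => rfl
        | .some _ _ _, ⟨hh, _⟩ => exact absurd hDp hh
      rw [hA0, eq_comm, sub_eq_zero, eq_comm] at hA
      subst hDp
      have hA'' : Np ≠ 0 := by rw [hA0] at hA'; exact hA'.2
      have hy : y = V.toAffine.negY x' y := by
        rw [hP, Point.neg_some, Point.some.injEq] at hA
        exact hA.2
      have hb : V.Ψ₂Sq.eval x' = 0 := by
        rw [← psiTwoVal_sq h.1, pow_eq_zero_iff two_ne_zero, psiTwoVal]
        simp only [negY] at hy
        linear_combination hy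
      rw [hb] at hsum
      refine ⟨(mul_eq_zero.mp (by linear_combination hsum : Np * Ds = 0)).resolve_left hA'',
        fun hNs => ?_⟩
      subst hNs
      rcases Φ_two_or_Ψ₂Sq_ne_zero V hΔ x' with hh | hh
      · exact hh ((mul_eq_zero.mp (by linear_combination -hprod :
          (V.Φ 2).eval x' * D ^ 2 = 0)).resolve_right (pow_ne_zero 2 hD))
      · exact hh hb
    · have hDs : Ds = 0 := (mul_eq_zero.mp h0).resolve_right hDp
      refine ⟨hDs, fun hNs => ?_⟩
      subst hNs hDs
      rcases Φ_two_or_Ψ₂Sq_ne_zero V hΔ x' with hh | hh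
      · exact hh ((mul_eq_zero.mp (by linear_combination -hprod :
          (V.Φ 2).eval x' * D ^ 2 = 0)).resolve_right (pow_ne_zero 2 hD))
      · exact hh ((mul_eq_zero.mp (by linear_combination -hsum :
          V.Ψ₂Sq.eval x' * D ^ 2 = 0)).resolve_right (pow_ne_zero 2 hD))

/-- If `(Np, Dp)` and `(N, D)` describe the abscissae of `A` and `B = A + P`, and `(Ns, Ds)`
satisfies the differential addition relations with them, it describes that of `B + P`. -/
lemma xRepresents_step (hΔ : V.Δ ≠ 0) {x y : F} (h : V.toAffine.Nonsingular x y)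
    (A B : V.toAffine.Point) (Np Dp N D Ns Ds : F)
    (hA : A + Point.some x y h = B)
    (hA' : XRepresents A Np Dp) (hB' : XRepresents B N D)
    (hsum : Ns * Dp + Np * Ds = biSum V x N D) (hprod : Ns * Np = biProd V x N D)
    (hsq : Ds * Dp = (x * D - N) ^ 2) :
    XRepresents (B + Point.some x y h) Ns Ds := by
  set P := Point.some x y h with hP
  match B, hB' with
  | .zero, ⟨hD, hN⟩ =>
    subst hD
    rw [eq_neg_of_add_eq_zero_left hA, Point.neg_some] at hA'
    obtain ⟨hDp, hNp⟩ := hA'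
    rw [← Point.zero_def, zero_add]
    have hDs : Ds * Dp = N ^ 2 := by linear_combination hsq
    have hDs0 : Ds ≠ 0 := left_ne_zero_of_mul (hDs ▸ pow_ne_zero 2 hN)
    refine ⟨hDs0, ?_⟩
    simp only [biSum] at hsum
    apply mul_right_cancel₀ hDp
    linear_combination hsum - Ds * hNp - 2 * x * hDs
  | .some x' y' h', ⟨hD, hN⟩ =>
    subst hN
    by_cases hx : x' = x
    · subst hx
      exact xRepresents_step_of_x_eq hΔ h h' A hA hA' hD hsum hprod hsq
    · obtain ⟨s, d, sy, dy, hs, hd, e1, e2, e3, -, -⟩ := exists_add_sub h' h hx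
      rw [hP, e1]
      rw [eq_comm, ← sub_eq_iff_eq_add] at hA
      rw [hP, e2] at hA
      subst hA
      obtain ⟨hDp, hNp⟩ := hA'
      have hne : (x * D - x' * D) ^ 2 ≠ 0 :=
        pow_ne_zero 2 (by rw [← sub_mul]; exact mul_ne_zero (sub_ne_zero.2 (Ne.symm hx)) hD)
      have hDs : Ds ≠ 0 := left_ne_zero_of_mul (hsq ▸ hne)
      refine ⟨hDs, ?_⟩
      rw [biSum_scale] at hsum
      have e3' : (s + d) * (x' - x) ^ 2 = biSum V x' x 1 := e3
      have hsym : biSum V x x' 1 = biSum V x' x 1 := by simp only [biSum]; ring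
      rw [hsym, ← e3'] at hsum
      apply mul_right_cancel₀ hDp
      linear_combination hsum - Ds * hNp - (s + d) * hsq

/-- **`Φₙ(x) : ΨSqₙ(x)` is the abscissa of `n • P`** for `P = (x, y)`. -/
theorem xRepresents_nsmul (hΔ : V.Δ ≠ 0) {x y : F} (h : V.toAffine.Nonsingular x y) (n : ℕ) :
    XRepresents (n • Point.some x y h) ((V.Φ n).eval x) ((V.ΨSq n).eval x) := by
  induction n using Nat.twoStepInduction with
  | zero =>
    rw [zero_nsmul]
    exact ⟨by simp, by simp⟩
  | one =>
    rw [one_nsmul]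
    exact ⟨by simp, by simp⟩
  | more n ih1 ih2 =>
    rw [show (n + 2) • Point.some x y h = (n + 1) • Point.some x y h + Point.some x y h from
      succ_nsmul _ _]
    have hcast : ((n + 1 : ℕ) : ℤ) - 1 = (n : ℤ) := by push_cast; ring
    have hcast' : ((n + 1 : ℕ) : ℤ) + 1 = ((n + 2 : ℕ) : ℤ) := by push_cast; ring
    have hs := Φ_sum V (n + 1) x
    have hp := Φ_prod V (n + 1) x
    have hq := congrArg (eval x) (ΨSq_succ_mul_pred V ((n + 1 : ℕ) : ℤ))
    rw [hcast, hcast'] at hs hp hq
    simp only [eval_mul, eval_pow, eval_sub, eval_X] at hq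
    exact xRepresents_step hΔ h _ _ _ _ _ _ _ _ (succ_nsmul _ _).symm ih1 ih2 hs hp hq

/-- `n • P = 0` iff `ΨSqₙ` vanishes at the abscissa. -/
theorem nsmul_eq_zero_iff (hΔ : V.Δ ≠ 0) {x y : F} (h : V.toAffine.Nonsingular x y) (n : ℕ) :
    n • Point.some x y h = 0 ↔ (V.ΨSq n).eval x = 0 := by
  have := xRepresents_nsmul hΔ h n
  match hn : n • Point.some x y h, this with
  | .zero, this => exact ⟨fun _ => this.1, fun _ => rfl⟩
  | .some _ _ _, this => exact ⟨fun e => absurd e (Point.some_ne_zero _), fun e => absurd e this.1⟩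

/-- If `n • P = (x', y')` then `Φₙ(x) = x' ΨSqₙ(x)` with `ΨSqₙ(x) ≠ 0`. -/
theorem Φ_eq_mul_of_nsmul_eq (hΔ : V.Δ ≠ 0) {x y x' y' : F} (h : V.toAffine.Nonsingular x y)
    {h' : V.toAffine.Nonsingular x' y'} {n : ℕ} (hn : n • Point.some x y h = Point.some x' y' h') :
    (V.ΨSq n).eval x ≠ 0 ∧ (V.Φ n).eval x = x' * (V.ΨSq n).eval x := by
  have := xRepresents_nsmul hΔ h n
  rw [hn] at this
  exact this

/-- If `ΨSqₙ(x) ≠ 0` then `n • P` is affine with abscissa `Φₙ(x) / ΨSqₙ(x)`. -/
theorem exists_nsmul_eq_some (hΔ : V.Δ ≠ 0) {x y : F} (h : V.toAffine.Nonsingular x y) {n : ℕ}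
    (hn : (V.ΨSq n).eval x ≠ 0) :
    ∃ y' h', n • Point.some x y h =
      Point.some ((V.Φ n).eval x / (V.ΨSq n).eval x) y' h' := by
  have := xRepresents_nsmul hΔ h n
  match hm : n • Point.some x y h, this with
  | .zero, this => exact absurd this.1 hn
  | .some x' y' h', this =>
    obtain rfl : x' = (V.Φ n).eval x / (V.ΨSq n).eval x := by
      rw [this.2, mul_div_assoc, div_self this.1, mul_one]
    exact ⟨y', h', rfl⟩

/-- `Φₙ` and `ΨSqₙ` have no common zero at points of the curve. -/
theorem Φ_ne_zero_of_ΨSq_eq_zero (hΔ : V.Δ ≠ 0) {x y : F} (h : V.toAffine.Nonsingular x y) {n : ℕ}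
    (hn : (V.ΨSq n).eval x = 0) : (V.Φ n).eval x ≠ 0 := by
  have := xRepresents_nsmul hΔ h n
  rw [(nsmul_eq_zero_iff hΔ h n).2 hn] at this
  exact this.2

end FermatAgent.EC
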