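import Fermat.Agent.EC.Pullback

/-!
# Orders of functions under translations and pullbacks
-/

set_option autoImplicit false

noncomputable section

open Polynomial WeierstrassCurve WeierstrassCurve.Affine
open AlgebraicCurve FermatAgent.Curve

namespace FermatAgent.EC

universe u

variable {k : Type u} [Field k] [DecidableEq k] [IsAlgClosed k] {V : WeierstrassCurve k}
  [V.IsElliptic]

/-- Order of vanishing at a point. -/
def ordAt (P : V.toAffine.Point) (u : FF V) : ℤ := (placeAt P).ord u

section

omit [DecidableEq k]

/-- The order at a point is additive on products. -/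
lemma ordAt_mul (P : V.toAffine.Point) {u w : FF V} (hu : u ≠ 0) (hw : w ≠ 0) :
    ordAt P (u * w) = ordAt P u + ordAt P w := Place.ord_mul _ hu hw

/-- A function has finitely many zeros and poles. -/
lemma finite_ordAt_ne_zero (u : FF V) : {P : V.toAffine.Point | ordAt P u ≠ 0}.Finite :=
  (finite_ord_ne_zero (K := k) u).preimage placeAt_injective.injOn

/-- A function without zeros and poles is constant. -/
theorem exists_const_of_ordAt_eq_zero {u : FF V} (h : ∀ P : V.toAffine.Point, ordAt P u = 0) :
    ∃ c : k, algebraMap k (FF V) c = u :=
  exists_eq_algebraMap_of_ord_eq_zero fun v => by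
    have := h (center v)
    rwa [ordAt, placeAt_center] at this

end

/-- Pullback multiplies orders by a positive ramification index. -/
theorem exists_ramification {f : (curveFF V).toAffine.Point} (hf : IsNonconst f)
    (P : V.toAffine.Point) :
    ∃ e : ℕ, 0 < e ∧ ∀ u, ordAt P (pullback f u) = e * ordAt (evPt (placeAt P) f) u := by
  have hpush := pushPlace_eq hf (placeAt P)
  simp only [ordAt]
  rw [← hpush]
  set v := placeAt P
  set w := pushPlace hf v
  obtain ⟨π, hπ⟩ := IsDiscreteValuationRing.exists_irreducible w.toValuationSubring
  have hπ0 : (π : FF V) ≠ 0 := by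
    simpa [ne_eq, ZeroMemClass.coe_eq_zero] using hπ.ne_zero
  have hunit : ∀ a : w.toValuationSubringˣ,
      v.ord (pullback f ((a : w.toValuationSubring) : FF V)) = 0 := by
    intro a
    have hmul : ((a : w.toValuationSubring) : FF V) * ((↑a⁻¹ : w.toValuationSubring) : FF V) = 1 :=
      congrArg Subtype.val a.mul_inv
    have h1 := (mem_pushPlace hf).1 (a : w.toValuationSubring).2
    have h2 := (mem_pushPlace hf).1 (↑a⁻¹ : w.toValuationSubring).2
    have hmul' := congrArg (pullback f) hmul
    rw [map_mul, map_one] at hmul'
    have n1 := left_ne_zero_of_mul (hmul' ▸ one_ne_zero)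
    have n2 := right_ne_zero_of_mul (hmul' ▸ one_ne_zero)
    have := v.ord_mul n1 n2
    rw [hmul', v.ord_one] at this
    have := (mem_iff_ord_nonneg n1).1 h1
    have := (mem_iff_ord_nonneg n2).1 h2
    omega
  set e := v.ord (pullback f (π : FF V)) with he
  have hpos : 0 < e := by
    have hmem := (mem_pushPlace hf).1 π.2
    have h0 : pullback f (π : FF V) ≠ 0 := (_root_.map_ne_zero _).2 hπ0
    have := (mem_iff_ord_nonneg h0).1 hmem
    rcases lt_or_eq_of_le this with h | h
    · exact h
    exfalso
    have hinv : (π : FF V)⁻¹ ∈ w.toValuationSubring := by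
      rw [mem_pushPlace, map_inv₀, mem_iff_ord_nonneg (inv_ne_zero h0), v.ord_inv]
      omega
    exact hπ.not_isUnit (isUnit_iff_exists_inv.2 ⟨⟨_, hinv⟩, Subtype.ext (mul_inv_cancel₀ hπ0)⟩)
  refine ⟨e.toNat, by omega, fun u => ?_⟩
  rw [Int.toNat_of_nonneg hpos.le]
  rcases eq_or_ne u 0 with rfl | hu
  · simp
  obtain ⟨a, ha⟩ := w.exists_unit_mul_zpow hu hπ
  have ha0 : pullback f ((a : w.toValuationSubring) : FF V) ≠ 0 := by
    rw [_root_.map_ne_zero]
    intro h0
    exact hu (by rw [ha, h0, zero_mul])
  conv_lhs => rw [ha]
  rw [map_mul, map_zpow₀, v.ord_mul ha0 (zpow_ne_zero _ ((_root_.map_ne_zero _).2 hπ0)),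
    hunit a, Place.ord_zpow, zero_add, mul_comm]

/-- Translation of functions. -/
def translate (B : V.toAffine.Point) : FF V →+* FF V := pullback (genPoint V + constPt B)

/-- Translations fix constants. -/
lemma translate_algebraMap (B : V.toAffine.Point) (c : k) :
    translate B (algebraMap k (FF V) c) = algebraMap k (FF V) c :=
  pullback_algebraMap (isNonconst_translate B) c

lemma pullPoint_translate (B C : V.toAffine.Point) :
    pullPoint (isNonconst_translate B) (genPoint V + constPt C) = genPoint V + constPt (B + C) := by
  rw [map_add, pullPoint_genPoint, pullPoint_constPt, add_assoc, ← map_add]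

lemma translate_comp (B C : V.toAffine.Point) :
    (translate B).comp (translate C) = translate (B + C) := by
  rw [translate, translate, pullback_comp (isNonconst_translate B) (isNonconst_translate C)
    (by rw [pullPoint_translate]; exact isNonconst_translate _), pullPoint_translate]
  rfl

/-- Translation by the origin is the identity. -/
lemma translate_zero : translate (0 : V.toAffine.Point) = RingHom.id _ := by
  rw [translate, map_zero, add_zero, pullback_genPoint]

/-- Translations compose by adding the points. -/
lemma translate_translate (B C : V.toAffine.Point) (u : FF V) :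
    translate B (translate C u) = translate (B + C) u := by
  rw [← translate_comp]; rfl

/-- The order at `P` of a translate by `B` is the order at `P + B`. -/
theorem ordAt_translate (B P : V.toAffine.Point) (u : FF V) :
    ordAt P (translate B u) = ordAt (P + B) u := by
  obtain ⟨e, he, h⟩ := exists_ramification (isNonconst_translate B) P
  obtain ⟨e', he', h'⟩ := exists_ramification (isNonconst_translate (-B)) (P + B)
  rw [evPt_genPoint_add_constPt, center_placeAt] at h
  rw [evPt_genPoint_add_constPt, center_placeAt, add_neg_cancel_right] at h'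
  obtain ⟨t, ht0, ht⟩ := exists_ord_eq_one (placeAt (P + B))
  have h2 := h' (translate B t)
  change ordAt (P + B) (translate (-B) (translate B t)) = _ at h2
  rw [translate_translate, neg_add_cancel, translate_zero, RingHom.id_apply] at h2
  change (placeAt (P + B)).ord t = _ at h2
  rw [ht] at h2
  have h3 : ordAt P (translate B t) = e * ordAt (P + B) t := h t
  rw [show ordAt (P + B) t = 1 from ht, mul_one] at h3
  rw [h3] at h2
  have h4 : e' * e = 1 := by exact_mod_cast h2.symm
  have h5 := h u
  rw [(Nat.eq_one_of_mul_eq_one_left h4)] at h5
  simpa [translate] using h5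

end FermatAgent.EC
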