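import Fermat.Agent.EC.FunctionField

/-!
# Pullback along a nonconstant point, translations, and evaluation as a homomorphism

A nonconstant point `f` over the function field has transcendental first coordinate, so it gives
the field map `pullback f`, a composition of points `pullPoint` and an image of places `pushPlace`,
the place at the value of `f` (`pushPlace_eq`); evaluation commutes with composition
(`evPt_pullPoint`). The translation by `B` sends `P` to `P + B` (`trPt_eq`), hence
`evPt_add_constPt`, and, translating two points into general position, evaluation at a place is a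
homomorphism (`evPt_add`, `evHom`).
-/

set_option autoImplicit false

noncomputable section

open Polynomial IntermediateField WeierstrassCurve WeierstrassCurve.Affine
open AlgebraicCurve FermatAgent.Curve

namespace FermatAgent.EC

universe u

variable {k : Type u} [Field k] [DecidableEq k] {V : WeierstrassCurve k}

/-- A constant point. -/
def constPt : V.toAffine.Point →+ (curveFF V).toAffine.Point :=
  mapPoint (algebraMap k (FF V)) rfl

/-- A point over the function field which is not constant. -/
def IsNonconst (f : (curveFF V).toAffine.Point) : Prop :=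
  ∀ A : V.toAffine.Point, f ≠ constPt A

lemma IsNonconst.ne_zero {f : (curveFF V).toAffine.Point} (hf : IsNonconst f) : f ≠ 0 :=
  fun h => hf 0 (by rw [h, map_zero])

/-- Distinct points give distinct constant points. -/
lemma constPt_injective : Function.Injective (constPt (V := V)) := mapPoint_injective _ _

/-- Adding a constant point keeps a point nonconstant. -/
lemma IsNonconst.add_const {f : (curveFF V).toAffine.Point} (hf : IsNonconst f)
    (B : V.toAffine.Point) : IsNonconst (f + constPt B) :=
  fun A h => hf (A - B) (by rw [map_sub, eq_sub_iff_add_eq, h])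

variable [IsAlgClosed k]

section Elliptic

variable [V.IsElliptic]

omit [DecidableEq k] in
/-- Finitely many first coordinates come from finitely many points. -/
lemma finite_points_of_x {s : Set k} (hs : s.Finite) :
    {P : V.toAffine.Point | ∃ x y h, P = .some x y h ∧ x ∈ s}.Finite := by
  classical
  have key : ∀ x : k, {P : V.toAffine.Point | ∃ y h, P = .some x y h}.Finite := fun x => by
    obtain ⟨y, hy⟩ := exists_y_of_x (V_Δ_ne_zero V) x
    refine ((Set.finite_singleton (-Point.some x y hy)).insert (Point.some x y hy)).subset ?_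
    rintro P ⟨y', h', rfl⟩
    rcases (Point.X_eq_iff (h₁ := h') (h₂ := hy)).mp rfl with e | e
    · exact Set.mem_insert_iff.2 (Or.inl e)
    · exact Set.mem_insert_of_mem _ e
  refine (hs.biUnion fun x _ => key x).subset ?_
  rintro P ⟨x, y, h, rfl, hx⟩
  exact Set.mem_biUnion hx ⟨y, h, rfl⟩

instance infinite_points : Infinite V.toAffine.Point :=
  Infinite.of_injective
    (fun x : k => Point.some x _ (exists_y_of_x (V_Δ_ne_zero V) x).choose_spec)
    fun x y h => by simp only [Point.some.injEq] at h; exact h.1

/-- A point has finitely many halves. -/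
lemma finite_two_nsmul (D : V.toAffine.Point) : {C : V.toAffine.Point | 2 • C = D}.Finite := by
  classical
  rcases Set.eq_empty_or_nonempty {C : V.toAffine.Point | 2 • C = D} with h | ⟨C₀, hC₀⟩
  · rw [h]; exact Set.finite_empty
  have hfin : {C : V.toAffine.Point | 2 • C = 0}.Finite := by
    refine ((finite_points_of_x (V := V)
      (V.Ψ₂Sq.roots.toFinset.finite_toSet)).union (Set.finite_singleton 0)).subset ?_
    rintro (_ | ⟨x, y, h⟩) hC
    · exact Or.inr rfl
    · refine Or.inl ⟨x, y, h, rfl, ?_⟩
      simp only [Finset.mem_coe, Multiset.mem_toFinset,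
        mem_roots (Ψ₂Sq_ne_zero_of_Δ (V_Δ_ne_zero V))]
      have := (nsmul_eq_zero_iff (V_Δ_ne_zero V) h 2).1 hC
      simpa using this
  refine (hfin.image (· + C₀)).subset fun C hC => ⟨C - C₀, ?_, sub_add_cancel C C₀⟩
  simp only [Set.mem_ofPred_eq] at hC hC₀ ⊢
  rw [nsmul_sub, hC, hC₀, sub_self]

section Eval

variable {v : Place k (FF V)}

/-- A constant point takes that value at every place. -/
@[simp]
lemma evPt_constPt (A : V.toAffine.Point) : evPt v (constPt A) = A := by
  match A with
  | .zero => rfl
  | .some a b h => exact evPt_of_hasVal (hasVal_algebraMap v a) (hasVal_algebraMap v b)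

omit [DecidableEq k] in
/-- Evaluation at a place commutes with negation. -/
lemma evPt_neg (f : (curveFF V).toAffine.Point) : evPt v (-f) = -evPt v f := by
  match f with
  | .zero => rfl
  | .some X₀ Y₀ h =>
    rw [Point.neg_some]
    by_cases hX : X₀ ∈ v.toValuationSubring
    · have ha := hasVal_pval hX
      have hb := hasVal_pval (mem_of_equation h.1 hX)
      have hb' : HasVal v ((curveFF V).toAffine.negY X₀ Y₀)
          (V.toAffine.negY (pval v X₀) (pval v Y₀)) := by
        simp only [negY, WeierstrassCurve.map_a₁, WeierstrassCurve.map_a₃]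
        exact (hb.neg.sub ((hasVal_algebraMap v V.a₁).mul ha)).sub (hasVal_algebraMap v V.a₃)
      rw [evPt_of_hasVal ha hb', evPt_of_hasVal ha hb, Point.neg_some]
    · rw [evPt_of_notMem hX, evPt_of_notMem hX]
      rfl

lemma evPt_add_of_ne {f g : (curveFF V).toAffine.Point} {a₁ b₁ a₂ b₂ : k}
    {h₁ : V.toAffine.Nonsingular a₁ b₁} {h₂ : V.toAffine.Nonsingular a₂ b₂}
    (hf : evPt v f = .some a₁ b₁ h₁) (hg : evPt v g = .some a₂ b₂ h₂) (hne : a₁ ≠ a₂) :
    evPt v (f + g) = evPt v f + evPt v g := by
  match f, g, hf, hg with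
  | .zero, _, hf, _ => exact absurd hf.symm (Point.some_ne_zero _)
  | .some _ _ _, .zero, _, hg => exact absurd hg.symm (Point.some_ne_zero _)
  | .some X₁ Y₁ hP₁, .some X₂ Y₂ hP₂, hf, hg =>
    obtain ⟨hX₁, hY₁⟩ := hasVal_of_evPt_eq_some hf
    obtain ⟨hX₂, hY₂⟩ := hasVal_of_evPt_eq_some hg
    have hX : X₁ ≠ X₂ := fun e => hne (hX₁.unique (e ▸ hX₂))
    rw [hf, hg, Point.add_of_X_ne hX, Point.add_of_X_ne hne]
    have hl : HasVal v ((curveFF V).toAffine.slope X₁ X₂ Y₁ Y₂)
        (V.toAffine.slope a₁ a₂ b₁ b₂) := by
      rw [slope_of_X_ne hX, slope_of_X_ne hne]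
      exact (hY₁.sub hY₂).div (hX₁.sub hX₂) (sub_ne_zero.2 hne)
    have hX₃ : HasVal v ((curveFF V).toAffine.addX X₁ X₂ ((curveFF V).toAffine.slope X₁ X₂ Y₁ Y₂))
        (V.toAffine.addX a₁ a₂ (V.toAffine.slope a₁ a₂ b₁ b₂)) := by
      simp only [addX, WeierstrassCurve.map_a₁, WeierstrassCurve.map_a₂]
      exact ((((hl.pow 2).add ((hasVal_algebraMap v V.a₁).mul hl)).sub
        (hasVal_algebraMap v V.a₂)).sub hX₁).sub hX₂
    refine evPt_of_hasVal hX₃ ?_
    simp only [addY, negY, negAddY, WeierstrassCurve.map_a₁, WeierstrassCurve.map_a₃]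
    exact ((((hl.mul (hX₃.sub hX₁)).add hY₁).neg).sub
      ((hasVal_algebraMap v V.a₁).mul hX₃)).sub (hasVal_algebraMap v V.a₃)

end Eval

end Elliptic

section Pull

variable {f : (curveFF V).toAffine.Point}

omit [DecidableEq k] in
/-- A point with constant x-coordinate is constant. -/
lemma exists_const_y {c : k} {Y₀ : FF V}
    (h : (curveFF V).toAffine.Equation (algebraMap k _ c) Y₀) :
    ∃ d : k, algebraMap k (FF V) d = Y₀ := by
  by_contra hne
  push Not at hne
  refine transcendental_of_not_const hne ⟨Polynomial.X ^ 2 + C (V.a₁ * c + V.a₃) * Polynomial.X -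
    C (c ^ 3 + V.a₂ * c ^ 2 + V.a₄ * c + V.a₆), ?_, ?_⟩
  · exact (by monicity! : Monic _).ne_zero
  · rw [equation_iff] at h
    simp only [WeierstrassCurve.map_a₁, WeierstrassCurve.map_a₂, WeierstrassCurve.map_a₃,
      WeierstrassCurve.map_a₄, WeierstrassCurve.map_a₆] at h
    simp
    linear_combination h

/-- A nonconstant point is affine, with transcendental first coordinate. -/
lemma IsNonconst.exists_coords (hf : IsNonconst f) :
    ∃ X₀ Y₀ h, f = .some X₀ Y₀ h ∧ Transcendental k X₀ := by
  match f, hf with
  | .zero, hf => exact absurd rfl hf.ne_zero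
  | .some X₀ Y₀ h, hf =>
    refine ⟨X₀, Y₀, h, rfl, transcendental_of_not_const fun c hc => ?_⟩
    subst hc
    obtain ⟨d, rfl⟩ := exists_const_y h.1
    exact hf (.some c d
      ((Affine.map_nonsingular _ (algebraMap k (FF V)).injective c d).mp h)) rfl

section

omit [DecidableEq k] [IsAlgClosed k]

lemma aeval_equation {X₀ Y₀ : FF V} (h : (curveFF V).toAffine.Equation X₀ Y₀) :
    V.toAffine.polynomial.eval₂ (aeval X₀ : k[X] →ₐ[k] FF V).toRingHom Y₀ = 0 := by
  rw [equation_iff] at h
  simp only [WeierstrassCurve.map_a₁, WeierstrassCurve.map_a₂, WeierstrassCurve.map_a₃,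
    WeierstrassCurve.map_a₄, WeierstrassCurve.map_a₆] at h
  simp [Affine.polynomial, eval₂_pow]
  linear_combination h

/-- The homomorphism of the coordinate ring attached to coordinates. -/
def pullRing {X₀ Y₀ : FF V} (h : (curveFF V).toAffine.Equation X₀ Y₀) :
    V.toAffine.CoordinateRing →+* FF V :=
  AdjoinRoot.lift (aeval X₀ : k[X] →ₐ[k] FF V).toRingHom Y₀ (aeval_equation h)

lemma pullRing_injective {X₀ Y₀ : FF V} (h : (curveFF V).toAffine.Equation X₀ Y₀)
    (ht : Transcendental k X₀) : Function.Injective (pullRing h) := by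
  rw [injective_iff_map_eq_zero]
  intro a ha
  by_contra ha0
  have : Module.Finite k[X] V.toAffine.CoordinateRing :=
    Module.Finite.of_basis (CoordinateRing.basis V.toAffine)
  have hN : Algebra.norm k[X] a ≠ 0 := Algebra.norm_ne_zero_iff.2 ha0
  obtain ⟨p, q, rfl⟩ := CoordinateRing.exists_smul_basis_eq a
  have h1 := congrArg (pullRing h) (CoordinateRing.coe_norm_smul_basis (W' := V.toAffine) p q)
  rw [map_mul (CoordinateRing.mk V.toAffine), map_mul (pullRing h)] at h1
  have h2 : (CoordinateRing.mk V.toAffine) (C p + C q * Polynomial.X) =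
      p • (1 : V.toAffine.CoordinateRing) + q • CoordinateRing.mk V.toAffine Polynomial.X := by
    rw [CoordinateRing.smul, CoordinateRing.smul, mul_one, map_add, map_mul]
  rw [h2, ha, zero_mul] at h1
  refine hN (transcendental_iff.1 ht _ ?_)
  rw [← h1]
  exact (AdjoinRoot.lift_of (aeval_equation h)).symm

end

open Classical in
/-- Pullback of functions along `f`; the identity for constant `f`. -/
def pullback : (curveFF V).toAffine.Point → (FF V →+* FF V)
  | .zero => RingHom.id _
  | .some X₀ _ h =>
    if ht : Transcendental k X₀ then IsFractionRing.lift (pullRing_injective h.1 ht)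
    else RingHom.id _

lemma pullback_mk {X₀ Y₀ : FF V} {h : (curveFF V).toAffine.Nonsingular X₀ Y₀}
    (hf : IsNonconst (.some X₀ Y₀ h : (curveFF V).toAffine.Point)) (a : k[X][X]) :
    pullback (.some X₀ Y₀ h : (curveFF V).toAffine.Point)
      (algebraMap V.toAffine.CoordinateRing (FF V) (CoordinateRing.mk V.toAffine a)) =
      a.eval₂ (aeval X₀ : k[X] →ₐ[k] FF V).toRingHom Y₀ := by
  obtain ⟨X', Y', h', he, ht⟩ := hf.exists_coords
  simp only [Point.some.injEq] at he
  obtain ⟨rfl, rfl⟩ := he
  rw [pullback, dif_pos ht, IsFractionRing.lift_algebraMap, pullRing, AdjoinRoot.lift_mk]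

/-- Pullback fixes constants. -/
lemma pullback_algebraMap (hf : IsNonconst f) (c : k) :
    pullback f (algebraMap k (FF V) c) = algebraMap k (FF V) c := by
  obtain ⟨X₀, Y₀, h, rfl, -⟩ := hf.exists_coords
  have := pullback_mk hf (C (C c))
  rw [algebraMap_mk_CC] at this
  rw [this]
  simp

lemma map_pullback (hf : IsNonconst f) : (curveFF V).map (pullback f) = curveFF V := by
  rw [curveFF, WeierstrassCurve.map_map]
  congr 1
  exact RingHom.ext fun c => pullback_algebraMap hf c

/-- The pullback of `x` is the first coordinate of the point. -/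
lemma pullback_gx {X₀ Y₀ : FF V} {h : (curveFF V).toAffine.Nonsingular X₀ Y₀}
    (hf : IsNonconst (.some X₀ Y₀ h : (curveFF V).toAffine.Point)) :
    pullback (.some X₀ Y₀ h : (curveFF V).toAffine.Point) (gx V) = X₀ := by
  rw [gx, pullback_mk hf]; simp

/-- The pullback of `y` is the second coordinate of the point. -/
lemma pullback_gy {X₀ Y₀ : FF V} {h : (curveFF V).toAffine.Nonsingular X₀ Y₀}
    (hf : IsNonconst (.some X₀ Y₀ h : (curveFF V).toAffine.Point)) :
    pullback (.some X₀ Y₀ h : (curveFF V).toAffine.Point) (gy V) = Y₀ := by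
  rw [gy, pullback_mk hf]; simp

/-- Composition with `f`. -/
def pullPoint (hf : IsNonconst f) : (curveFF V).toAffine.Point →+ (curveFF V).toAffine.Point :=
  mapPoint (pullback f) (map_pullback hf)

/-- Composition fixes constant points. -/
@[simp]
lemma pullPoint_constPt (hf : IsNonconst f) (A : V.toAffine.Point) :
    pullPoint hf (constPt A) = constPt A := by
  rw [pullPoint, constPt, mapPoint_mapPoint]
  exact mapPoint_congr (RingHom.ext fun c => pullback_algebraMap hf c) _ rfl A

omit [DecidableEq k] [IsAlgClosed k] in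
/-- Two homomorphisms out of the function field agreeing on `k`, `x`, `y` are equal. -/
lemma ringHom_ext_gens {L : Type*} [Field L] {φ ψ : FF V →+* L}
    (hc : ∀ c : k, φ (algebraMap k _ c) = ψ (algebraMap k _ c)) (hx : φ (gx V) = ψ (gx V))
    (hy : φ (gy V) = ψ (gy V)) : φ = ψ := by
  refine IsFractionRing.ringHom_ext (A := V.toAffine.CoordinateRing) fun a => ?_
  obtain ⟨p, q, ha⟩ := exists_smul_eq V a
  rw [ha]
  have : ∀ r : k[X], φ (aeval (gx V) r) = ψ (aeval (gx V) r) := fun r => by
    induction r using Polynomial.induction_on with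
    | C c => simp [hc]
    | add r s hr hs => simp [hr, hs]
    | monomial n c _ => simp [hc, hx]
  simp [this, hy]

/-- Pullbacks compose contravariantly. -/
lemma pullback_comp {g : (curveFF V).toAffine.Point} (hf : IsNonconst f) (hg : IsNonconst g)
    (hfg : IsNonconst (pullPoint hf g)) :
    (pullback f).comp (pullback g) = pullback (pullPoint hf g) := by
  obtain ⟨X₀, Y₀, h, hgeq, -⟩ := hg.exists_coords
  subst hgeq
  revert hfg
  rw [pullPoint, mapPoint_some]
  intro hfg
  refine ringHom_ext_gens (fun c => ?_) ?_ ?_
  · rw [RingHom.comp_apply, pullback_algebraMap hg, pullback_algebraMap hf,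
      pullback_algebraMap hfg]
  · rw [RingHom.comp_apply, pullback_gx hg, pullback_gx hfg]
  · rw [RingHom.comp_apply, pullback_gy hg, pullback_gy hfg]

lemma comap_ne_top (hf : IsNonconst f) (v : Place k (FF V)) :
    v.toValuationSubring.comap (pullback f) ≠ ⊤ := by
  intro h
  obtain ⟨X₀, Y₀, hn, rfl, ht⟩ := hf.exists_coords
  have hall : ∀ u, pullback (.some X₀ Y₀ hn : (curveFF V).toAffine.Point) u ∈
      v.toValuationSubring := fun u => by
    have : u ∈ v.toValuationSubring.comap
        (pullback (.some X₀ Y₀ hn : (curveFF V).toAffine.Point)) := h ▸ ValuationSubring.mem_top u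
    exact this
  have hX := hall (gx V)
  rw [pullback_gx hf] at hX
  have hinv := hall (gx V - algebraMap k _ (pval v X₀))⁻¹
  rw [map_inv₀, map_sub, pullback_gx hf, pullback_algebraMap hf] at hinv
  have hne : X₀ - algebraMap k _ (pval v X₀) ≠ 0 := fun e =>
    ht (by rw [sub_eq_zero.1 e]; exact isAlgebraic_algebraMap _)
  have h1 := hasVal_zero_iff.2 (hasVal_pval hX)
  exact one_ne_zero ((hasVal_one v).unique
    (by simpa [mul_inv_cancel₀ hne] using h1.mul (hasVal_pval hinv)))

/-- The image of a place under `f`. -/
def pushPlace (hf : IsNonconst f) (v : Place k (FF V)) : Place k (FF V) :=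
  placeOfValuationSubring (v.toValuationSubring.comap (pullback f))
    (fun c => by
      show pullback f _ ∈ v.toValuationSubring
      rw [pullback_algebraMap hf]
      exact v.algebraMap_mem' c)
    (comap_ne_top hf v)

/-- A function is regular at the image place iff its pullback is regular at the place. -/
lemma mem_pushPlace (hf : IsNonconst f) {v : Place k (FF V)} {u : FF V} :
    u ∈ (pushPlace hf v).toValuationSubring ↔ pullback f u ∈ v.toValuationSubring := Iff.rfl

lemma HasVal.pull {hf : IsNonconst f} {v : Place k (FF V)} {u : FF V} {a : k}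
    (h : HasVal (pushPlace hf v) u a) : HasVal v (pullback f u) a := by
  have hc : HasVal v (pullback f u) (pval v (pullback f u)) :=
    hasVal_pval ((mem_pushPlace hf).1 h.mem)
  by_contra hne
  have hne' : pval v (pullback f u) - a ≠ 0 := fun e => hne (sub_eq_zero.1 e ▸ hc)
  have h1 := hc.sub (hasVal_algebraMap v a)
  have hmem : (u - algebraMap k _ a)⁻¹ ∈ (pushPlace hf v).toValuationSubring := by
    rw [mem_pushPlace, map_inv₀, map_sub, pullback_algebraMap hf]
    exact (h1.inv hne').mem
  have h0 : u - algebraMap k _ a ≠ 0 := by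
    intro e
    have h2 := (h1.ord_eq_zero hne').1
    rw [← pullback_algebraMap hf a, ← map_sub, e, map_zero] at h2
    exact h2 rfl
  have h2 : HasVal (pushPlace hf v) (u - algebraMap k _ a) 0 := hasVal_zero_iff.2 h
  exact one_ne_zero ((hasVal_one _).unique
    (by simpa [mul_inv_cancel₀ h0] using h2.mul (hasVal_pval hmem)))

variable [V.IsElliptic]

omit [IsAlgClosed k] in
/-- The generic point is nonconstant. -/
lemma isNonconst_genPoint : IsNonconst (genPoint V) := by
  rintro (_ | ⟨a, b, h⟩) e
  · exact Point.some_ne_zero _ e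
  · rw [genPoint, constPt, mapPoint_some] at e
    simp only [Point.some.injEq] at e
    exact transcendental_gx V (e.1 ▸ isAlgebraic_algebraMap a)

/-- Pullback along the generic point is the identity. -/
lemma pullback_genPoint : pullback (genPoint V) = RingHom.id _ := by
  have hg : IsNonconst (.some _ _ (gen_nonsingular V) : (curveFF V).toAffine.Point) :=
    isNonconst_genPoint
  refine ringHom_ext_gens (fun c => ?_) ?_ ?_
  · rw [pullback_algebraMap isNonconst_genPoint]; rfl
  · exact pullback_gx hg
  · exact pullback_gy hg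

/-- The generic point composed with `f` is `f`. -/
@[simp]
lemma pullPoint_genPoint (hf : IsNonconst f) : pullPoint hf (genPoint V) = f := by
  obtain ⟨X₀, Y₀, h, rfl, -⟩ := hf.exists_coords
  rw [genPoint, pullPoint, mapPoint_some]
  simp only [Point.some.injEq]
  exact ⟨pullback_gx hf, pullback_gy hf⟩

/-- Evaluation commutes with pullback. -/
theorem evPt_pullPoint (hf : IsNonconst f) (v : Place k (FF V)) (g : (curveFF V).toAffine.Point) :
    evPt v (pullPoint hf g) = evPt (pushPlace hf v) g := by
  match g with
  | .zero => rfl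
  | .some X₀ Y₀ h =>
    rw [pullPoint, mapPoint_some]
    by_cases hX : X₀ ∈ (pushPlace hf v).toValuationSubring
    · have ha := hasVal_pval hX
      have hb := hasVal_pval (mem_of_equation h.1 hX)
      rw [evPt_of_hasVal ha.pull hb.pull, evPt_of_hasVal ha hb]
    · rw [evPt_of_notMem hX, evPt_of_notMem fun hh => hX ((mem_pushPlace hf).2 hh)]

/-- The image of a place under `f` is the place at the value of `f`. -/
theorem pushPlace_eq (hf : IsNonconst f) (v : Place k (FF V)) :
    pushPlace hf v = placeAt (evPt v f) := by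
  apply center_injective
  rw [center_placeAt, center, ← evPt_pullPoint, pullPoint_genPoint]

/-- The value of a composite at a place is the value of the outer point at that of the inner one. -/
theorem evPt_pullPoint' (hf : IsNonconst f) (v : Place k (FF V))
    (g : (curveFF V).toAffine.Point) :
    evPt v (pullPoint hf g) = evPt (placeAt (evPt v f)) g := by
  rw [evPt_pullPoint, pushPlace_eq]

end Pull

section Translation

variable [V.IsElliptic]

omit [IsAlgClosed k] in
/-- Translations are nonconstant. -/
lemma isNonconst_translate (B : V.toAffine.Point) : IsNonconst (genPoint V + constPt B) :=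
  isNonconst_genPoint.add_const B

/-- Where the translation by `B` sends a point. -/
def trPt (B P : V.toAffine.Point) : V.toAffine.Point :=
  evPt (placeAt P) (genPoint V + constPt B)

lemma trPt_trPt (B C P : V.toAffine.Point) : trPt B (trPt C P) = trPt (C + B) P := by
  rw [trPt, trPt, ← evPt_pullPoint' (isNonconst_translate C), map_add, pullPoint_genPoint,
    pullPoint_constPt, add_assoc, ← map_add]
  rfl

lemma trPt_zero (P : V.toAffine.Point) : trPt 0 P = P := by
  rw [trPt, map_zero, add_zero]
  exact center_placeAt P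

lemma trPt_generic {B P : V.toAffine.Point} (hB : B ≠ 0) (hP : P ≠ 0) (h₁ : P ≠ B) (h₂ : P ≠ -B) :
    trPt B P = P + B := by
  match B, P, hB, hP with
  | .zero, _, hB, _ => exact absurd rfl hB
  | .some _ _ _, .zero, _, hP => exact absurd rfl hP
  | .some xB yB hB', .some xP yP hP', _, _ =>
    have hne : xP ≠ xB := fun e => by
      rcases (Point.X_eq_iff (h₁ := hP') (h₂ := hB')).mp e with e' | e'
      · exact h₁ e'
      · exact h₂ e'
    have e1 : evPt (placeAt (Point.some xP yP hP')) (genPoint V) = Point.some xP yP hP' :=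
      center_placeAt _
    rw [trPt, evPt_add_of_ne e1 (evPt_constPt _) hne, e1, evPt_constPt]

lemma trPt_of_ne {B P : V.toAffine.Point} (hP : P ≠ 0) (hPB : P + B ≠ 0) :
    trPt B P = P + B := by
  rcases eq_or_ne B 0 with rfl | hB
  · rw [trPt_zero, add_zero]
  obtain ⟨C, hC⟩ := Set.Infinite.nonempty
    ((Set.infinite_univ (α := V.toAffine.Point)).sdiff
      ((((Set.finite_singleton (0 : V.toAffine.Point)).insert (P - B)).insert (-P - B) |>.insert
        (-B)).insert (-P - B) |>.union (finite_two_nsmul (-(P + B)))))
  simp only [Set.mem_sdiff, Set.mem_univ, true_and, Set.mem_union, Set.mem_insert_iff,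
    Set.mem_singleton_iff, Set.mem_ofPred_eq, not_or] at hC
  obtain ⟨⟨hC1, hC2, hC3, hC4, hC5⟩, hC6⟩ := hC
  have hBC : B + C ≠ 0 := fun e => hC2 (eq_neg_of_add_eq_zero_right e)
  have e1 : trPt (B + C) P = P + (B + C) := by
    refine trPt_generic hBC hP (fun e => hC4 (by rw [e]; abel)) (fun e => hC1 (by rw [e]; abel))
  have e2 : trPt (-C) (P + (B + C)) = P + B := by
    rw [trPt_generic (neg_ne_zero.2 hC5)]
    · abel
    · intro e
      refine hC1 (eq_sub_of_add_eq ?_)
      rw [neg_eq_of_add_eq_zero_right e]
      abel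
    · intro e
      refine hC6 ?_
      calc 2 • C = (P + (B + C)) + C - (P + B) := by abel
        _ = -C + C - (P + B) := by rw [e]
        _ = -(P + B) := by abel
    · rw [neg_neg]
      intro e
      refine hPB ?_
      calc P + B = P + (B + C) - C := by abel
        _ = 0 := by rw [e, sub_self]
  rw [← e1, ← trPt_trPt C B, trPt_trPt, add_neg_cancel, trPt_zero] at e2
  exact e2

lemma trPt_neg_self_of_ne {B : V.toAffine.Point} (h2 : B ≠ -B) : trPt B (-B) = 0 := by
  match B, h2 with
  | .zero, h2 => exact absurd rfl h2
  | .some xB yB hB, h2 =>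
    rw [Point.neg_some, trPt]
    obtain ⟨hx, hy⟩ := center_eq_some_iff.1 (center_placeAt
      (Point.some xB (V.toAffine.negY xB yB) ((nonsingular_neg ..).mpr hB)))
    set v := placeAt (Point.some xB (V.toAffine.negY xB yB) ((nonsingular_neg ..).mpr hB))
    have hXne : gx V ≠ algebraMap k _ xB := fun e =>
      transcendental_gx V (e ▸ isAlgebraic_algebraMap _)
    rw [genPoint, constPt, mapPoint_some, Point.add_of_X_ne hXne]
    refine evPt_of_notMem fun hmem => ?_
    have hyne : V.toAffine.negY xB yB - yB ≠ 0 := fun e => h2 (by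
      rw [Point.neg_some]; simp only [Point.some.injEq, true_and]; exact (sub_eq_zero.1 e).symm)
    have hN := hy.sub (hasVal_algebraMap v yB)
    have hD : HasVal v (gx V - algebraMap k _ xB) 0 := by
      simpa using hx.sub (hasVal_algebraMap v xB)
    have hli : HasVal v ((curveFF V).toAffine.slope (gx V) (algebraMap k _ xB) (gy V)
        (algebraMap k _ yB))⁻¹ 0 := by
      rw [slope_of_X_ne hXne, inv_div]
      simpa using hD.div hN hyne
    set L := (curveFF V).toAffine.slope (gx V) (algebraMap k _ xB) (gy V) (algebraMap k _ yB)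
      with hL
    have hL0 : L ≠ 0 := by
      rw [hL, slope_of_X_ne hXne]
      exact div_ne_zero (hN.ord_eq_zero hyne).1 (sub_ne_zero.2 hXne)
    have key : (1 : FF V) = L⁻¹ ^ 2 * ((curveFF V).toAffine.addX (gx V) (algebraMap k _ xB) L +
        algebraMap k _ V.a₂ + gx V + algebraMap k _ xB) - algebraMap k _ V.a₁ * L⁻¹ := by
      simp only [addX, WeierstrassCurve.map_a₁, WeierstrassCurve.map_a₂]
      field_simp
      ring
    have h := ((hli.pow 2).mul ((((hasVal_pval hmem).add (hasVal_algebraMap v V.a₂)).add hx).add
      (hasVal_algebraMap v xB))).sub ((hasVal_algebraMap v V.a₁).mul hli)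
    rw [← key] at h
    exact one_ne_zero ((hasVal_one v).unique (by simpa using h))

lemma trPt_neg_self (B : V.toAffine.Point) : trPt B (-B) = 0 := by
  rcases eq_or_ne B 0 with rfl | hB
  · rw [neg_zero, trPt_zero]
  obtain ⟨C, hC⟩ := Set.Infinite.nonempty
    ((Set.infinite_univ (α := V.toAffine.Point)).sdiff
      (((finite_two_nsmul (0 : V.toAffine.Point)).union (Set.finite_singleton 0)).union
        ((Set.finite_singleton (B : V.toAffine.Point)).union (finite_two_nsmul B))))
  simp only [Set.mem_sdiff, Set.mem_univ, true_and, Set.mem_union, Set.mem_singleton_iff,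
    Set.mem_ofPred_eq, not_or] at hC
  obtain ⟨⟨hC1, hC2⟩, hC3, -⟩ := hC
  have e1 : trPt (B - C) (-B) = -C := by
    rw [trPt_of_ne (neg_ne_zero.2 hB)]
    · abel
    · intro e
      refine hC2 ?_
      calc C = -(-B + (B - C)) := by abel
        _ = 0 := by rw [e, neg_zero]
  have e2 := trPt_neg_self_of_ne (B := C) fun e => hC1 (by rw [two_nsmul]; nth_rw 2 [e]; abel)
  rwa [← e1, trPt_trPt, sub_add_cancel] at e2

theorem trPt_eq (B P : V.toAffine.Point) : trPt B P = P + B := by
  by_cases hP : P = 0
  · subst hP
    rw [zero_add]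
    have h : trPt B (trPt (-B) (-(-B))) = trPt B 0 := by rw [trPt_neg_self]
    rw [trPt_trPt, neg_add_cancel, trPt_zero, neg_neg] at h
    exact h.symm
  by_cases hPB : P + B = 0
  · rw [hPB, eq_neg_of_add_eq_zero_left hPB, trPt_neg_self]
  exact trPt_of_ne hP hPB

/-- A translate takes the translated point as value. -/
theorem evPt_genPoint_add_constPt (v : Place k (FF V)) (B : V.toAffine.Point) :
    evPt v (genPoint V + constPt B) = center v + B := by
  have := trPt_eq B (center v)
  rwa [trPt, placeAt_center] at this

theorem evPt_add_constPt (v : Place k (FF V)) (f : (curveFF V).toAffine.Point)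
    (B : V.toAffine.Point) : evPt v (f + constPt B) = evPt v f + B := by
  by_cases hf : IsNonconst f
  · have := evPt_pullPoint' hf v (genPoint V + constPt B)
    rwa [map_add, pullPoint_genPoint, pullPoint_constPt, evPt_genPoint_add_constPt,
      center_placeAt] at this
  · simp only [IsNonconst, not_forall, not_not] at hf
    obtain ⟨A, rfl⟩ := hf
    rw [← map_add, evPt_constPt, evPt_constPt]

/-- Evaluation at a place is a group homomorphism. -/
theorem evPt_add (v : Place k (FF V)) (f g : (curveFF V).toAffine.Point) :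
    evPt v (f + g) = evPt v f + evPt v g := by
  obtain ⟨B, hB⟩ := Set.Infinite.nonempty
    ((Set.infinite_univ (α := V.toAffine.Point)).sdiff (Set.finite_singleton (-evPt v f)))
  simp only [Set.mem_sdiff, Set.mem_univ, true_and, Set.mem_singleton_iff] at hB
  obtain ⟨C, hC⟩ := Set.Infinite.nonempty
    ((Set.infinite_univ (α := V.toAffine.Point)).sdiff
      (((Set.finite_singleton (-evPt v g)).insert (evPt v f + B - evPt v g)).insert
        (-(evPt v f + B) - evPt v g)))
  simp only [Set.mem_sdiff, Set.mem_univ, true_and, Set.mem_insert_iff, Set.mem_singleton_iff,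
    not_or] at hC
  obtain ⟨hC1, hC2, hC3⟩ := hC
  have hf0 : evPt v (f + constPt B) ≠ 0 := by
    rw [evPt_add_constPt]; exact fun e => hB (eq_neg_of_add_eq_zero_right e)
  have hg0 : evPt v (g + constPt C) ≠ 0 := by
    rw [evPt_add_constPt]; exact fun e => hC3 (eq_neg_of_add_eq_zero_right e)
  match h₁ : evPt v (f + constPt B), h₂ : evPt v (g + constPt C) with
  | .zero, _ => exact absurd h₁ hf0
  | _, .zero => exact absurd h₂ hg0
  | .some a₁ b₁ n₁, .some a₂ b₂ n₂ =>
    have hne : a₁ ≠ a₂ := fun e => by
      rcases (Point.X_eq_iff (h₁ := n₁) (h₂ := n₂)).mp e with e' | e'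
      · rw [← h₁, ← h₂, evPt_add_constPt, evPt_add_constPt] at e'
        exact hC2 (by rw [e']; abel)
      · rw [← h₁, ← h₂, evPt_add_constPt, evPt_add_constPt] at e'
        exact hC1 (by rw [e']; abel)
    have := evPt_add_of_ne h₁ h₂ hne
    rw [evPt_add_constPt, evPt_add_constPt,
      show f + constPt B + (g + constPt C) = (f + g) + constPt (B + C) by rw [map_add]; abel,
      evPt_add_constPt] at this
    have e : evPt v f + B + (evPt v g + C) = evPt v f + evPt v g + (B + C) := by abel
    rw [e] at this
    exact add_right_cancel this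

/-- Evaluation at a place, as a homomorphism. -/
def evHom (v : Place k (FF V)) : (curveFF V).toAffine.Point →+ V.toAffine.Point where
  toFun := evPt v
  map_zero' := rfl
  map_add' := evPt_add v

end Translation

end FermatAgent.EC
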