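import Fermat.Agent.EC.XOnly

/-!
# Multiples of a point whose division values never vanish

`wEDS V x y n` is the value at `(x, y)` of the `n`-th division polynomial.
-/

set_option autoImplicit false

open Polynomial WeierstrassCurve WeierstrassCurve.Affine

namespace FermatAgent.EC

universe u

variable {F : Type u} [Field F] (V : WeierstrassCurve F)

/-- The value of `ψ₂` at `(x, y)`. -/
def psiTwoVal (x y : F) : F := 2 * y + V.a₁ * x + V.a₃

/-- The value of `ψₙ` at `(x, y)`. -/
noncomputable def wEDS (x y : F) (n : ℤ) : F :=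
  normEDS (psiTwoVal V x y) (V.Ψ₃.eval x) (V.preΨ₄.eval x) n

variable {V} {x y : F}

/-- On the curve the square of the value of `ψ₂` is `Ψ₂²(x)`. -/
lemma psiTwoVal_sq (h : V.toAffine.Equation x y) : psiTwoVal V x y ^ 2 = V.Ψ₂Sq.eval x := by
  rw [equation_iff] at h
  simp [psiTwoVal, Ψ₂Sq, b₂, b₄, b₆]
  linear_combination 4 * h

lemma preΨ_eval (h : V.toAffine.Equation x y) (n : ℤ) :
    (V.preΨ n).eval x =
      preNormEDS (psiTwoVal V x y ^ 4) (V.Ψ₃.eval x) (V.preΨ₄.eval x) n := by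
  have := map_preNormEDS (f := evalRingHom x) (V.Ψ₂Sq ^ 2) V.Ψ₃ V.preΨ₄ n
  simp only [coe_evalRingHom, eval_pow] at this
  rw [preΨ, this, ← psiTwoVal_sq h, ← pow_mul]

lemma wEDS_eq (h : V.toAffine.Equation x y) (n : ℤ) :
    wEDS V x y n = (V.preΨ n).eval x * if Even n then psiTwoVal V x y else 1 := by
  rw [wEDS, normEDS, preΨ_eval h]

/-- On the curve `ΨSqₙ(x)` is the square of the value of `ψₙ`. -/
lemma ΨSq_eval (h : V.toAffine.Equation x y) (n : ℤ) :
    (V.ΨSq n).eval x = wEDS V x y n ^ 2 := by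
  rw [wEDS_eq h, ΨSq, eval_mul, eval_pow]
  split_ifs <;> simp [← psiTwoVal_sq h, mul_pow]

/-- On the curve `Φₙ(x) = x ψₙ² - ψₙ₊₁ ψₙ₋₁`. -/
lemma Φ_eval (h : V.toAffine.Equation x y) (n : ℤ) :
    (V.Φ n).eval x = x * wEDS V x y n ^ 2 - wEDS V x y (n + 1) * wEDS V x y (n - 1) := by
  rw [← ΨSq_eval h, wEDS_eq h, wEDS_eq h, WeierstrassCurve.Φ]
  simp only [Int.even_add_one, Int.even_sub_one, ite_not]
  split_ifs <;> simp [← psiTwoVal_sq h]
  all_goals ring

lemma wEDS_sum_two (h : V.toAffine.Equation x y) :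
    2 * x * wEDS V x y 3 ^ 2 - wEDS V x y 4 * wEDS V x y 2 =
      biSum V x ((V.Φ 2).eval x) (V.Ψ₂Sq.eval x) := by
  have hb := psiTwoVal_sq h
  have h8 := V.b_relation
  simp only [wEDS, normEDS_three, normEDS_four, normEDS_two]
  rw [mul_assoc (V.preΨ₄.eval x), ← sq, hb]
  simp [biSum, Ψ₃, preΨ₄, Ψ₂Sq]
  grobner

variable [DecidableEq F]

lemma diff_eq_of_multiples (P : V.toAffine.Point) (M : ℕ) (W X : ℕ → F)
    (hX2 : X 2 * W 2 ^ 2 = (V.Φ 2).eval x) (hW2 : W 2 ^ 2 = V.Ψ₂Sq.eval x)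
    (hX1 : X 1 = x)
    (hne : ∀ k, 1 ≤ k → k < M → W k ≠ 0)
    (hX : ∀ k, 1 ≤ k → k < M → (x - X k) * W k ^ 2 = W (k + 1) * W (k - 1))
    (hP : ∀ k, 1 ≤ k → k < M → ∃ y' h', k • P = Point.some (X k) y' h')
    (hW1 : W 1 = 1) :
    ∀ b, 1 ≤ b → ∀ a, b < a → a + b ≤ M →
      (X b - X a) * (W a ^ 2 * W b ^ 2) = W (a + b) * W (a - b) := by
  have htri : ∀ a b, 1 ≤ b → b < a → a + b < M → X a ≠ X b → ∀ t,
      (t - X (a + b)) * (t - X (a - b)) * (X a - X b) ^ 2 = triQuad V t (X a) (X b) := by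
    intro a b hb hab hM hxne t
    obtain ⟨ya, ha, hPa⟩ := hP a (by omega) (by omega)
    obtain ⟨yb, hb', hPb⟩ := hP b hb (by omega)
    obtain ⟨ys, hs', hPs⟩ := hP (a + b) (by omega) hM
    obtain ⟨yd, hd', hPd⟩ := hP (a - b) (by omega) (by omega)
    obtain ⟨s, d, sy, dy, hs, hd, e1, e2, -, -, e5⟩ := exists_add_sub ha hb' hxne
    rw [← hPa, ← hPb, ← add_nsmul, hPs, Point.some.injEq] at e1
    rw [← hPa, ← hPb, sub_eq_add_neg, ← sub_nsmul _ hab.le, hPd, Point.some.injEq] at e2
    rw [e1.1, e2.1, e5]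
  intro b
  induction b using Nat.strong_induction_on with
  | _ b ih =>
    intro hb a hab hM
    rcases (by omega : b = 1 ∨ b = 2 ∨ 3 ≤ b) with rfl | rfl | hb3
    · rw [hX1, hW1]
      simpa using hX a (by omega) (by omega)
    · have h1 := hX (a + 1) (by omega) (by omega)
      have h2 := hX (a - 1) (by omega) (by omega)
      have h0 := hX a (by omega) (by omega)
      simp only [show a + 1 + 1 = a + 2 by omega, show a + 1 - 1 = a by omega] at h1
      simp only [show a - 1 + 1 = a by omega, show a - 1 - 1 = a - 2 by omega] at h2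
      have hxa : X a ≠ X 1 := by
        intro he
        rw [he, hX1, sub_self, zero_mul] at h0
        exact mul_ne_zero (hne _ (by omega) (by omega)) (hne _ (by omega) (by omega)) h0.symm
      have ht := htri a 1 le_rfl (by omega) (by omega) hxa x
      rw [hX1, triQuad_rotate, triQuad, biSum_self, biProd_self, sub_self] at ht
      apply mul_right_cancel₀ (pow_ne_zero 2 (hne a (by omega) (by omega)))
      linear_combination -(W a ^ 4) * ht + W (a + 2) * W a * h2 +
        (x - X (a - 1)) * W (a - 1) ^ 2 * h1 + (W a ^ 4) * hX2 - (X a * W a ^ 4) * hW2 +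
        (x - X (a + 1)) * (x - X (a - 1)) *
          ((x - X a) * W a ^ 2 + W (a + 1) * W (a - 1)) * h0
    · obtain ⟨c, rfl⟩ : ∃ c, b = c + 1 := ⟨b - 1, by omega⟩
      have hc := ih c (by omega) (by omega) a (by omega) (by omega)
      have hc1 := ih (c - 1) (by omega) (by omega) a (by omega) (by omega)
      have h1 := hX (a + c) (by omega) (by omega)
      have h2 := hX (a - c) (by omega) (by omega)
      have h0 := hX c (by omega) (by omega)
      simp only [show a + c + 1 = a + (c + 1) by omega,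
        show a + c - 1 = a + (c - 1) by omega] at h1
      simp only [show a - c + 1 = a - (c - 1) by omega,
        show a - c - 1 = a - (c + 1) by omega] at h2
      have hxc : X c ≠ X 1 := by
        intro he
        rw [he, hX1, sub_self, zero_mul] at h0
        exact mul_ne_zero (hne _ (by omega) (by omega)) (hne _ (by omega) (by omega)) h0.symm
      have hac : X a ≠ X c := by
        intro he
        rw [he, sub_self, zero_mul] at hc
        exact mul_ne_zero (hne _ (by omega) (by omega)) (hne _ (by omega) (by omega)) hc.symm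
      have t1 := htri c 1 le_rfl (by omega) (by omega) hxc (X a)
      have t2 := htri a c (by omega) (by omega) (by omega) hac x
      rw [hX1, triQuad_rotate, triQuad_rotate] at t1
      rw [← t2] at t1
      have hne' : W (a + (c - 1)) * W (a - (c - 1)) ≠ 0 :=
        mul_ne_zero (hne _ (by omega) (by omega)) (hne _ (by omega) (by omega))
      apply mul_right_cancel₀ hne'
      linear_combination W a ^ 4 * W c ^ 4 * t1
        - (X (c + 1) - X a) * W a ^ 2 * W (c + 1) ^ 2 * hc1
        - (X a - X (c + 1)) * (X a - X (c - 1)) * W a ^ 4 *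
          ((x - X c) * W c ^ 2 + W (c + 1) * W (c - 1)) * h0
        + (x - X (a + c)) * (x - X (a - c)) *
          ((X c - X a) * W a ^ 2 * W c ^ 2 + W (a + c) * W (a - c)) * hc
        + W (a + (c + 1)) * W (a + (c - 1)) * h2
        + (x - X (a - c)) * W (a - c) ^ 2 * h1

/-- The duplication formula: `x(2P) ψ₂² = Φ₂(x)`. -/
lemma addX_self_mul (h : V.toAffine.Equation x y) (hy : y ≠ V.toAffine.negY x y) :
    V.toAffine.addX x x (V.toAffine.slope x x y y) * psiTwoVal V x y ^ 2 = (V.Φ 2).eval x := by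
  rw [slope_of_Y_ne rfl hy]
  rw [equation_iff] at h
  have hd : y - V.toAffine.negY x y = psiTwoVal V x y := by
    simp only [negY, psiTwoVal]; ring
  have hb : psiTwoVal V x y ≠ 0 := hd ▸ sub_ne_zero.2 hy
  rw [hd]
  simp only [addX]
  field_simp
  simp [psiTwoVal, b₄, b₆, b₈]
  linear_combination -(V.a₁ ^ 2 + 4 * V.a₂ + 8 * x) * h

/-- The expected abscissa of `k • (x, y)`. -/
private noncomputable def quotX (V : WeierstrassCurve F) (x y : F) (k : ℕ) : F :=
  x - wEDS V x y (k + 1 : ℕ) * wEDS V x y (k - 1 : ℕ) / wEDS V x y k ^ 2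

omit [DecidableEq F] in
/-- The defining relation of `quotX`. -/
private lemma sub_quotX_mul (hw : ∀ n : ℕ, n ≠ 0 → wEDS V x y n ≠ 0) {k : ℕ} (hk : 1 ≤ k) :
    (x - quotX V x y k) * wEDS V x y k ^ 2 =
      wEDS V x y (k + 1 : ℕ) * wEDS V x y (k - 1 : ℕ) := by
  simp only [quotX, sub_sub_cancel]
  rw [div_mul_cancel₀]
  exact pow_ne_zero 2 (hw k (by omega))

omit [DecidableEq F] in
/-- The abscissa of the point itself. -/
private lemma quotX_one : quotX V x y 1 = x := by
  have h0 : wEDS V x y ((0 : ℕ) : ℤ) = 0 := normEDS_zero ..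
  simp only [quotX, Nat.sub_self, h0, mul_zero, zero_div, sub_zero]

omit [DecidableEq F] in
/-- The abscissa of the double is `Φ₂ / ψ₂²`. -/
private lemma quotX_two_mul (he : V.toAffine.Equation x y)
    (hw : ∀ n : ℕ, n ≠ 0 → wEDS V x y n ≠ 0) :
    quotX V x y 2 * wEDS V x y (2 : ℕ) ^ 2 = (V.Φ 2).eval x := by
  have hΦ := Φ_eval he 2
  norm_num at hΦ
  have h2 := sub_quotX_mul hw (k := 2) (by omega)
  simp only [Nat.reduceAdd, Nat.add_one_sub_one, Nat.cast_ofNat, Nat.cast_one] at h2 ⊢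
  simp only [WeierstrassCurve.Φ_two] at hΦ ⊢
  simp
  linear_combination -hΦ - h2

/-- The double of the point. -/
private lemma two_nsmul_eq_quotX (h : V.toAffine.Nonsingular x y)
    (hw : ∀ n : ℕ, n ≠ 0 → wEDS V x y n ≠ 0) :
    ∃ y' h', 2 • Point.some x y h = Point.some (quotX V x y 2) y' h' := by
  have hy : y ≠ V.toAffine.negY x y := by
    intro hy
    apply hw 2 (by omega)
    simp [wEDS, psiTwoVal, negY] at hy ⊢
    linear_combination hy
  have hx2 : V.toAffine.addX x x (V.toAffine.slope x x y y) = quotX V x y 2 := by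
    apply mul_right_cancel₀ (pow_ne_zero 2 (hw 2 (by omega)))
    rw [quotX_two_mul h.1 hw, ← addX_self_mul h.1 hy]
    simp [wEDS]
  rw [two_nsmul, Point.add_self_of_Y_ne hy]
  simp only [Point.some.injEq, hx2]
  exact ⟨_, hx2 ▸ nonsingular_add h h (fun hxy => hy hxy.2), trivial, rfl⟩

omit [DecidableEq F] in
/-- The case of `3 • P`: the sum of the abscissae of `3 • P` and `P` determines `ψ₄`. -/
private lemma div_eq_wEDS_four (he : V.toAffine.Equation x y)
    (hw : ∀ n : ℕ, n ≠ 0 → wEDS V x y n ≠ 0) {s : F}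
    (e : (s + x) * (quotX V x y 2 - x) ^ 2 = biSum V (quotX V x y 2) x 1) :
    (x - s) * wEDS V x y (3 : ℕ) ^ 2 / wEDS V x y (2 : ℕ) = wEDS V x y (4 : ℕ) := by
  have key := wEDS_sum_two he
  have h3 := sub_quotX_mul hw (k := 2) (by omega)
  rw [← quotX_two_mul he hw, show V.Ψ₂Sq.eval x = wEDS V x y (2 : ℕ) ^ 2 by
    simp [wEDS, psiTwoVal_sq he], biSum_scale] at key
  have key' : (2 * x) * wEDS V x y (3 : ℕ) ^ 2 - wEDS V x y (4 : ℕ) * wEDS V x y (2 : ℕ) =
      biSum V x (quotX V x y 2) 1 * (wEDS V x y (2 : ℕ) ^ 2) ^ 2 := by exact_mod_cast key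
  have hsym : biSum V x (quotX V x y 2) 1 = biSum V (quotX V x y 2) x 1 := by
    simp only [biSum]; ring
  rw [hsym, ← e] at key'
  have hw1 : wEDS V x y ((1 : ℕ) : ℤ) = 1 := normEDS_one ..
  simp only [Nat.reduceAdd, Nat.reduceSub, hw1, mul_one] at h3
  rw [div_eq_iff (hw 2 (by omega))]
  linear_combination key' +
    (s + x) * ((x - quotX V x y 2) * wEDS V x y (2 : ℕ) ^ 2 + wEDS V x y (3 : ℕ)) * h3

omit [DecidableEq F] in
/-- A sequence which agrees with the division values below `M` and satisfies their difference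
identities agrees with them at `M`, by the recurrences for even and odd indices. -/
private lemma eq_wEDS_of_diff (hw : ∀ n : ℕ, n ≠ 0 → wEDS V x y n ≠ 0) {M : ℕ} (hM : 5 ≤ M)
    {W X : ℕ → F} (hWw : ∀ k : ℕ, k ≠ M → W k = wEDS V x y k)
    (hX' : ∀ k, 1 ≤ k → k < M → (x - X k) * W k ^ 2 = W (k + 1) * W (k - 1))
    (hD : ∀ b, 1 ≤ b → ∀ a, b < a → a + b ≤ M →
      (X b - X a) * (W a ^ 2 * W b ^ 2) = W (a + b) * W (a - b)) :
    W M = wEDS V x y M := by
  let w : ℕ → F := fun k => wEDS V x y k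
  have hw1 : wEDS V x y ((1 : ℕ) : ℤ) = 1 := normEDS_one ..
  obtain ⟨m, hm | hm⟩ : ∃ m, M = 2 * m ∨ M = 2 * m + 1 :=
    ⟨M / 2, by omega⟩
  · have hd' := hD (m - 1) (by omega) (m + 1) (by omega) (by omega)
    have ha := hX' (m + 1) (by omega) (by omega)
    have hb := hX' (m - 1) (by omega) (by omega)
    rw [show m + 1 + (m - 1) = M by omega, show m + 1 - (m - 1) = 2 by omega] at hd'
    rw [show m + 1 - 1 = m by omega] at ha
    rw [show m - 1 + 1 = m by omega] at hb
    have hev := normEDS_even (psiTwoVal V x y) (V.Ψ₃.eval x) (V.preΨ₄.eval x) m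
    simp only [hWw _ (by omega : (m + 1) ≠ M), hWw _ (by omega : (m - 1) ≠ M),
      hWw _ (by omega : m ≠ M), hWw _ (by omega : m + 1 + 1 ≠ M),
      hWw _ (by omega : m - 1 - 1 ≠ M), hWw _ (by omega : 2 ≠ M)] at hd' ha hb
    have hev' : w M * w 2 = w (m - 1) ^ 2 * w m * w (m + 1 + 1) -
        w (m - 1 - 1) * w m * w (m + 1) ^ 2 := by
      have e1 : (((m - 1 : ℕ) : ℤ)) = (m : ℤ) - 1 := by omega
      have e2 : (((m - 1 - 1 : ℕ) : ℤ)) = (m : ℤ) - 2 := by omega
      have e3 : (((m + 1 + 1 : ℕ) : ℤ)) = (m : ℤ) + 2 := by omega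
      have e4 : ((M : ℕ) : ℤ) = 2 * (m : ℤ) := by omega
      simp only [w, e1, e2, e3, e4, Nat.cast_add, Nat.cast_one]
      rw [show wEDS V x y ((2 : ℕ) : ℤ) = psiTwoVal V x y by simp [wEDS]]
      exact hev
    apply mul_right_cancel₀ (hw 2 (by omega) : w 2 ≠ 0)
    linear_combination -hd' - hev' + w (m - 1) ^ 2 * ha - w (m + 1) ^ 2 * hb
  · have hd' := hD m (by omega) (m + 1) (by omega) (by omega)
    have ha := hX' (m + 1) (by omega) (by omega)
    have hb := hX' m (by omega) (by omega)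
    rw [show m + 1 + m = M by omega, show m + 1 - m = 1 by omega] at hd'
    rw [show m + 1 - 1 = m by omega] at ha
    have hod := normEDS_odd (psiTwoVal V x y) (V.Ψ₃.eval x) (V.preΨ₄.eval x) m
    simp only [hWw _ (by omega : (m + 1) ≠ M), hWw _ (by omega : (m - 1) ≠ M),
      hWw _ (by omega : m ≠ M), hWw _ (by omega : m + 1 + 1 ≠ M),
      hWw _ (by omega : 1 ≠ M)] at hd' ha hb
    rw [hw1, mul_one] at hd'
    have hod' : w M = w (m + 1 + 1) * w m ^ 3 - w (m - 1) * w (m + 1) ^ 3 := by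
      have e1 : (((m - 1 : ℕ) : ℤ)) = (m : ℤ) - 1 := by omega
      have e3 : (((m + 1 + 1 : ℕ) : ℤ)) = (m : ℤ) + 2 := by omega
      have e4 : ((M : ℕ) : ℤ) = 2 * (m : ℤ) + 1 := by omega
      simp only [w, e1, e3, e4, Nat.cast_add, Nat.cast_one]
      exact hod
    linear_combination -hd' - hod' + w m ^ 2 * ha - w (m + 1) ^ 2 * hb

/-- If no division value at `P = (x, y)` vanishes, then `x(nP) = Φₙ(x) / ΨSqₙ(x)`. -/
theorem nsmul_of_wEDS_ne_zero (h : V.toAffine.Nonsingular x y)
    (hw : ∀ n : ℕ, n ≠ 0 → wEDS V x y n ≠ 0) (n : ℕ) (hn : 1 ≤ n) :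
    ∃ y' h', n • Point.some x y h =
      Point.some (x - wEDS V x y (n + 1) * wEDS V x y (n - 1) / wEDS V x y n ^ 2) y' h' := by
  set P := Point.some x y h with hPdef
  suffices ∀ N, ∀ k, 1 ≤ k → k ≤ N → ∃ y' h', k • P = Point.some (quotX V x y k) y' h' by
    have := this n n hn le_rfl
    simpa [quotX, Nat.cast_sub hn] using this
  intro N
  induction N with
  | zero => intro k hk hk'; omega
  | succ N ih =>
    intro k hk hk'
    rcases (by omega : k ≤ N ∨ k = 1 ∨ (k = N + 1 ∧ k = 2) ∨ (k = N + 1 ∧ 2 ≤ N)) with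
      hkN | rfl | ⟨-, rfl⟩ | ⟨rfl, hN⟩
    · exact ih k hk hkN
    · exact ⟨y, quotX_one (V := V) (y := y) ▸ h, by simp [P, quotX_one]⟩
    · exact two_nsmul_eq_quotX h hw
    obtain ⟨yN, hN', hPN⟩ := ih N (by omega) le_rfl
    have hne : quotX V x y N ≠ x := by
      intro he'
      have := sub_quotX_mul hw (k := N) (by omega)
      rw [he', sub_self, zero_mul] at this
      exact mul_ne_zero (hw _ (by omega)) (hw _ (by omega)) this.symm
    obtain ⟨s, d, sy, dy, hs, hd, e1, e2, e3, -, -⟩ := exists_add_sub hN' h hne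
    rw [← hPN, ← hPdef, ← succ_nsmul] at e1
    suffices hs' : s = quotX V x y (N + 1) by
      subst hs'
      exact ⟨_, _, e1⟩
    let V' : F := (x - s) * wEDS V x y (N + 1 : ℕ) ^ 2 / wEDS V x y N
    suffices hV : V' = wEDS V x y (N + 2 : ℕ) by
      have := sub_quotX_mul hw (k := N + 1) (by omega)
      rw [show N + 1 + 1 = N + 2 by rfl, show N + 1 - 1 = N by rfl, ← hV,
        div_mul_cancel₀ _ (hw N (by omega))] at this
      have := mul_right_cancel₀ (pow_ne_zero 2 (hw (N + 1) (by omega))) this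
      linear_combination this
    rcases (by omega : N = 2 ∨ 3 ≤ N) with rfl | hN3
    · -- `3 • P`
      have hd' : d = x := by
        rw [← hPN, two_nsmul, ← hPdef, add_sub_cancel_right] at e2
        simp only [P, Point.some.injEq] at e2
        exact e2.1.symm
      rw [hd'] at e3
      exact div_eq_wEDS_four h.1 hw e3
    set M := N + 2 with hM
    let W : ℕ → F := fun k => if k = M then V' else wEDS V x y k
    let X : ℕ → F := fun k => if k = N + 1 then s else quotX V x y k
    have hWw : ∀ k : ℕ, k ≠ M → W k = wEDS V x y k := fun k hk => if_neg hk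
    have hX' : ∀ k, 1 ≤ k → k < M → (x - X k) * W k ^ 2 = W (k + 1) * W (k - 1) := by
      intro k hk hkM
      rw [hWw k (by omega), hWw (k - 1) (by omega)]
      by_cases hk1 : k = N + 1
      · subst hk1
        simp only [X, W, V', if_true, show N + 1 + 1 = M by rfl, show N + 1 - 1 = N by rfl]
        rw [div_mul_cancel₀ _ (hw N (by omega))]
      · rw [hWw (k + 1) (by omega)]
        simp only [X, if_neg hk1]
        exact sub_quotX_mul hw hk
    have hD := diff_eq_of_multiples (V := V) (x := x) P M W X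
      (by simpa [X, W, show ¬(2 = M) by omega, show ¬(2 = N + 1) by omega]
        using quotX_two_mul h.1 hw)
      (by rw [hWw 2 (by omega)]; simp [wEDS, psiTwoVal_sq h.1])
      (by simp only [X, if_neg (show ¬(1 = N + 1) by omega), quotX_one])
      (fun k hk hkM => by rw [hWw k (by omega)]; exact hw k (by omega))
      hX'
      (fun k hk hkM => by
        by_cases hk1 : k = N + 1
        · subst hk1; simp only [X, if_true]; exact ⟨sy, hs, e1⟩
        · simp only [X, if_neg hk1]; exact ih k hk (by omega))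
      (by rw [hWw 1 (by omega)]; exact normEDS_one ..)
    exact (if_pos rfl).symm.trans (eq_wEDS_of_diff hw (by omega) hWw hX' hD)

end FermatAgent.EC
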