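import Fermat.Agent.EC.Endo

/-!
# Semilinear automorphisms of the function field

An automorphism of the constants fixing the coefficients of the curve acts on the function
field, fixing `x` and `y`; orders of functions are equivariant.
-/

set_option autoImplicit false

noncomputable section

open Polynomial WeierstrassCurve WeierstrassCurve.Affine
open AlgebraicCurve FermatAgent.Curve

namespace FermatAgent.EC

universe u

section Transport

variable {K : Type*} {F : Type*} [Field K] [Field F] [Algebra K F]

/-- Orders are preserved by an automorphism of the field carrying one place to another. -/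
theorem ord_comap_ringEquiv {v w : Place K F} (τ : F ≃+* F)
    (h : ∀ u, u ∈ w.toValuationSubring ↔ τ u ∈ v.toValuationSubring) (u : F) :
    v.ord (τ u) = w.ord u := by
  let e : w.toValuationSubring ≃+* v.toValuationSubring :=
    { toFun := fun a => ⟨τ a, (h a).1 a.2⟩
      invFun := fun a => ⟨τ.symm a, (h _).2 (by rw [τ.apply_symm_apply]; exact a.2)⟩
      left_inv := fun a => Subtype.ext (τ.symm_apply_apply a)
      right_inv := fun a => Subtype.ext (τ.apply_symm_apply a)
      map_mul' := fun a b => Subtype.ext (map_mul τ _ _)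
      map_add' := fun a b => Subtype.ext (map_add τ _ _) }
  obtain ⟨π, hπ⟩ := IsDiscreteValuationRing.exists_irreducible w.toValuationSubring
  have hπ0 : (π : F) ≠ 0 := by simpa [ne_eq, ZeroMemClass.coe_eq_zero] using hπ.ne_zero
  rcases eq_or_ne u 0 with rfl | hu
  · simp
  obtain ⟨a, ha⟩ := w.exists_unit_mul_zpow hu hπ
  have key : ∀ (p : Place K F) (b : p.toValuationSubring), IsUnit b → p.ord (b : F) = 0 := by
    intro p b hb
    rw [Place.ord, (p.adicValuation_coe_eq_one_iff b).2 hb]; simp
  have key1 : ∀ (p : Place K F) (b : p.toValuationSubring), Irreducible b → p.ord (b : F) = 1 := by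
    intro p b hb
    rw [Place.ord, p.adicValuation_coe_irreducible hb]; simp
  have hπ' : Irreducible (e π) := (MulEquiv.irreducible_iff e).2 hπ
  have hau : IsUnit (e (a : w.toValuationSubring)) := a.isUnit.map e
  have ea : τ ((a : w.toValuationSubring) : F) = (e (a : w.toValuationSubring) : F) := rfl
  have eπ : τ (π : F) = (e π : F) := rfl
  generalize hm : w.ord u = m at ha
  have ha0 : τ ((a : w.toValuationSubring) : F) ≠ 0 := by
    rw [_root_.map_ne_zero]
    intro h0; exact hu (by rw [ha, h0, zero_mul])
  rw [ha, map_mul, map_zpow₀, v.ord_mul ha0 (zpow_ne_zero _ ((_root_.map_ne_zero _).2 hπ0)),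
    Place.ord_zpow, ea, key v _ hau, eπ, key1 v _ hπ', zero_add, mul_one]

/-- The image of a place under an automorphism fixing the constants setwise. -/
theorem exists_comap_place (v : Place K F) (τ : F ≃+* F)
    (hτ : ∀ a : K, ∃ b : K, τ (algebraMap K F a) = algebraMap K F b) :
    ∃ w : Place K F, ∀ u, u ∈ w.toValuationSubring ↔ τ u ∈ v.toValuationSubring := by
  let R : ValuationSubring F := v.toValuationSubring.comap τ.toRingHom
  have hR : R ≠ ⊤ := fun htop => v.ne_top' (SetLike.ext fun x => ⟨fun _ => trivial, fun _ => by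
    have : τ.symm x ∈ R := htop ▸ ValuationSubring.mem_top _
    simpa [R, ValuationSubring.mem_comap] using this⟩)
  let e : v.toValuationSubring →+* R :=
    { toFun := fun a => ⟨τ.symm a, by
        show τ (τ.symm (a : F)) ∈ v.toValuationSubring
        rw [τ.apply_symm_apply]; exact a.2⟩
      map_one' := Subtype.ext (map_one τ.symm)
      map_mul' := fun a b => Subtype.ext (map_mul τ.symm _ _)
      map_zero' := Subtype.ext (map_zero τ.symm)
      map_add' := fun a b => Subtype.ext (map_add τ.symm _ _) }
  have he : Function.Surjective e := fun a =>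
    ⟨⟨τ a, a.2⟩, Subtype.ext (τ.symm_apply_apply a)⟩
  refine ⟨⟨R, fun a => ?_, hR, IsPrincipalIdealRing.of_surjective e he⟩, fun u => Iff.rfl⟩
  show τ (algebraMap K F a) ∈ v.toValuationSubring
  obtain ⟨b, hb⟩ := hτ a
  rw [hb]; exact v.algebraMap_mem' b

end Transport

variable {k : Type u} [Field k] {V : WeierstrassCurve k}

omit [Field k] in
/-- A curve fixed by `σ` is fixed by its inverse. -/
lemma map_symm_eq {k : Type u} [CommRing k] {V : WeierstrassCurve k} {σ : k ≃+* k}
    (h : V.map σ.toRingHom = V) : V.map σ.symm.toRingHom = V := by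
  conv_lhs => rw [← h]
  rw [WeierstrassCurve.map_map, RingEquiv.toRingHom_eq_coe, RingEquiv.toRingHom_eq_coe,
    RingEquiv.symm_comp]
  rfl

lemma map_polynomial_eq {σ : k →+* k} (h : V.map σ = V) :
    V.toAffine.polynomial.map (mapRingHom σ) = V.toAffine.polynomial := by
  exact (Affine.map_polynomial (W := V.toAffine) σ).symm.trans
    (congrArg (fun W : WeierstrassCurve k => W.toAffine.polynomial) h)

/-- The action of `σ` on the coordinate ring. -/
def semiCR (σ : k →+* k) (h : V.map σ = V) :
    V.toAffine.CoordinateRing →+* V.toAffine.CoordinateRing :=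
  AdjoinRoot.lift ((AdjoinRoot.of V.toAffine.polynomial).comp (mapRingHom σ))
    (AdjoinRoot.root _) (by
      rw [← Polynomial.eval₂_map, map_polynomial_eq h, AdjoinRoot.eval₂_root])

lemma semiCR_mk (σ : k →+* k) (h : V.map σ = V) (p : k[X][X]) :
    semiCR σ h (CoordinateRing.mk V.toAffine p) =
      CoordinateRing.mk V.toAffine (p.map (mapRingHom σ)) := by
  rw [semiCR]
  erw [AdjoinRoot.lift_mk]
  rw [← Polynomial.eval₂_map]
  exact AdjoinRoot.aeval_eq _

lemma semiCR_comp (σ τ : k →+* k) (h : V.map σ = V) (h' : V.map τ = V)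
    (he : σ.comp τ = RingHom.id k) : (semiCR σ h).comp (semiCR τ h') = RingHom.id _ := by
  refine RingHom.ext fun a => ?_
  obtain ⟨p, rfl⟩ := AdjoinRoot.mk_surjective a
  show semiCR σ h (semiCR τ h' (CoordinateRing.mk V.toAffine p)) = _
  rw [semiCR_mk, semiCR_mk, Polynomial.map_map, mapRingHom_comp, he, mapRingHom_id,
    Polynomial.map_id]
  rfl

/-- The action of `σ` on the function field. -/
def semiFF (σ : k ≃+* k) (h : V.map σ.toRingHom = V) : FF V ≃+* FF V :=
  IsFractionRing.ringEquivOfRingEquiv (A := V.toAffine.CoordinateRing)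
    (B := V.toAffine.CoordinateRing)
    (RingEquiv.ofRingHom (semiCR σ.toRingHom h) (semiCR σ.symm.toRingHom (map_symm_eq h))
      (semiCR_comp _ _ _ _ (by ext; simp)) (semiCR_comp _ _ _ _ (by ext; simp)))

lemma semiFF_algebraMap_mk (σ : k ≃+* k) (h : V.map σ.toRingHom = V) (p : k[X][X]) :
    semiFF σ h (algebraMap V.toAffine.CoordinateRing (FF V) (CoordinateRing.mk V.toAffine p)) =
      algebraMap V.toAffine.CoordinateRing (FF V)
        (CoordinateRing.mk V.toAffine (p.map (mapRingHom σ.toRingHom))) := by
  rw [semiFF, IsFractionRing.ringEquivOfRingEquiv_algebraMap]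
  exact congrArg _ (semiCR_mk _ h p)

/-- The semilinear action restricts to `σ` on constants. -/
lemma semiFF_algebraMap (σ : k ≃+* k) (h : V.map σ.toRingHom = V) (c : k) :
    semiFF σ h (algebraMap k (FF V) c) = algebraMap k (FF V) (σ c) := by
  rw [← algebraMap_mk_CC, semiFF_algebraMap_mk, Polynomial.map_C, coe_mapRingHom,
    Polynomial.map_C, algebraMap_mk_CC]
  rfl

lemma semiFF_gx (σ : k ≃+* k) (h : V.map σ.toRingHom = V) : semiFF σ h (gx V) = gx V := by
  rw [gx, semiFF_algebraMap_mk, Polynomial.map_C, coe_mapRingHom, Polynomial.map_X]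

lemma semiFF_gy (σ : k ≃+* k) (h : V.map σ.toRingHom = V) : semiFF σ h (gy V) = gy V := by
  rw [gy, semiFF_algebraMap_mk, Polynomial.map_X]

lemma map_semiFF (σ : k ≃+* k) (h : V.map σ.toRingHom = V) :
    (curveFF V).map (semiFF σ h).toRingHom = curveFF V := by
  rw [curveFF, WeierstrassCurve.map_map,
    show (semiFF σ h).toRingHom.comp (algebraMap k (FF V)) =
      (algebraMap k (FF V)).comp σ.toRingHom from RingHom.ext fun c => semiFF_algebraMap σ h c,
    ← WeierstrassCurve.map_map, h]

lemma mapPoint_semiFF_genPoint [V.IsElliptic] (σ : k ≃+* k) (h : V.map σ.toRingHom = V) :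
    mapPoint (semiFF σ h).toRingHom (map_semiFF σ h) (genPoint V) = genPoint V := by
  rw [genPoint, mapPoint_some]
  simp only [Point.some.injEq]
  exact ⟨semiFF_gx σ h, semiFF_gy σ h⟩

variable [DecidableEq k]

lemma mapPoint_semiFF_constPt (σ : k ≃+* k) (h : V.map σ.toRingHom = V)
    (A : V.toAffine.Point) :
    mapPoint (semiFF σ h).toRingHom (map_semiFF σ h) (constPt A) =
      constPt (mapPoint σ.toRingHom h A) := by
  rw [constPt, mapPoint_mapPoint, mapPoint_mapPoint]
  exact mapPoint_congr (RingHom.ext fun c => semiFF_algebraMap σ h c) _ _ A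

variable [IsAlgClosed k] [V.IsElliptic]

/-- Translations are equivariant. -/
theorem semiFF_translate (σ : k ≃+* k) (h : V.map σ.toRingHom = V) (A : V.toAffine.Point)
    (u : FF V) :
    semiFF σ h (translate A u) = translate (mapPoint σ.toRingHom h A) (semiFF σ h u) := by
  have hA := isNonconst_translate (V := V) A
  have hB := isNonconst_translate (V := V) (mapPoint σ.toRingHom h A)
  have hB' : mapPoint (semiFF σ h).toRingHom (map_semiFF σ h) (genPoint V + constPt A) =
      genPoint V + constPt (mapPoint σ.toRingHom h A) := by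
    rw [map_add, mapPoint_semiFF_genPoint, mapPoint_semiFF_constPt]
  obtain ⟨X₀, Y₀, h0, e0, -⟩ := hA.exists_coords
  rw [e0, mapPoint_some] at hB'
  have key : (semiFF σ h).toRingHom.comp (translate A) =
      (translate (mapPoint σ.toRingHom h A)).comp (semiFF σ h).toRingHom := by
    refine ringHom_ext_gens (fun c => ?_) ?_ ?_
    · show semiFF σ h (translate A _) = translate _ (semiFF σ h _)
      rw [translate_algebraMap, semiFF_algebraMap, translate_algebraMap]
    · show semiFF σ h (translate A _) = translate _ (semiFF σ h _)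
      rw [semiFF_gx, translate, translate, e0, pullback_gx (e0 ▸ hA), ← hB',
        pullback_gx (hB'.symm ▸ hB)]
      rfl
    · show semiFF σ h (translate A _) = translate _ (semiFF σ h _)
      rw [semiFF_gy, translate, translate, e0, pullback_gy (e0 ▸ hA), ← hB',
        pullback_gy (hB'.symm ▸ hB)]
      rfl
  exact RingHom.congr_fun key u

/-- Orders are equivariant. -/
theorem ordAt_semiFF (σ : k ≃+* k) (h : V.map σ.toRingHom = V) (P : V.toAffine.Point)
    (u : FF V) :
    ordAt (mapPoint σ.toRingHom h P) (semiFF σ h u) = ordAt P u := by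
  set τ := (semiFF σ h).symm with hτdef
  obtain ⟨w, hw⟩ := exists_comap_place (K := k) (placeAt P) τ fun a =>
    ⟨σ.symm a, by rw [hτdef, RingEquiv.symm_apply_eq, semiFF_algebraMap, σ.apply_symm_apply]⟩
  have hord := ord_comap_ringEquiv τ hw
  have hval : ∀ (z : FF V) (c : k), semiFF σ h z = z → HasVal (placeAt P) z c →
      HasVal w z (σ c) := by
    intro z c hz hc
    have e : τ (z - algebraMap k (FF V) (σ c)) = z - algebraMap k (FF V) c := by
      rw [hτdef, RingEquiv.symm_apply_eq, map_sub, hz, semiFF_algebraMap]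
    rcases hc with h0 | h1
    · left
      rw [← e] at h0
      exact (map_eq_zero_iff τ τ.injective).1 h0
    · right
      rw [← hord, e]; exact h1
  have hcw : center w = mapPoint σ.toRingHom h P := by
    rcases P with _ | ⟨a, b, hn⟩
    · rw [mapPoint_zero, center_eq_zero_iff, hw, hτdef,
        show (semiFF σ h).symm (gx V) = gx V from (semiFF σ h).symm_apply_eq.2 (semiFF_gx σ h).symm]
      exact center_eq_zero_iff.1 (center_placeAt _)
    · rw [mapPoint_some, center_eq_some_iff]
      obtain ⟨hx, hy⟩ := center_eq_some_iff.1 (center_placeAt (Point.some a b hn))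
      exact ⟨hval _ _ (semiFF_gx σ h) hx, hval _ _ (semiFF_gy σ h) hy⟩
  rw [ordAt, ← hcw, placeAt_center, ← hord, hτdef, RingEquiv.symm_apply_apply, ordAt]

end FermatAgent.EC
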