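import Fermat.Agent.EC.NSMul
import Mathlib.FieldTheory.IsAlgClosed.Basic
import Mathlib.Algebra.Module.Torsion.Basic
import Mathlib.Data.Set.Card

/-!
# `n`-torsion of an elliptic curve over an algebraically closed field

Multiplication by `n ≠ 0` is surjective, and for `(n : k) ≠ 0` its kernel has `n²` elements, being
in bijection with a fibre over a point whose abscissa is a regular value of `Φₙ / ΨSqₙ`.
-/

set_option autoImplicit false

open Polynomial WeierstrassCurve WeierstrassCurve.Affine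

namespace FermatAgent.EC

universe u

variable {k : Type u} [Field k] [IsAlgClosed k] {V : WeierstrassCurve k}

/-- Every abscissa occurs on the curve. -/
lemma exists_y_of_x (hΔ : V.Δ ≠ 0) (x : k) : ∃ y, V.toAffine.Nonsingular x y := by
  set p : k[X] := X ^ 2 + C (V.a₁ * x + V.a₃) * X -
    C (x ^ 3 + V.a₂ * x ^ 2 + V.a₄ * x + V.a₆) with hp
  have hdeg : p.degree = 2 := by rw [hp]; compute_degree!
  obtain ⟨y, hy⟩ := IsAlgClosed.exists_root p (by rw [hdeg]; norm_num)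
  refine ⟨y, (Affine.equation_iff_nonsingular_of_Δ_ne_zero hΔ).mp ?_⟩
  rw [equation_iff]
  simp [hp] at hy
  linear_combination hy

lemma Φ_eval_ne_zero_of_ΨSq (hΔ : V.Δ ≠ 0) (n : ℕ) {x : k} (h : (V.ΨSq n).eval x = 0) :
    (V.Φ n).eval x ≠ 0 := by
  classical
  obtain ⟨y, hy⟩ := exists_y_of_x hΔ x
  exact Φ_ne_zero_of_ΨSq_eq_zero hΔ hy h

/-- `Ψ₂²` is not zero for a nonsingular curve. -/
lemma Ψ₂Sq_ne_zero_of_Δ (hΔ : V.Δ ≠ 0) : V.Ψ₂Sq ≠ 0 := by
  classical
  intro h
  obtain ⟨x, hx⟩ := IsAlgClosed.exists_root (V.Φ 2)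
    (by rw [degree_eq_natDegree (Φ_ne_zero V 2), natDegree_Φ]; norm_num)
  rcases Φ_two_or_Ψ₂Sq_ne_zero V hΔ x with hh | hh
  · exact hh hx
  · exact hh (by rw [h, eval_zero])

omit [IsAlgClosed k] in
lemma natDegree_Φ_sub (n : ℕ) (hn : n ≠ 0) (c : k) :
    (V.Φ n - C c * V.ΨSq n).natDegree = n ^ 2 := by
  have h1 : (C c * V.ΨSq n).natDegree < (V.Φ n).natDegree := by
    refine lt_of_le_of_lt ((natDegree_C_mul_le _ _).trans (natDegree_ΨSq_le V n)) ?_
    rw [natDegree_Φ, Int.natAbs_natCast]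
    have : 0 < n ^ 2 := pow_pos (Nat.pos_of_ne_zero hn) 2
    omega
  rw [natDegree_sub_eq_left_of_natDegree_lt h1, natDegree_Φ, Int.natAbs_natCast]

lemma exists_root_Φ_sub (n : ℕ) (hn : n ≠ 0) (c : k) :
    ∃ r, (V.Φ n - C c * V.ΨSq n).IsRoot r := by
  have hpos : 0 < n ^ 2 := pow_pos (Nat.pos_of_ne_zero hn) 2
  have h : V.Φ n - C c * V.ΨSq n ≠ 0 := fun h => by
    have := natDegree_Φ_sub (V := V) n hn c
    rw [h, natDegree_zero] at this
    omega
  refine IsAlgClosed.exists_root _ ?_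
  rw [degree_eq_natDegree h, natDegree_Φ_sub n hn c]
  exact_mod_cast hpos.ne'

/-- `[n]` is surjective on points over an algebraically closed field. -/
theorem exists_nsmul_eq [DecidableEq k] (hΔ : V.Δ ≠ 0) {n : ℕ} (hn : n ≠ 0) (Q : V.toAffine.Point) :
    ∃ R : V.toAffine.Point, n • R = Q := by
  match Q with
  | .zero => exact ⟨0, nsmul_zero n⟩
  | .some c yc hc =>
    obtain ⟨r, hr⟩ := exists_root_Φ_sub (V := V) n hn c
    simp only [IsRoot, eval_sub, eval_mul, eval_C, sub_eq_zero] at hr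
    obtain ⟨s, hs⟩ := exists_y_of_x hΔ r
    have hΨ : (V.ΨSq n).eval r ≠ 0 := fun h0 =>
      Φ_eval_ne_zero_of_ΨSq hΔ n h0 (by rw [hr, h0, mul_zero])
    obtain ⟨y', h', he⟩ := exists_nsmul_eq_some hΔ hs hΨ
    have hx : (V.Φ n).eval r / (V.ΨSq n).eval r = c := by
      rw [hr, mul_div_assoc, div_self hΨ, mul_one]
    rcases Point.X_eq_iff.mp hx with e | e
    · exact ⟨_, he.trans e⟩
    · exact ⟨-Point.some r s hs, by rw [neg_nsmul, he, e, neg_neg]⟩

omit [IsAlgClosed k] in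
lemma wronskian_Φ_ΨSq_ne_zero {n : ℕ} (hn : (n : k) ≠ 0) :
    derivative (V.Φ n) * V.ΨSq n - V.Φ n * derivative (V.ΨSq n) ≠ 0 := by
  have hn0 : n ≠ 0 := fun h => hn (by simp [h])
  rcases (by omega : n = 1 ∨ 2 ≤ n) with rfl | h2
  · simp
  obtain ⟨M, hM⟩ : ∃ M, n ^ 2 = M + 2 := ⟨n ^ 2 - 2, by have := Nat.pow_le_pow_left h2 2; omega⟩
  intro h
  have hΦ : (V.Φ n).natDegree ≤ M + 2 := by rw [natDegree_Φ, Int.natAbs_natCast, hM]
  have hΨ : (V.ΨSq n).natDegree ≤ M + 1 := by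
    refine (natDegree_ΨSq_le V n).trans ?_
    rw [Int.natAbs_natCast, hM]; omega
  have hΦ' : (derivative (V.Φ n)).natDegree ≤ M + 1 :=
    (natDegree_derivative_le _).trans (by omega)
  have hΨ' : (derivative (V.ΨSq n)).natDegree ≤ M :=
    (natDegree_derivative_le _).trans (by omega)
  have c1 : (V.Φ n).coeff (M + 2) = 1 := by
    have := coeff_Φ V n
    rwa [Int.natAbs_natCast, hM] at this
  have c2 : (V.ΨSq n).coeff (M + 1) = (n : k) ^ 2 := by
    have := coeff_ΨSq V n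
    rw [Int.natAbs_natCast, hM] at this
    simpa using this
  have h' := congrArg (fun p => p.coeff (M + 1 + (M + 1))) h
  simp only [coeff_sub, coeff_zero] at h'
  rw [coeff_mul_add_eq_of_natDegree_le hΦ' hΨ, show M + 1 + (M + 1) = (M + 2) + M by ring,
    coeff_mul_add_eq_of_natDegree_le hΦ hΨ', coeff_derivative, coeff_derivative, c1, c2] at h'
  apply hn
  have : (n : k) ^ 2 = 0 := by push_cast at h' ⊢; linear_combination h'
  exact pow_eq_zero_iff two_ne_zero |>.mp this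

lemma exists_good_fibre (hΔ : V.Δ ≠ 0) {n : ℕ} (hn : (n : k) ≠ 0) :
    ∃ c : k, (V.Φ n - C c * V.ΨSq n).roots.Nodup ∧ V.Ψ₂Sq.eval c ≠ 0 := by
  classical
  set w := derivative (V.Φ n) * V.ΨSq n - V.Φ n * derivative (V.ΨSq n)
  obtain ⟨c, hc⟩ := Infinite.exists_notMem_finset
    ((w.roots.toFinset.image fun r => (V.Φ n).eval r / (V.ΨSq n).eval r) ∪
      V.Ψ₂Sq.roots.toFinset)
  simp only [Finset.mem_union, not_or, Finset.mem_image, Multiset.mem_toFinset, not_exists,
    not_and] at hc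
  refine ⟨c, ?_, fun h => hc.2 (mem_roots'.mpr ⟨Ψ₂Sq_ne_zero_of_Δ hΔ, h⟩)⟩
  have hn0 : n ≠ 0 := fun h => hn (by simp [h])
  have hpos : 0 < n ^ 2 := pow_pos (Nat.pos_of_ne_zero hn0) 2
  set p := V.Φ n - C c * V.ΨSq n with hp
  have hp0 : p ≠ 0 := fun h => by
    have := natDegree_Φ_sub (V := V) n hn0 c
    rw [← hp, h, natDegree_zero] at this
    omega
  rw [Multiset.nodup_iff_count_le_one]
  intro r
  rw [count_roots]
  by_contra hr
  obtain ⟨h1, h2⟩ := (one_lt_rootMultiplicity_iff_isRoot hp0).mp (lt_of_not_ge hr)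
  simp only [hp, IsRoot, eval_sub, eval_mul, eval_C, derivative_sub, derivative_mul,
    derivative_C, zero_mul, zero_add, sub_eq_zero] at h1 h2
  refine hc.1 r (mem_roots'.mpr ⟨wronskian_Φ_ΨSq_ne_zero hn, ?_⟩) ?_
  · simp only [IsRoot, w, eval_sub, eval_mul, h1, h2]
    ring
  · have hΨ : (V.ΨSq n).eval r ≠ 0 := fun h0 =>
      Φ_eval_ne_zero_of_ΨSq hΔ n h0 (by rw [h1, h0, mul_zero])
    rw [h1, mul_div_assoc, div_self hΨ, mul_one]

variable [DecidableEq k]

/-- `#E[n] = n²`. -/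
theorem natCard_nsmul_eq_zero (hΔ : V.Δ ≠ 0) {n : ℕ} (hn : (n : k) ≠ 0) :
    Nat.card {P : V.toAffine.Point // n • P = 0} = n ^ 2 := by
  have hn0 : n ≠ 0 := fun h => hn (by simp [h])
  obtain ⟨c, hnd, hc⟩ := exists_good_fibre hΔ hn
  obtain ⟨yc, hyc⟩ := exists_y_of_x hΔ c
  set Q := Point.some c yc hyc with hQdef
  have hQ : Q ≠ -Q := by
    intro h
    rw [hQdef, Point.neg_some, Point.some.injEq] at h
    apply hc
    rw [← psiTwoVal_sq hyc.1, pow_eq_zero_iff two_ne_zero, psiTwoVal]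
    have := h.2
    simp only [negY] at this
    linear_combination this
  set p := V.Φ n - C c * V.ΨSq n with hpdef
  have hroot : ∀ r, r ∈ p.roots.toFinset ↔ (V.Φ n).eval r = c * (V.ΨSq n).eval r := by
    intro r
    have hp0 : p ≠ 0 := fun h => by
      have := natDegree_Φ_sub (V := V) n hn0 c
      rw [← hpdef, h, natDegree_zero] at this
      exact hn0 (pow_eq_zero_iff two_ne_zero |>.mp this.symm)
    rw [Multiset.mem_toFinset, mem_roots hp0, hpdef, IsRoot, eval_sub, eval_mul,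
      eval_C, sub_eq_zero]
  let fib := {R : V.toAffine.Point // n • R = Q}
  have hx : ∀ R : fib, ∃ r ∈ p.roots.toFinset, ∃ s h, R.1 = Point.some r s h := by
    rintro ⟨(_ | ⟨r, s, h⟩), hR⟩
    · rw [← Point.zero_def, nsmul_zero] at hR
      exact absurd hR.symm (Point.some_ne_zero _)
    · exact ⟨r, (hroot r).mpr (Φ_eq_mul_of_nsmul_eq hΔ h hR).2, s, h, rfl⟩
  choose f hf hf' using hx
  have hbij : Function.Bijective (fun R : fib => (⟨f R, hf R⟩ : p.roots.toFinset)) := by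
    constructor
    · intro R R' e
      simp only [Subtype.mk.injEq] at e
      obtain ⟨s, h, hR⟩ := hf' R
      obtain ⟨s', h', hR'⟩ := hf' R'
      rcases (Point.X_eq_iff (h₁ := h) (h₂ := h')).mp e with e' | e'
      · exact Subtype.ext (hR.trans (e'.trans hR'.symm))
      · exfalso
        apply hQ
        have := R.2
        rw [hR, e', ← hR', neg_nsmul, R'.2] at this
        exact this.symm
    · rintro ⟨r, hr⟩
      obtain ⟨s, hs⟩ := exists_y_of_x hΔ r
      have hΨ : (V.ΨSq n).eval r ≠ 0 := fun h0 =>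
        Φ_eval_ne_zero_of_ΨSq hΔ n h0 (by rw [(hroot r).1 hr, h0, mul_zero])
      obtain ⟨y', h', he⟩ := exists_nsmul_eq_some hΔ hs hΨ
      have hxr : (V.Φ n).eval r / (V.ΨSq n).eval r = c := by
        rw [(hroot r).1 hr, mul_div_assoc, div_self hΨ, mul_one]
      rcases (Point.X_eq_iff (h₁ := h') (h₂ := hyc)).mp hxr with e | e
      · refine ⟨⟨_, he.trans e⟩, Subtype.ext ?_⟩
        obtain ⟨s', h'', hR⟩ := hf' ⟨_, he.trans e⟩
        simp only [Point.some.injEq] at hR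
        exact hR.1.symm
      · have he' : n • (-Point.some r s hs) = Q := by rw [neg_nsmul, he, e, neg_neg]
        refine ⟨⟨_, he'⟩, Subtype.ext ?_⟩
        obtain ⟨s', h'', hR⟩ := hf' ⟨_, he'⟩
        simp only [Point.neg_some, Point.some.injEq] at hR
        exact hR.1.symm
  obtain ⟨R₀, hR₀⟩ := exists_nsmul_eq hΔ hn0 Q
  let e : {P : V.toAffine.Point // n • P = 0} ≃ fib :=
    { toFun := fun P => ⟨P.1 + R₀, by rw [nsmul_add, P.2, hR₀, zero_add]⟩
      invFun := fun R => ⟨R.1 - R₀, by rw [nsmul_sub, R.2, hR₀, sub_self]⟩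
      left_inv := fun P => Subtype.ext (add_sub_cancel_right _ _)
      right_inv := fun R => Subtype.ext (sub_add_cancel _ _) }
  rw [Nat.card_congr e, Nat.card_congr (Equiv.ofBijective _ hbij), Nat.card_eq_fintype_card,
    Fintype.card_coe, Multiset.toFinset_card_of_nodup hnd,
    ← (IsAlgClosed.splits p).natDegree_eq_card_roots, natDegree_Φ_sub n hn0 c]

/-- The `n`-torsion submodule has `n²` elements. -/
theorem natCard_torsionBy (hΔ : V.Δ ≠ 0) {n : ℕ} (hn : (n : k) ≠ 0) :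
    Nat.card (Submodule.torsionBy ℤ V.toAffine.Point n) = n ^ 2 := by
  rw [← natCard_nsmul_eq_zero hΔ hn]
  exact Nat.card_congr (Equiv.subtypeEquivRight fun P => by
    rw [Submodule.mem_torsionBy_iff, natCast_zsmul])

/-- `E[n]` is finite for `n` invertible in `k`. -/
theorem finite_torsionBy (hΔ : V.Δ ≠ 0) {n : ℕ} (hn : (n : k) ≠ 0) :
    Finite (Submodule.torsionBy ℤ V.toAffine.Point n) :=
  Nat.finite_of_card_ne_zero (by
    rw [natCard_torsionBy hΔ hn]; exact pow_ne_zero 2 (fun h => hn (by simp [h])))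

omit [IsAlgClosed k] in
/-- For odd `n` an affine point is killed by `n` iff `preΨ'ₙ` vanishes at its first coordinate. -/
lemma mem_roots_preΨ'_iff (hΔ : V.Δ ≠ 0) {n : ℕ} (hn : Odd n) {x y : k}
    (h : V.toAffine.Nonsingular x y) :
    n • Point.some x y h = 0 ↔ (V.preΨ' n).eval x = 0 := by
  rw [nsmul_eq_zero_iff hΔ h, ΨSq_ofNat, if_neg (Nat.not_even_iff_odd.mpr hn), mul_one, eval_pow,
    pow_eq_zero_iff two_ne_zero]

end FermatAgent.EC
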