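import Fermat.Agent.EC.Recurrence
import Mathlib.Algebra.MvPolynomial.CommRing
import Mathlib.RingTheory.Localization.FractionRing

/-!
# Universal identities between `Φₙ` and `ΨSqₙ`

The identities hold at the generic point of the universal curve, hence for every Weierstrass curve.
-/

set_option autoImplicit false

open Polynomial WeierstrassCurve WeierstrassCurve.Affine

namespace FermatAgent.EC

noncomputable section

/-- The universal Weierstrass curve over `ℤ[A₁, A₂, A₃, A₄, A₆]`. -/
def univCurve : WeierstrassCurve (MvPolynomial (Fin 5) ℤ) :=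
  ⟨.X 0, .X 1, .X 2, .X 3, .X 4⟩

/-- The function field of the universal curve. -/
abbrev UnivField : Type := univCurve.toAffine.FunctionField

/-- The embedding of the universal coefficient ring in the universal function field. -/
def univEmb : MvPolynomial (Fin 5) ℤ →+* UnivField :=
  (algebraMap univCurve.toAffine.CoordinateRing UnivField).comp
    ((CoordinateRing.mk univCurve.toAffine).comp ((C : _ →+* _).comp (C : _ →+* _)))

/-- The x-coordinate of the generic point. -/
def univX : UnivField :=
  algebraMap univCurve.toAffine.CoordinateRing UnivField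
    (CoordinateRing.mk univCurve.toAffine (C X))

/-- The y-coordinate of the generic point. -/
def univY : UnivField :=
  algebraMap univCurve.toAffine.CoordinateRing UnivField
    (CoordinateRing.mk univCurve.toAffine Polynomial.X)

lemma univ_eval₂ (p : (MvPolynomial (Fin 5) ℤ)[X]) :
    (p.map univEmb).eval univX =
      algebraMap univCurve.toAffine.CoordinateRing UnivField
        (CoordinateRing.mk univCurve.toAffine (C p)) := by
  rw [eval_map]
  have : eval₂RingHom univEmb univX =
      (algebraMap univCurve.toAffine.CoordinateRing UnivField).comp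
        ((CoordinateRing.mk univCurve.toAffine).comp C) := by
    refine Polynomial.ringHom_ext (fun a => ?_) ?_ <;> simp [univEmb, univX]
  exact RingHom.congr_fun this p

lemma univ_eval_injective {p q : (MvPolynomial (Fin 5) ℤ)[X]}
    (h : (p.map univEmb).eval univX = (q.map univEmb).eval univX) : p = q := by
  rw [univ_eval₂, univ_eval₂] at h
  have h1 := IsFractionRing.injective _ UnivField h
  exact FaithfulSMul.algebraMap_injective (MvPolynomial (Fin 5) ℤ)[X]
    univCurve.toAffine.CoordinateRing h1

lemma univEmb_injective : Function.Injective univEmb := fun a b h => by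
  apply C_injective
  apply univ_eval_injective
  simpa using h

/-- The universal curve over its own function field. -/
def univCurveK : WeierstrassCurve UnivField := univCurve.map univEmb

lemma univ_equation : univCurveK.toAffine.Equation univX univY := by
  set g := (algebraMap univCurve.toAffine.CoordinateRing UnivField).comp
    (CoordinateRing.mk univCurve.toAffine) with hg
  have key : ∀ p, (p.map (mapRingHom univEmb)).evalEval univX univY = g p := by
    intro p
    have : ((evalEvalRingHom univX univY).comp (mapRingHom (mapRingHom univEmb))) = g := by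
      refine Polynomial.ringHom_ext (fun a => ?_) ?_
      · simp only [RingHom.comp_apply, coe_mapRingHom, Polynomial.map_C]
        show eval univX (eval (C univY) (C (Polynomial.map univEmb a))) = _
        rw [eval_C]
        simpa [hg] using univ_eval₂ a
      · simp [hg, univY]
    exact RingHom.congr_fun this p
  rw [Affine.Equation, univCurveK, Affine.map_polynomial, key]
  simp [hg]

lemma univ_Δ_ne_zero : univCurveK.Δ ≠ 0 := by
  rw [univCurveK, map_Δ, map_ne_zero_iff _ univEmb_injective]
  intro h
  have h' := congrArg (MvPolynomial.eval ![0, 0, 0, 0, 1]) h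
  rw [← map_Δ] at h'
  simp [univCurve, WeierstrassCurve.map, Δ, b₂, b₄, b₆, b₈] at h'

lemma univ_nonsingular : univCurveK.toAffine.Nonsingular univX univY :=
  (Affine.equation_iff_nonsingular_of_Δ_ne_zero univ_Δ_ne_zero).mp univ_equation

lemma univ_wEDS_ne_zero (n : ℕ) (hn : n ≠ 0) : wEDS univCurveK univX univY n ≠ 0 := by
  intro h
  have h' : (univCurveK.ΨSq n).eval univX = 0 := by rw [ΨSq_eval univ_equation, h]; simp
  rw [univCurveK, map_ΨSq] at h'
  have : univCurve.ΨSq n = 0 := univ_eval_injective (q := 0) (by rw [h']; simp)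
  exact ΨSq_ne_zero univCurve (by exact_mod_cast hn) this

open Classical in
lemma univ_sum_prod (n : ℕ) :
    univCurve.Φ (n + 1) * univCurve.ΨSq ((n : ℤ) - 1) +
        univCurve.Φ ((n : ℤ) - 1) * univCurve.ΨSq (n + 1) =
      biSum (univCurve.map C) X (univCurve.Φ n) (univCurve.ΨSq n) ∧
    univCurve.Φ (n + 1) * univCurve.Φ ((n : ℤ) - 1) =
      biProd (univCurve.map C) X (univCurve.Φ n) (univCurve.ΨSq n) := by
  rcases (by omega : n = 0 ∨ n = 1 ∨ 2 ≤ n) with rfl | rfl | hn
  · constructor <;> simp [biSum, biProd] <;> ring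
  · constructor <;> simp [biSum, biProd, Ψ₂Sq, map_ofNat] <;> ring
  have he := univ_equation
  have hw := univ_wEDS_ne_zero
  have key := nsmul_of_wEDS_ne_zero univ_nonsingular hw
  obtain ⟨ya, ha, hPa⟩ := key (n + 1) (by omega)
  obtain ⟨yb, hb, hPb⟩ := key (n - 1) (by omega)
  obtain ⟨yn, hn', hPn⟩ := key n (by omega)
  have hval : ∀ k : ℕ, 1 ≤ k →
      (univCurveK.Φ k).eval univX = (univX - wEDS univCurveK univX univY (k + 1) *
        wEDS univCurveK univX univY (k - 1) / wEDS univCurveK univX univY k ^ 2) *
          (univCurveK.ΨSq k).eval univX := by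
    intro k hk
    rw [ΨSq_eval he, Φ_eval he, sub_mul, div_mul_cancel₀]
    exact pow_ne_zero 2 (hw k (by omega))
  have h1 := hval (n + 1) (by omega)
  have h2 := hval (n - 1) (by omega)
  have h3 := hval n (by omega)
  set xa := univX - wEDS univCurveK univX univY ((n + 1 : ℕ) + 1) *
    wEDS univCurveK univX univY ((n + 1 : ℕ) - 1) / wEDS univCurveK univX univY (n + 1 : ℕ) ^ 2
    with hxa
  set xb := univX - wEDS univCurveK univX univY ((n - 1 : ℕ) + 1) *
    wEDS univCurveK univX univY ((n - 1 : ℕ) - 1) / wEDS univCurveK univX univY (n - 1 : ℕ) ^ 2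
    with hxb
  set xn := univX - wEDS univCurveK univX univY ((n : ℕ) + 1) *
    wEDS univCurveK univX univY ((n : ℕ) - 1) / wEDS univCurveK univX univY (n : ℕ) ^ 2 with hxn
  have hne : xn ≠ univX := by
    intro h
    rw [hxn, sub_eq_self, div_eq_zero_iff] at h
    rcases h with h | h
    · rcases mul_eq_zero.mp h with h | h
      · exact hw (n + 1) (by omega) (by simpa using h)
      · exact hw (n - 1) (by omega) (by rw [Nat.cast_sub (by omega)]; simpa using h)
    · exact hw n (by omega) (pow_eq_zero_iff two_ne_zero |>.mp h)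
  obtain ⟨s, d, sy, dy, hs, hd, e1, e2, e3, e4, -⟩ := exists_add_sub hn' univ_nonsingular hne
  rw [← hPn, ← succ_nsmul, hPa, Point.some.injEq] at e1
  rw [← hPn] at e2
  have : (n - 1) • Point.some univX univY univ_nonsingular =
      n • Point.some univX univY univ_nonsingular - Point.some univX univY univ_nonsingular := by
    rw [eq_sub_iff_add_eq, ← succ_nsmul, Nat.sub_add_cancel (by omega)]
  rw [← this, hPb, Point.some.injEq] at e2
  rw [← e1.1, ← e2.1] at e3 e4
  have hsq : (univCurveK.ΨSq (n + 1 : ℕ)).eval univX * (univCurveK.ΨSq (n - 1 : ℕ)).eval univX =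
      (univX - xn) ^ 2 * (univCurveK.ΨSq n).eval univX ^ 2 := by
    rw [ΨSq_eval he, ΨSq_eval he, ΨSq_eval he, hxn, sub_sub_cancel, ← pow_mul,
      Nat.cast_sub (show 1 ≤ n by omega)]
    have := hw n (by omega)
    push_cast
    field_simp
  have hn1 : ((n - 1 : ℕ) : ℤ) = (n : ℤ) - 1 := by omega
  rw [hn1] at h2 hsq
  rw [Nat.cast_add, Nat.cast_one] at h1 hsq
  have hΦ : ∀ k : ℤ, (univCurveK.Φ k).eval univX = ((univCurve.Φ k).map univEmb).eval univX :=
    fun k => by rw [univCurveK, map_Φ]
  have hΨ : ∀ k : ℤ, (univCurveK.ΨSq k).eval univX = ((univCurve.ΨSq k).map univEmb).eval univX :=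
    fun k => by rw [univCurveK, map_ΨSq]
  constructor <;> apply univ_eval_injective
  all_goals
    simp only [biSum, biProd, map_b₂, map_b₄, map_b₆, map_b₈, Polynomial.map_mul,
      Polynomial.map_add, Polynomial.map_sub, Polynomial.map_pow, eval_mul, eval_add, eval_sub,
      eval_pow, Polynomial.map_C, eval_C, Polynomial.map_X, eval_X, Polynomial.map_ofNat,
      eval_ofNat, ← hΦ, ← hΨ, h1, h2, h3]
    simp only [← map_b₂ univCurve univEmb, ← map_b₄ univCurve univEmb,
      ← map_b₆ univCurve univEmb, ← map_b₈ univCurve univEmb,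
      show univCurve.map univEmb = univCurveK from rfl]
  · have e3' : (xa + xb) * (xn - univX) ^ 2 = biSum univCurveK xn univX 1 := e3
    simp only [biSum] at e3'
    linear_combination (univCurveK.ΨSq n).eval univX ^ 2 * e3' + (xa + xb) * hsq
  · have e4' : xa * xb * (xn - univX) ^ 2 = biProd univCurveK xn univX 1 := e4
    simp only [biProd] at e4'
    linear_combination (univCurveK.ΨSq n).eval univX ^ 2 * e4' + (xa * xb) * hsq

universe u

variable {R : Type u} [CommRing R] (W : WeierstrassCurve R)

lemma exists_univ_map : ∃ f : MvPolynomial (Fin 5) ℤ →+* R, univCurve.map f = W :=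
  ⟨(MvPolynomial.eval₂Hom (Int.castRingHom R) ![W.a₁, W.a₂, W.a₃, W.a₄, W.a₆]), by
    ext <;> simp [univCurve, WeierstrassCurve.map]⟩

/-- The biquadratic sum at `x(nP)` and `x(P)` gives `x((n+1)P) + x((n-1)P)`. -/
lemma Φ_sum (n : ℕ) (x : R) :
    (W.Φ (n + 1)).eval x * (W.ΨSq ((n : ℤ) - 1)).eval x +
        (W.Φ ((n : ℤ) - 1)).eval x * (W.ΨSq (n + 1)).eval x =
      biSum W x ((W.Φ n).eval x) ((W.ΨSq n).eval x) := by
  obtain ⟨f, rfl⟩ := exists_univ_map W
  have := congrArg (eval₂RingHom f x) (univ_sum_prod n).1
  rw [biSum_map, map_add, map_mul, map_mul] at this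
  simp only [coe_eval₂RingHom, eval₂_X, WeierstrassCurve.map_map,
    show (eval₂RingHom f x).comp C = f from RingHom.ext fun a => eval₂_C f x] at this
  simp only [map_Φ, map_ΨSq, eval_map]
  exact this

/-- The biquadratic product at `x(nP)` and `x(P)` gives `x((n+1)P) x((n-1)P)`. -/
lemma Φ_prod (n : ℕ) (x : R) :
    (W.Φ (n + 1)).eval x * (W.Φ ((n : ℤ) - 1)).eval x =
      biProd W x ((W.Φ n).eval x) ((W.ΨSq n).eval x) := by
  obtain ⟨f, rfl⟩ := exists_univ_map W
  have := congrArg (eval₂RingHom f x) (univ_sum_prod n).2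
  rw [biProd_map, map_mul] at this
  simp only [coe_eval₂RingHom, eval₂_X, WeierstrassCurve.map_map,
    show (eval₂RingHom f x).comp C = f from RingHom.ext fun a => eval₂_C f x] at this
  simp only [map_Φ, map_ΨSq, eval_map]
  exact this

/-- `ΨSqₙ₊₁ ΨSqₙ₋₁ = (X ΨSqₙ - Φₙ)²`. -/
lemma ΨSq_succ_mul_pred (n : ℤ) :
    W.ΨSq (n + 1) * W.ΨSq (n - 1) = (X * W.ΨSq n - W.Φ n) ^ 2 := by
  rw [WeierstrassCurve.Φ, WeierstrassCurve.ΨSq]
  simp only [WeierstrassCurve.ΨSq, Int.even_add_one, Int.even_sub_one, ite_not]
  split_ifs <;> ring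

end

end FermatAgent.EC
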