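import Fermat.Agent.EC.Kappa
import Fermat.Agent.EC.FixedField
import Fermat.Agent.EC.Semilinear

/-!
# The Weil pairing

For `(n : k) ≠ 0` and `n`-torsion points `S`, `T`, the pairing is the constant
`translate S g / g`, where `g` has divisor `[n]^* ((T) - (0))`.
-/

set_option autoImplicit false

noncomputable section

open Polynomial WeierstrassCurve WeierstrassCurve.Affine
open AlgebraicCurve FermatAgent.Curve

namespace FermatAgent.EC

universe u

variable {k : Type u} [Field k] [DecidableEq k] [IsAlgClosed k] {V : WeierstrassCurve k}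
  [V.IsElliptic]

/-- `g` has divisor `[n]^* ((T) - (0))`. -/
def IsWeilFn (n : ℕ) (T : V.toAffine.Point) (g : FF V) : Prop :=
  g ≠ 0 ∧ ∀ R : V.toAffine.Point,
    ordAt R g = (if n • R = T then 1 else 0) - (if n • R = 0 then 1 else 0)

/-- A function with divisor `[n]^* ((T) - (0))` exists. -/
theorem exists_weilFn {n : ℕ} (hn : (n : k) ≠ 0) {T : V.toAffine.Point} (hT : n • T = 0) :
    ∃ g : FF V, IsWeilFn n T g := by
  classical
  have hn0 : n ≠ 0 := fun h => hn (by simp [h])
  obtain ⟨T', hT'⟩ := exists_nsmul_eq (V_Δ_ne_zero V) hn0 T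
  set s := (finite_nsmul_eq_zero V hn).toFinset with hs
  have hcard : s.card = n ^ 2 := by
    rw [hs, ← Nat.card_eq_card_finite_toFinset]
    exact natCard_nsmul_eq_zero (V_Δ_ne_zero V) hn
  have hsum : ∑ i ∈ s, (T' + i) = ∑ i ∈ s, i := by
    rw [Finset.sum_add_distrib, Finset.sum_const, hcard, pow_two, mul_nsmul, hT', hT, zero_add]
  obtain ⟨g, hg0, hg⟩ := exists_function_of_sum_eq s (fun i => T' + i) (fun i => i) hsum
  refine ⟨g, hg0, fun R => ?_⟩
  rw [hg R]
  have h1 : (s.filter fun i => T' + i = R) = if n • R = T then {R - T'} else ∅ := by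
    ext i
    simp only [Finset.mem_filter, hs, Set.Finite.mem_toFinset, Set.mem_ofPred_eq]
    split_ifs with h
    · simp only [Finset.mem_singleton]
      constructor
      · rintro ⟨-, rfl⟩; abel
      · rintro rfl; exact ⟨by rw [nsmul_sub, h, hT', sub_self], by abel⟩
    · simp only [Finset.notMem_empty, iff_false, not_and]
      intro hi e
      exact h (by rw [← e, nsmul_add, hi, hT', add_zero])
  have h2 : (s.filter fun i => i = R) = if n • R = 0 then {R} else ∅ := by
    ext i
    simp only [Finset.mem_filter, hs, Set.Finite.mem_toFinset, Set.mem_ofPred_eq]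
    split_ifs with h
    · simp only [Finset.mem_singleton]
      exact ⟨fun hi => hi.2, fun e => ⟨e ▸ h, e⟩⟩
    · simp only [Finset.notMem_empty, iff_false, not_and]
      intro hi e
      exact h (e ▸ hi)
  rw [h1, h2]
  split_ifs <;> simp

omit [DecidableEq k] in
/-- Functions with the same divisor differ by a constant. -/
theorem exists_eq_const_mul {g g' : FF V} (hg : g ≠ 0) (hg' : g' ≠ 0)
    (h : ∀ R : V.toAffine.Point, ordAt R g' = ordAt R g) :
    ∃ c : k, c ≠ 0 ∧ g' = algebraMap k (FF V) c * g := by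
  obtain ⟨c, hc⟩ := exists_const_of_ordAt_eq_zero (u := g' * g⁻¹) fun P => by
    rw [ordAt_mul P hg' (inv_ne_zero hg), h P]
    simp only [ordAt, Place.ord_inv]
    ring
  refine ⟨c, fun h0 => ?_, ?_⟩
  · rw [h0, map_zero] at hc
    exact mul_ne_zero hg' (inv_ne_zero hg) hc.symm
  · rw [hc, inv_mul_cancel_right₀ hg]

theorem IsWeilFn.translate {n : ℕ} {T S : V.toAffine.Point} {g : FF V} (hg : IsWeilFn n T g)
    (hS : n • S = 0) : IsWeilFn n T (EC.translate S g) :=
  ⟨(_root_.map_ne_zero _).2 hg.1, fun R => by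
    rw [ordAt_translate, hg.2, nsmul_add, hS, add_zero]⟩

theorem exists_weilPair (n : ℕ) (S T : V.toAffine.Point) :
    ∃ c : k, n • S = 0 → c ≠ 0 ∧ ∀ g : FF V, IsWeilFn n T g →
      translate S g = algebraMap k (FF V) c * g := by
  by_cases h : n • S = 0 ∧ ∃ g₀ : FF V, IsWeilFn n T g₀
  · obtain ⟨hS, g₀, h₀⟩ := h
    obtain ⟨c, hc0, hc⟩ := exists_eq_const_mul h₀.1 (h₀.translate hS).1
      fun R => ((h₀.translate hS).2 R).trans (h₀.2 R).symm
    refine ⟨c, fun _ => ⟨hc0, fun g hg => ?_⟩⟩
    obtain ⟨d, -, rfl⟩ := exists_eq_const_mul h₀.1 hg.1 fun R => (hg.2 R).trans (h₀.2 R).symm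
    rw [map_mul, translate_algebraMap, hc]
    ring
  · exact ⟨1, fun hS => ⟨one_ne_zero, fun g hg => absurd ⟨hS, g, hg⟩ h⟩⟩

/-- The Weil pairing on `n`-torsion points. -/
def weilPair (n : ℕ) (S T : V.toAffine.Point) : k := (exists_weilPair n S T).choose

variable {n : ℕ}

theorem weilPair_spec {S T : V.toAffine.Point} (hS : n • S = 0) {g : FF V}
    (hg : IsWeilFn n T g) : translate S g = algebraMap k (FF V) (weilPair n S T) * g :=
  ((exists_weilPair n S T).choose_spec hS).2 g hg

/-- The Weil pairing does not vanish. -/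
theorem weilPair_ne_zero {S T : V.toAffine.Point} (hS : n • S = 0) : weilPair n S T ≠ 0 :=
  ((exists_weilPair n S T).choose_spec hS).1

theorem eq_weilPair {S T : V.toAffine.Point} (hS : n • S = 0) {g : FF V} (hg : IsWeilFn n T g)
    {c : k} (h : translate S g = algebraMap k (FF V) c * g) : weilPair n S T = c :=
  (algebraMap k (FF V)).injective (mul_right_cancel₀ hg.1 ((weilPair_spec hS hg).symm.trans h))

/-- The pairing is multiplicative in the first argument. -/
theorem weilPair_add_left (hn : (n : k) ≠ 0) {S₁ S₂ T : V.toAffine.Point} (h₁ : n • S₁ = 0)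
    (h₂ : n • S₂ = 0) (hT : n • T = 0) :
    weilPair n (S₁ + S₂) T = weilPair n S₁ T * weilPair n S₂ T := by
  obtain ⟨g, hg⟩ := exists_weilFn hn hT
  refine eq_weilPair (by rw [nsmul_add, h₁, h₂, add_zero]) hg ?_
  rw [← translate_translate, weilPair_spec h₂ hg, map_mul, translate_algebraMap,
    weilPair_spec h₁ hg, map_mul]
  ring

theorem weilPair_zero_left (hn : (n : k) ≠ 0) {T : V.toAffine.Point} (hT : n • T = 0) :
    weilPair n 0 T = 1 := by
  obtain ⟨g, hg⟩ := exists_weilFn hn hT
  exact eq_weilPair (nsmul_zero n) hg (by rw [translate_zero, RingHom.id_apply, map_one, one_mul])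

/-- The Weil pairing is multiplicative in multiples of the first point. -/
theorem weilPair_nsmul_left (hn : (n : k) ≠ 0) {S T : V.toAffine.Point} (hS : n • S = 0)
    (hT : n • T = 0) (m : ℕ) : weilPair n (m • S) T = weilPair n S T ^ m := by
  induction m with
  | zero => rw [zero_nsmul, pow_zero, weilPair_zero_left hn hT]
  | succ m ih =>
    rw [succ_nsmul, weilPair_add_left hn (by rw [smul_comm, hS, nsmul_zero]) hS hT, ih, pow_succ]

/-- The pairing takes values in the `n`-th roots of unity. -/
theorem weilPair_pow_eq_one (hn : (n : k) ≠ 0) {S T : V.toAffine.Point} (hS : n • S = 0)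
    (hT : n • T = 0) : weilPair n S T ^ n = 1 := by
  rw [← weilPair_nsmul_left hn hS hT, hS, weilPair_zero_left hn hT]

/-- The pairing is multiplicative in the second argument. -/
theorem weilPair_add_right (hn : (n : k) ≠ 0) {S T₁ T₂ : V.toAffine.Point} (hS : n • S = 0)
    (h₁ : n • T₁ = 0) (h₂ : n • T₂ = 0) :
    weilPair n S (T₁ + T₂) = weilPair n S T₁ * weilPair n S T₂ := by
  obtain ⟨g₁, hg₁⟩ := exists_weilFn hn h₁
  obtain ⟨g₂, hg₂⟩ := exists_weilFn hn h₂
  obtain ⟨T', hT'⟩ := exists_nsmul_eq (V_Δ_ne_zero V) (n := n) (fun h => hn (by simp [h])) T₁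
  have hne : translate (-T') g₂ ≠ 0 := (_root_.map_ne_zero _).2 hg₂.1
  have hg : IsWeilFn n (T₁ + T₂) (g₁ * translate (-T') g₂) := by
    refine ⟨mul_ne_zero hg₁.1 hne, fun R => ?_⟩
    rw [ordAt_mul R hg₁.1 hne, ordAt_translate, hg₁.2, hg₂.2, nsmul_add, neg_nsmul, hT']
    simp only [← sub_eq_add_neg, sub_eq_iff_eq_add', add_zero]
    ring
  refine eq_weilPair hS hg ?_
  rw [map_mul, translate_translate, add_comm, ← translate_translate, weilPair_spec hS hg₁,
    weilPair_spec hS hg₂, map_mul, translate_algebraMap, map_mul]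
  ring

theorem weilPair_zero_right {S : V.toAffine.Point} (hS : n • S = 0) :
    weilPair n S 0 = 1 :=
  eq_weilPair hS (g := (1 : FF V)) ⟨one_ne_zero, fun R => by
    rw [sub_self, ordAt, Place.ord_one]⟩ (by rw [map_one, map_one, one_mul])

/-- The Weil pairing is multiplicative in multiples of the second point. -/
theorem weilPair_nsmul_right (hn : (n : k) ≠ 0) {S T : V.toAffine.Point} (hS : n • S = 0)
    (hT : n • T = 0) (m : ℕ) : weilPair n S (m • T) = weilPair n S T ^ m := by
  induction m with
  | zero => rw [zero_nsmul, pow_zero, weilPair_zero_right hS]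
  | succ m ih =>
    rw [succ_nsmul, weilPair_add_right hn hS (by rw [smul_comm, hT, nsmul_zero]) hT, ih, pow_succ]

/-- The pairing is alternating. -/
theorem weilPair_self (hn : (n : k) ≠ 0) {T : V.toAffine.Point} (hT : n • T = 0) :
    weilPair n T T = 1 := by
  classical
  obtain ⟨g, hg⟩ := exists_weilFn hn hT
  obtain ⟨T', hT'⟩ := exists_nsmul_eq (V_Δ_ne_zero V) (n := n) (fun h => hn (by simp [h])) T
  set h := ∏ i ∈ Finset.range n, translate (i • T') g with hh
  have hne : ∀ i ∈ Finset.range n, translate (i • T') g ≠ 0 :=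
    fun i _ => (_root_.map_ne_zero _).2 hg.1
  have h0 : h ≠ 0 := Finset.prod_ne_zero_iff.2 hne
  have hord : ∀ R : V.toAffine.Point, ordAt R h = 0 := by
    intro R
    rw [hh, ordAt, ord_prod _ _ hne]
    show ∑ i ∈ Finset.range n, ordAt R (translate (i • T') g) = 0
    let a : ℕ → ℤ := fun i => if n • R + i • T = T then 1 else 0
    have hi : ∀ i : ℕ, ordAt R (translate (i • T') g) = a i - a (i + 1) := by
      intro i
      rw [ordAt_translate, hg.2, nsmul_add, smul_comm n i T', hT']
      simp only [a, succ_nsmul, ← add_assoc, add_eq_right]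
    simp only [hi, Finset.sum_range_sub']
    simp only [a, zero_nsmul, add_zero, hT, sub_self]
  obtain ⟨c, hc⟩ := exists_const_of_ordAt_eq_zero hord
  have key : translate T' h = algebraMap k (FF V) (weilPair n T T) * h := by
    have e1 := Finset.prod_range_succ' (fun i : ℕ => translate (i • T') g) n
    rw [Finset.prod_range_succ, zero_nsmul, translate_zero, RingHom.id_apply, hT',
      weilPair_spec hT hg] at e1
    refine mul_right_cancel₀ hg.1 ?_
    rw [hh, map_prod]
    simp only [translate_translate, ← succ_nsmul']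
    rw [← e1]
    ring
  rw [← hc, translate_algebraMap, hc] at key
  exact (algebraMap k (FF V)).injective
    ((mul_right_cancel₀ h0 ((one_mul h).trans key)).symm.trans (map_one _).symm)

/-- The Weil pairing on `n`-torsion is nondegenerate. -/
theorem weilPair_nondegenerate (hn : (n : k) ≠ 0) {T : V.toAffine.Point} (hT : n • T = 0)
    (h : ∀ S : V.toAffine.Point, n • S = 0 → weilPair n S T = 1) : T = 0 := by
  by_contra hT0
  obtain ⟨g, hg⟩ := exists_weilFn hn hT
  obtain ⟨u, hu⟩ := exists_pullback_of_fixed hn (g := g) fun S hS => by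
    rw [weilPair_spec hS hg, h S hS, map_one, one_mul]
  have hord : ∀ Q : V.toAffine.Point,
      ordAt Q u = (if Q = T then 1 else 0) - (if Q = 0 then 1 else 0) := by
    intro Q
    obtain ⟨R, rfl⟩ := exists_nsmul_eq (V_Δ_ne_zero V) (n := n) (fun h => hn (by simp [h])) Q
    rw [← ordAt_pullback_mulPt V hn, hu, hg.2]
  refine not_simple_zero_pole u ?_ fun P hP => ?_
  · rw [hord, if_neg (fun e => hT0 e.symm), if_pos rfl]; ring
  · rw [hord, if_neg hP]; split_ifs <;> norm_num

/-- Equivariance under automorphisms of the constants. -/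
theorem weilPair_mapPoint (hn : (n : k) ≠ 0) (σ : k ≃+* k) (hσ : V.map σ.toRingHom = V)
    {S T : V.toAffine.Point} (hS : n • S = 0) (hT : n • T = 0) :
    weilPair n (mapPoint σ.toRingHom hσ S) (mapPoint σ.toRingHom hσ T) = σ (weilPair n S T) := by
  obtain ⟨g, hg⟩ := exists_weilFn hn hT
  have hσg : IsWeilFn n (mapPoint σ.toRingHom hσ T) (semiFF σ hσ g) := by
    refine ⟨(_root_.map_ne_zero _).2 hg.1, fun R => ?_⟩
    obtain ⟨P, rfl⟩ : ∃ P, mapPoint σ.toRingHom hσ P = R := ⟨mapPoint σ.symm.toRingHom
      (map_symm_eq hσ) R, by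
        rw [mapPoint_mapPoint, mapPoint_congr (φ' := RingHom.id k) (RingHom.ext fun x => by simp)
          _ (WeierstrassCurve.map_id V), mapPoint_id]⟩
    have hinj := mapPoint_injective σ.toRingHom hσ
    rw [ordAt_semiFF, hg.2, ← map_nsmul]
    simp only [hinj.eq_iff, map_eq_zero_iff _ hinj]
  refine eq_weilPair (by rw [← map_nsmul, hS, map_zero]) hσg ?_
  rw [← semiFF_translate, weilPair_spec hS hg, map_mul, semiFF_algebraMap]

/-- A separable endomorphism raises the pairing to the power of the cardinality of its kernel. -/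
theorem weilPair_valueAt (hn : (n : k) ≠ 0) {f : (curveFF V).toAffine.Point} (hf : IsEndo f)
    (hne : IsNonconst f) {c : k} (hc : HasDiffMult f c) (hc0 : c ≠ 0)
    {S T : V.toAffine.Point} (hS : n • S = 0) (hT : n • T = 0) :
    weilPair n (valueAt f S) (valueAt f T) =
      weilPair n S T ^ Nat.card {C : V.toAffine.Point // valueAt f C = 0} := by
  classical
  let φ := hf.hom
  have hφ : ∀ P, φ P = valueAt f P := fun P => rfl
  have hS' : n • valueAt f S = 0 := by rw [← hφ, ← map_nsmul, hS, map_zero]
  have hT' : n • valueAt f T = 0 := by rw [← hφ, ← map_nsmul, hT, map_zero]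
  obtain ⟨g, hg⟩ := exists_weilFn hn hT'
  obtain ⟨gT, hgT⟩ := exists_weilFn hn hT
  have hfin : {C : V.toAffine.Point | valueAt f C = 0}.Finite := finite_fibre hne 0
  set G := hfin.toFinset with hG
  have hNG : Nat.card {C : V.toAffine.Point // valueAt f C = 0} = G.card := by
    rw [hG, ← Nat.card_eq_card_finite_toFinset]; rfl
  choose C' hC' using exists_nsmul_eq (V_Δ_ne_zero V) (n := n) (fun h => hn (by simp [h]))
  set w := ∏ C ∈ G, translate (-C' C) gT with hw
  have hw0 : ∀ C ∈ G, translate (-C' C) gT ≠ 0 := fun C _ => (_root_.map_ne_zero _).2 hgT.1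
  have hu0 : pullback f g ≠ 0 := (_root_.map_ne_zero _).2 hg.1
  obtain ⟨d, -, hd⟩ := exists_eq_const_mul (Finset.prod_ne_zero_iff.2 hw0) hu0 fun R => by
    have hval : ordAt R (pullback f g) =
        (if n • valueAt f R = valueAt f T then 1 else 0) -
          (if n • valueAt f R = 0 then 1 else 0) := by
      rw [ordAt_pullback hf hne hc hc0, hg.2]
    rw [hval, ← hφ, ← hφ, ← map_nsmul, ordAt, ord_prod _ _ hw0]
    show _ = ∑ C ∈ G, ordAt R (translate (-C' C) gT)
    simp only [ordAt_translate, hgT.2, nsmul_add, neg_nsmul, hC', Finset.sum_sub_distrib,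
      Finset.sum_ite, Finset.sum_const, smul_zero, add_zero, nsmul_eq_mul, mul_one]
    have key : ∀ Q : V.toAffine.Point, ((G.filter fun C => n • R + -C = Q).card : ℤ) =
        if φ (n • R) = φ Q then 1 else 0 := by
      intro Q
      rw [show (G.filter fun C => n • R + -C = Q) = if φ (n • R) = φ Q then {n • R - Q} else ∅ by
        ext C
        simp only [Finset.mem_filter, hG, Set.Finite.mem_toFinset, Set.mem_ofPred_eq, ← hφ]
        split_ifs with h
        · rw [Finset.mem_singleton]
          constructor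
          · rintro ⟨-, e⟩; rw [← e]; abel
          · rintro rfl; exact ⟨by rw [map_sub, h, sub_self], by abel⟩
        · simp only [Finset.notMem_empty, iff_false, not_and]
          intro hC e
          exact h (by rw [← e, map_add, map_neg, hC, neg_zero, add_zero])]
      split_ifs <;> simp
    rw [key T, key 0, map_zero]
  have h1 : translate S (pullback f g) =
      algebraMap k (FF V) (weilPair n (valueAt f S) (valueAt f T)) * pullback f g := by
    have := RingHom.congr_fun (translate_comp_pullback hf hne S) g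
    rw [RingHom.comp_apply, RingHom.comp_apply, weilPair_spec hS' hg, map_mul,
      pullback_algebraMap hne] at this
    exact this
  have h2 : translate S w = algebraMap k (FF V) (weilPair n S T ^ G.card) * w := by
    rw [hw, map_prod, map_pow, ← Finset.prod_const, ← Finset.prod_mul_distrib]
    refine Finset.prod_congr rfl fun C _ => ?_
    rw [translate_translate, add_comm, ← translate_translate, weilPair_spec hS hgT, map_mul,
      translate_algebraMap]
  refine (algebraMap k (FF V)).injective (mul_right_cancel₀ hu0 ?_)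
  rw [← h1, hNG, hd, map_mul, translate_algebraMap, h2]
  ring

end FermatAgent.EC
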