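import Fermat.Agent.EC.Weil
import Fermat.Agent.EC.TorsionRat
import Mathlib.LinearAlgebra.Determinant

/-!
# Determinants on `E[p]` through the Weil pairing
-/

set_option autoImplicit false

noncomputable section

open WeierstrassCurve WeierstrassCurve.Affine

namespace FermatAgent.EC

universe u

section Abstract

/-- An endomorphism `A` of a plane over `ZMod p` with `e (A x) (A y) = e x y ^ N` for an alternating
nondegenerate pairing `e` into the `p`-th roots of unity has determinant `N`. -/
theorem det_eq_natCast_of_pairing {p : ℕ} [hp : Fact p.Prime] {M : Type*} [AddCommGroup M]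
    [Module (ZMod p) M] (hrank : Module.finrank (ZMod p) M = 2) {k : Type*} [CommRing k]
    [IsDomain k] (e : M → M → k)
    (hl : ∀ x y z, e (x + y) z = e x z * e y z) (hr : ∀ x y z, e x (y + z) = e x y * e x z)
    (hp1 : ∀ x y, e x y ^ p = 1) (halt : ∀ x, e x x = 1)
    (hnd : ∀ y, (∀ x, e x y = 1) → y = 0)
    (A : M →ₗ[ZMod p] M) (N : ℕ) (hA : ∀ x y, e (A x) (A y) = e x y ^ N) :
    LinearMap.det A = (N : ZMod p) := by
  classical
  have hfin : Module.Finite (ZMod p) M := Module.finite_of_finrank_eq_succ hrank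
  set b := Module.finBasisOfFinrankEq (ZMod p) M hrank
  have hne : ∀ x y, e x y ≠ 0 := fun x y h => by
    have := hp1 x y
    rw [h, zero_pow hp.out.ne_zero] at this
    exact zero_ne_one this
  have hl0 : ∀ z, e 0 z = 1 := fun z => by
    have := hl 0 0 z
    rw [add_zero] at this
    exact (mul_left_cancel₀ (hne 0 z) (this.symm.trans (mul_one _).symm))
  have hr0 : ∀ x, e x 0 = 1 := fun x => by
    have := hr x 0 0
    rw [add_zero] at this
    exact (mul_left_cancel₀ (hne x 0) (this.symm.trans (mul_one _).symm))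
  have hlm : ∀ (m : ℕ) x z, e (m • x) z = e x z ^ m := fun m x z => by
    induction m with
    | zero => rw [zero_nsmul, hl0, pow_zero]
    | succ m ih => rw [succ_nsmul, hl, ih, pow_succ]
  have hrm : ∀ (m : ℕ) x z, e x (m • z) = e x z ^ m := fun m x z => by
    induction m with
    | zero => rw [zero_nsmul, hr0, pow_zero]
    | succ m ih => rw [succ_nsmul, hr, ih, pow_succ]
  have hswap : ∀ x y, e x y * e y x = 1 := fun x y => by
    have := halt (x + y)
    rwa [hl, hr, hr, halt, halt, one_mul, mul_one] at this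
  have hrepr : ∀ x, x = (b.repr x 0).val • b 0 + (b.repr x 1).val • b 1 := fun x => by
    conv_lhs => rw [← b.sum_repr x]
    rw [Fin.sum_univ_two, ← Nat.cast_smul_eq_nsmul (ZMod p), ← Nat.cast_smul_eq_nsmul (ZMod p),
      ZMod.natCast_zmod_val, ZMod.natCast_zmod_val]
  set ζ := e (b 0) (b 1) with hζ
  have hζ1 : ζ ≠ 1 := by
    intro h
    refine b.ne_zero 1 (hnd _ fun x => ?_)
    rw [hrepr x, hl, hlm, hlm, ← hζ, h, halt, one_pow, one_pow, one_mul]
  have hprim : IsPrimitiveRoot ζ p :=
    IsPrimitiveRoot.iff_orderOf.2 (orderOf_eq_prime (hp1 _ _) hζ1)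
  set a := (b.repr (A (b 0)) 0).val with ha
  set c := (b.repr (A (b 0)) 1).val with hc
  set a' := (b.repr (A (b 1)) 0).val with ha'
  set d := (b.repr (A (b 1)) 1).val with hd
  have key := hA (b 0) (b 1)
  rw [hrepr (A (b 0)), hrepr (A (b 1)), hl, hr, hr, hlm, hlm, hlm, hlm, hrm, hrm, hrm, hrm,
    halt, halt, ← ha, ← hc, ← ha', ← hd, ← hζ] at key
  simp only [one_pow, one_mul, mul_one] at key
  have key2 : ζ ^ (d * a) = ζ ^ (N + a' * c) := by
    rw [pow_add, ← key, mul_assoc, pow_mul, pow_mul, ← mul_pow, ← mul_pow, mul_comm (e (b 1) (b 0)),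
      hζ, hswap]
    simp
  have hmod : d * a ≡ N + a' * c [MOD p] := by
    refine hprim.pow_inj (Nat.mod_lt _ hp.out.pos) (Nat.mod_lt _ hp.out.pos) ?_
    rw [← pow_eq_pow_mod _ hprim.pow_eq_one, ← pow_eq_pow_mod _ hprim.pow_eq_one]
    exact key2
  rw [← LinearMap.det_toMatrix b, Matrix.det_fin_two]
  have := (ZMod.natCast_eq_natCast_iff _ _ _).2 hmod
  simp only [Nat.cast_mul, Nat.cast_add, ha, hc, ha', hd, ZMod.natCast_zmod_val] at this
  simp only [LinearMap.toMatrix_apply]
  linear_combination this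

end Abstract

variable {k : Type u} [Field k] [DecidableEq k] [IsAlgClosed k] {V : WeierstrassCurve k}
  [V.IsElliptic]

omit [IsAlgClosed k] [V.IsElliptic] in
/-- A point of `E[n]` is killed by `n`. -/
lemma nsmul_coe_torsionBy {n : ℕ} (P : Submodule.torsionBy ℤ V.toAffine.Point n) :
    n • (P : V.toAffine.Point) = 0 := by
  rw [← natCast_zsmul]
  exact (Submodule.mem_torsionBy_iff _ _).1 P.2

/-- `E[p]` is a plane. -/
theorem finrank_torsionBy_zmod {ℓ : ℕ} [hl : Fact ℓ.Prime] (hl' : (ℓ : k) ≠ 0)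
    [Module (ZMod ℓ) (Submodule.torsionBy ℤ V.toAffine.Point ℓ)] :
    Module.finrank (ZMod ℓ) (Submodule.torsionBy ℤ V.toAffine.Point ℓ) = 2 := by
  have := finite_torsionBy (n := ℓ) (V_Δ_ne_zero V) hl'
  have h := Module.natCard_eq_pow_finrank (K := ZMod ℓ)
    (V := Submodule.torsionBy ℤ V.toAffine.Point ℓ)
  rw [natCard_torsionBy (V_Δ_ne_zero V) hl', Nat.card_zmod] at h
  exact (Nat.pow_right_injective hl.out.two_le h).symm

/-- An endomorphism of `E[p]` scaling the Weil pairing by `N` has determinant `N`. -/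
theorem det_eq_natCast_of_weilPair {p : ℕ} [hp : Fact p.Prime] (hpk : (p : k) ≠ 0)
    [Module (ZMod p) (Submodule.torsionBy ℤ V.toAffine.Point p)]
    (A : Submodule.torsionBy ℤ V.toAffine.Point p →ₗ[ZMod p]
      Submodule.torsionBy ℤ V.toAffine.Point p) (N : ℕ)
    (hA : ∀ S T : Submodule.torsionBy ℤ V.toAffine.Point p,
      weilPair p (A S : V.toAffine.Point) (A T : V.toAffine.Point) =
        weilPair p (S : V.toAffine.Point) (T : V.toAffine.Point) ^ N) :
    LinearMap.det A = (N : ZMod p) := by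
  refine det_eq_natCast_of_pairing (finrank_torsionBy_zmod hpk)
    (fun S T => weilPair p (S : V.toAffine.Point) (T : V.toAffine.Point)) ?_ ?_ ?_ ?_ ?_ A N hA
  · exact fun x y z => weilPair_add_left hpk (nsmul_coe_torsionBy x) (nsmul_coe_torsionBy y)
      (nsmul_coe_torsionBy z)
  · exact fun x y z => weilPair_add_right hpk (nsmul_coe_torsionBy x) (nsmul_coe_torsionBy y)
      (nsmul_coe_torsionBy z)
  · exact fun x y => weilPair_pow_eq_one hpk (nsmul_coe_torsionBy x) (nsmul_coe_torsionBy y)
  · exact fun x => weilPair_self hpk (nsmul_coe_torsionBy x)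
  · intro y hy
    refine Subtype.ext (weilPair_nondegenerate hpk (nsmul_coe_torsionBy y) fun S hS => ?_)
    exact hy ⟨S, (Submodule.mem_torsionBy_iff _ _).2 (by rw [natCast_zsmul]; exact hS)⟩

end FermatAgent.EC
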